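import Fermat.Agent.Corollaries.Falt.Main
import Fermat.Agent.EC.TateFrob
import Fermat.Agent.EC.MultInertia
import Fermat.Agent.GalRep.PowTrace

/-!
# Elliptic curves over `ℚ` with good reduction outside a finite set of primes

* `exists_primes_ap` : for a finite set `S` of primes there is a finite set `T` of primes such that
  two elliptic curves over `ℚ` with good reduction outside `S` and the same `a_p` for `p ∈ T` have
  the same `a_p` for all `p ∉ S`;
* `finite_ap`, `exists_finite_curves` : there are only finitely many families `(a_p)_{p ∉ S}` of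
  elliptic curves over `ℚ` with good reduction outside `S`.
-/

set_option autoImplicit false

namespace Fermat.Agent.Cor.Falt

open NumberField IsDedekindDomain Fermat.Agent.Frob Fermat.Agent.Classic.Disc
open Fermat.Agent.Cor.Frob Fermat.Agent.Cor.Herm Fermat.Agent.Tate Fermat.Agent.GalRep
open IsLocalRing (maximalIdeal ResidueField residue)

local notation "Qbar" => AlgebraicClosure ℚ

/-- a Weierstrass equation over `ℤ` of an elliptic curve with good reduction outside `S` -/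
def GoodOut (S : Finset ℕ) (W : WeierstrassCurve ℤ) : Prop :=
  W.Δ ≠ 0 ∧ ∀ p : ℕ, p.Prime → (p : ℤ) ∣ W.Δ → p ∈ S

theorem GoodOut.isGoodPrimeFor {S : Finset ℕ} {W : WeierstrassCurve ℤ} (h : GoodOut S W) {p : ℕ}
    (hp : p.Prime) (hpS : p ∉ S) : W.IsGoodPrimeFor p := fun hd => hpS (h.2 p hp hd)

theorem GoodOut.delta_ne_zero {S : Finset ℕ} {W : WeierstrassCurve ℤ} (h : GoodOut S W) :
    (W.map (Int.castRingHom ℚ)).Δ ≠ 0 := by
  rw [WeierstrassCurve.map_Δ, eq_intCast, Int.cast_ne_zero]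
  exact h.1

/-- the trace of a Frobenius element on the Tate module -/
theorem trace_tateRep {S : Finset ℕ} {W : WeierstrassCurve ℤ} (h : GoodOut S W) {ℓ : ℕ}
    [hℓ : Fact ℓ.Prime] {p : ℕ} (hp : p.Prime) (hpS : p ∉ S) (hpℓ : p ≠ ℓ)
    {A : ValuationSubring Qbar} (hA : A.LiesOverPrime p) {φ : GQ} (hφ : A.IsFrobeniusAt φ p) :
    LinearMap.trace ℤ_[ℓ] _ ((tateRep (W.map (Int.castRingHom ℚ)) h.delta_ne_zero ℓ).ρ φ) =
      ((W.apOfModel p : ℤ) : ℤ_[ℓ]) := by
  have : Fact p.Prime := ⟨hp⟩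
  have h1 := charpoly_tateRep_frobenius ℓ h.delta_ne_zero (h.isGoodPrimeFor hp hpS) hpℓ.symm hA hφ
  have h2 := trace_pow_of_charpoly
    (tateRep (W.map (Int.castRingHom ℚ)) h.delta_ne_zero ℓ).finrank_eq _ _ _ h1 1
  rwa [pow_one, tk_one] at h2

/-- the same `a_p` at the primes of a finite set outside `S ∪ {ℓ}` imply the same `a_p` outside
`S ∪ {ℓ}` -/
theorem exists_primes_ap_of (S : Finset ℕ) (ℓ : ℕ) [hℓ : Fact ℓ.Prime] :
    ∃ T : Finset ℕ, (∀ p ∈ T, p.Prime ∧ p ∉ S) ∧ ∀ W W' : WeierstrassCurve ℤ, GoodOut S W →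
      GoodOut S W' → (∀ p ∈ T, W.apOfModel p = W'.apOfModel p) →
      ∀ p : ℕ, p.Prime → p ∉ S → p ≠ ℓ → W.apOfModel p = W'.apOfModel p := by
  have := finite_residueField ℓ
  obtain ⟨T, hT, h⟩ := exists_primes_trace.{0, 0} (insert ℓ S) (insert ℓ S) ℓ 2
  refine ⟨T, fun p hp => ⟨(hT p hp).1, fun h => (hT p hp).2 (Finset.mem_insert_of_mem h)⟩, ?_⟩
  intro W W' hW hW' hap p hp hpS hpℓ
  obtain ⟨A, hA, φ, hφ⟩ := exists_frobenius p hp
  have key := h ℤ_[ℓ] _ _ (tateRep (W.map (Int.castRingHom ℚ)) hW.delta_ne_zero ℓ).ρ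
    (tateRep (W'.map (Int.castRingHom ℚ)) hW'.delta_ne_zero ℓ).ρ (card_residueField ℓ).le
    (tateRep (W.map (Int.castRingHom ℚ)) hW.delta_ne_zero ℓ).finrank_eq.le
    (tateRep (W'.map (Int.castRingHom ℚ)) hW'.delta_ne_zero ℓ).finrank_eq.le
    (tateRep (W.map (Int.castRingHom ℚ)) hW.delta_ne_zero ℓ).isAdicContinuous
    (tateRep (W'.map (Int.castRingHom ℚ)) hW'.delta_ne_zero ℓ).isAdicContinuous
    (fun q hq hqS => tateRep_unramified hW.delta_ne_zero ℓ hq
      (hW.isGoodPrimeFor hq fun h => hqS (Finset.mem_insert_of_mem h))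
      (fun h => hqS (h ▸ Finset.mem_insert_self _ _)))
    (fun q hq hqS => tateRep_unramified hW'.delta_ne_zero ℓ hq
      (hW'.isGoodPrimeFor hq fun h => hqS (Finset.mem_insert_of_mem h))
      (fun h => hqS (h ▸ Finset.mem_insert_self _ _)))
    (fun q hq B hB τ hτ => by
      have hqS := (hT q hq).2
      have h1 : q ∉ S := fun h => hqS (Finset.mem_insert_of_mem h)
      have h2 : q ≠ ℓ := fun h => hqS (h ▸ Finset.mem_insert_self _ _)
      rw [trace_tateRep hW (hT q hq).1 h1 h2 hB hτ, trace_tateRep hW' (hT q hq).1 h1 h2 hB hτ,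
        hap q hq]) φ
  rw [trace_tateRep hW hp hpS hpℓ hA hφ, trace_tateRep hW' hp hpS hpℓ hA hφ] at key
  exact_mod_cast key

/-- **A finite set of primes decides.** For a finite set `S` of primes there is a finite set `T` of
primes outside `S` such that two elliptic curves over `ℚ` with good reduction outside `S` and with
the same `a_p` for all `p ∈ T` have the same `a_p` for all `p ∉ S`. -/
theorem exists_primes_ap (S : Finset ℕ) :
    ∃ T : Finset ℕ, (∀ p ∈ T, p.Prime ∧ p ∉ S) ∧ ∀ W W' : WeierstrassCurve ℤ, GoodOut S W →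
      GoodOut S W' → (∀ p ∈ T, W.apOfModel p = W'.apOfModel p) →
      ∀ p : ℕ, p.Prime → p ∉ S → W.apOfModel p = W'.apOfModel p := by
  have : Fact (Nat.Prime 2) := ⟨Nat.prime_two⟩
  have : Fact (Nat.Prime 3) := ⟨Nat.prime_three⟩
  obtain ⟨T₂, hT₂, h₂⟩ := exists_primes_ap_of S 2
  obtain ⟨T₃, hT₃, h₃⟩ := exists_primes_ap_of S 3
  refine ⟨T₂ ∪ T₃, ?_, ?_⟩
  · intro p hp
    rcases Finset.mem_union.1 hp with h | h
    · exact hT₂ p h
    · exact hT₃ p h
  · intro W W' hW hW' hap p hp hpS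
    by_cases h : p = 2
    · subst h
      exact h₃ W W' hW hW' (fun q hq => hap q (Finset.mem_union_right _ hq)) 2 hp hpS (by norm_num)
    · exact h₂ W W' hW hW' (fun q hq => hap q (Finset.mem_union_left _ hq)) p hp hpS h

/-- the coordinates of a point -/
def toPair {R : Type*} [CommRing R] {W : WeierstrassCurve.Affine R} : W.Point → Option (R × R)
  | .zero => none
  | .some x y _ => some (x, y)

theorem toPair_injective {R : Type*} [CommRing R] {W : WeierstrassCurve.Affine R} :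
    Function.Injective (toPair (W := W)) := by
  rintro (_ | ⟨x₁, y₁, h₁⟩) (_ | ⟨x₂, y₂, h₂⟩) h <;>
    simp only [toPair, Option.some.injEq, Prod.mk.injEq, reduceCtorEq] at h
  · rfl
  · obtain ⟨rfl, rfl⟩ := h; rfl

/-- the trivial bound -/
theorem apOfModel_mem (W : WeierstrassCurve ℤ) {p : ℕ} (hp : p.Prime) :
    W.apOfModel p ∈ Set.Icc (-(p : ℤ) ^ 2) p := by
  have : Fact p.Prime := ⟨hp⟩
  have h1 : 0 < (W.reductionMod p).card := Nat.card_pos
  have h2 : (W.reductionMod p).card ≤ p * p + 1 := by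
    have h := Nat.card_le_card_of_injective _
      (toPair_injective (W := (W.reductionMod p).toAffine))
    refine h.trans ?_
    rw [Nat.card_eq_fintype_card, Fintype.card_option, Fintype.card_prod, ZMod.card]
  have h3 : W.apOfModel p = (Nat.card (ZMod p) : ℤ) + 1 - ((W.reductionMod p).card : ℤ) := rfl
  rw [Nat.card_zmod] at h3
  rw [Set.mem_Icc, h3]
  constructor
  · have : ((W.reductionMod p).card : ℤ) ≤ p * p + 1 := by exact_mod_cast h2
    nlinarith
  · have : (1 : ℤ) ≤ ((W.reductionMod p).card : ℤ) := by exact_mod_cast h1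
    linarith

open Classical in
/-- **Finiteness of the L-functions.** There are only finitely many families `(a_p)_{p ∉ S}` of
elliptic curves over `ℚ` with good reduction outside the finite set `S`. -/
theorem finite_ap (S : Finset ℕ) :
    {a : ℕ → ℤ | ∃ W : WeierstrassCurve ℤ, GoodOut S W ∧
      ∀ p, a p = if p.Prime ∧ p ∉ S then W.apOfModel p else 0}.Finite := by
  obtain ⟨T, hT, h⟩ := exists_primes_ap S
  refine Set.Finite.of_finite_image (f := fun g : ℕ → ℤ => fun p : T => g p)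
    ((Set.Finite.pi' fun p : T => Set.finite_Icc (-((p : ℕ) : ℤ) ^ 2) (p : ℕ)).subset ?_) ?_
  · rintro _ ⟨a, ⟨W, hW, ha⟩, rfl⟩ p
    change a p ∈ _
    rw [ha, if_pos ⟨(hT p p.2).1, (hT p p.2).2⟩]
    exact apOfModel_mem W (hT p p.2).1
  · rintro a ⟨W, hW, ha⟩ b ⟨W', hW', hb⟩ hab
    have h1 : ∀ p ∈ T, W.apOfModel p = W'.apOfModel p := by
      intro p hp
      have h2 := congrFun hab ⟨p, hp⟩
      change a p = b p at h2
      rwa [ha, hb, if_pos ⟨(hT p hp).1, (hT p hp).2⟩, if_pos ⟨(hT p hp).1, (hT p hp).2⟩] at h2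
    funext p
    rw [ha, hb]
    by_cases hp : p.Prime ∧ p ∉ S
    · rw [if_pos hp, if_pos hp]
      exact h W W' hW hW' h1 p hp.1 hp.2
    · rw [if_neg hp, if_neg hp]

/-- **Finitely many curves represent all the L-functions.** -/
theorem exists_finite_curves (S : Finset ℕ) :
    ∃ F : Set (WeierstrassCurve ℤ), F.Finite ∧ (∀ W ∈ F, GoodOut S W) ∧
      ∀ W : WeierstrassCurve ℤ, GoodOut S W → ∃ W' ∈ F,
        ∀ p : ℕ, p.Prime → p ∉ S → W.apOfModel p = W'.apOfModel p := by
  classical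
  have hfin := finite_ap S
  set Z := {a : ℕ → ℤ | ∃ W : WeierstrassCurve ℤ, GoodOut S W ∧
      ∀ p, a p = if p.Prime ∧ p ∉ S then W.apOfModel p else 0} with hZ
  have : Finite Z := hfin.to_subtype
  choose F hF hFa using fun a : Z => a.2
  refine ⟨Set.range F, Set.finite_range F, ?_, ?_⟩
  · rintro _ ⟨a, rfl⟩
    exact hF a
  · intro W hW
    let a : ℕ → ℤ := fun p => if p.Prime ∧ p ∉ S then W.apOfModel p else 0
    have ha : a ∈ Z := ⟨W, hW, fun p => rfl⟩
    refine ⟨F ⟨a, ha⟩, ⟨_, rfl⟩, fun p hp hpS => ?_⟩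
    have h1 := hFa ⟨a, ha⟩ p
    change a p = _ at h1
    rw [if_pos ⟨hp, hpS⟩] at h1
    rw [← h1]
    exact (if_pos ⟨hp, hpS⟩).symm

end Fermat.Agent.Cor.Falt
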