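import Fermat.Agent.Corollaries.Falt.BaseIso
import Fermat.Agent.Corollaries.Falt.Elliptic
import Fermat.Agent.Corollaries.HW.TateEquiv

/-!
# Semisimple representations and almost all Frobenius elements; Tate modules

* `conj_of_almost_all`, `conj_tfae` : two continuous semisimple representations `Gal(ℚ̄/K) → GL_d(F)`, `K` a
  number field, `F` a finite extension of `ℚ_ℓ`, unramified outside a finite set, are conjugate if
  and only if the traces of the Frobenius elements are the same at the places of degree one above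
  almost all primes;
* `exists_primes_tateIso`, `exists_finite_tateIso_all` : for the elliptic curves over `ℚ` with good
  reduction outside a finite set `S` finitely many `a_p` determine the Galois modules `T_p` (`p` odd,
  irreducible modulo `p`), and there are only finitely many of them.
-/

set_option autoImplicit false

namespace Fermat.Agent.Cor.Falt

open NumberField IsDedekindDomain Fermat.Agent.Frob Fermat.Agent.Classic.Disc
open Fermat.Agent.Cor.Frob Fermat.Agent.Cor.Herm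

local notation "Qbar" => AlgebraicClosure ℚ

section Almost

variable {K : IntermediateField ℚ Qbar} [NumberField K]

/-- **Chebotarev and Brauer-Nesbitt over a number field `K`.** Continuous semisimple representations
`Gal(ℚ̄/K) → GL_d(F)`, `F` a finite extension of `ℚ_ℓ`, unramified outside a finite set of primes,
are conjugate as soon as the Frobenius elements at the places of degree one above almost all primes
have the same traces. -/
theorem conj_of_almost_all (ℓ : ℕ) [hℓ : Fact ℓ.Prime] {F : Type*} [NormedField F]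
    [NormedAlgebra ℚ_[ℓ] F] [FiniteDimensional ℚ_[ℓ] F] {d : ℕ}
    {ρ₁ ρ₂ : K.fixingSubgroup →* GL (Fin d) F} (hc₁ : Continuous ρ₁)
    (hc₂ : Continuous ρ₂) {S S' : Finset ℕ} (hS₁ : UnrBase K S ρ₁) (hS₂ : UnrBase K S ρ₂)
    (hs₁ : (repG ρ₁).IsSemisimpleRepresentation) (hs₂ : (repG ρ₂).IsSemisimpleRepresentation)
    (h : ∀ p : ℕ, p.Prime → p ∉ S' → ∀ A : ValuationSubring Qbar, A.LiesOverPrime p →
      ∀ φ : K.fixingSubgroup, A.IsFrobeniusAt (φ : GQ) p → (ρ₁ φ).1.trace = (ρ₂ φ).1.trace) :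
    ∃ g : GL (Fin d) F, ∀ σ, g * ρ₁ σ * g⁻¹ = ρ₂ σ := by
  obtain ⟨T, -, hfrob, key⟩ := exists_frob_iso_base K S S' ℓ d (Module.finrank ℚ_[ℓ] F)
  refine key F ρ₁ ρ₂ le_rfl hc₁ hc₂ hS₁ hS₂ hs₁ hs₂ fun φ hφ => ?_
  obtain ⟨p, hp, hpS, A, hA, hf⟩ := hfrob φ hφ
  exact h p hp hpS A hA φ hf

theorem trace_conj {F : Type*} [Field F] {d : ℕ} {G : Type*} [Group G] {ρ₁ ρ₂ : G →* GL (Fin d) F}
    {g : GL (Fin d) F}
    (hg : ∀ σ, g * ρ₁ σ * g⁻¹ = ρ₂ σ) (σ : G) : (ρ₁ σ).1.trace = (ρ₂ σ).1.trace := by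
  rw [← hg σ]
  change _ = (g.1 * (ρ₁ σ).1 * (g⁻¹).1).trace
  rw [Matrix.trace_mul_comm, ← mul_assoc, ← Units.val_mul, inv_mul_cancel, Units.val_one, one_mul]

/-- **Semisimple `ℓ`-adic representations and traces of Frobenius elements**: equivalent are: the
representations are conjugate; all traces are the same; the traces of the Frobenius elements at the
places of degree one above almost all primes are the same. -/
theorem conj_tfae (ℓ : ℕ) [hℓ : Fact ℓ.Prime] {F : Type*} [NormedField F]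
    [NormedAlgebra ℚ_[ℓ] F] [FiniteDimensional ℚ_[ℓ] F] {d : ℕ}
    {ρ₁ ρ₂ : K.fixingSubgroup →* GL (Fin d) F} (hc₁ : Continuous ρ₁)
    (hc₂ : Continuous ρ₂) {S : Finset ℕ} (hS₁ : UnrBase K S ρ₁) (hS₂ : UnrBase K S ρ₂)
    (hs₁ : (repG ρ₁).IsSemisimpleRepresentation) (hs₂ : (repG ρ₂).IsSemisimpleRepresentation) :
    [∃ g : GL (Fin d) F, ∀ σ, g * ρ₁ σ * g⁻¹ = ρ₂ σ,
      ∀ σ, (ρ₁ σ).1.trace = (ρ₂ σ).1.trace,
      ∃ S' : Finset ℕ, ∀ p : ℕ, p.Prime → p ∉ S' → ∀ A : ValuationSubring Qbar,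
        A.LiesOverPrime p → ∀ φ : K.fixingSubgroup, A.IsFrobeniusAt (φ : GQ) p →
          (ρ₁ φ).1.trace = (ρ₂ φ).1.trace].TFAE := by
  tfae_have 1 → 2 := fun ⟨g, hg⟩ σ => trace_conj hg σ
  tfae_have 2 → 3 := fun h => ⟨∅, fun _ _ _ _ _ φ _ => h φ⟩
  tfae_have 3 → 1 := fun ⟨S', h⟩ => conj_of_almost_all ℓ hc₁ hc₂ hS₁ hS₂ hs₁ hs₂ h
  tfae_finish

/-- The same for `Gal(ℚ̄/ℚ)`. -/
theorem conj_of_almost_all_rat (ℓ : ℕ) [hℓ : Fact ℓ.Prime] {F : Type*} [NormedField F]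
    [NormedAlgebra ℚ_[ℓ] F] [FiniteDimensional ℚ_[ℓ] F] {d : ℕ}
    {ρ₁ ρ₂ : GQ →* GL (Fin d) F} (hc₁ : Continuous ρ₁)
    (hc₂ : Continuous ρ₂) {S S' : Finset ℕ} (hS₁ : UnrOutside S ρ₁) (hS₂ : UnrOutside S ρ₂)
    (hs₁ : (rep ρ₁).IsSemisimpleRepresentation) (hs₂ : (rep ρ₂).IsSemisimpleRepresentation)
    (h : ∀ p : ℕ, p.Prime → p ∉ S' → ∀ A : ValuationSubring Qbar, A.LiesOverPrime p →
      ∀ φ : GQ, A.IsFrobeniusAt φ p → (ρ₁ φ).1.trace = (ρ₂ φ).1.trace) :
    ∃ g : GL (Fin d) F, ∀ σ, g * ρ₁ σ * g⁻¹ = ρ₂ σ := by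
  obtain ⟨T, -, hfrob, key⟩ := exists_frob_iso S S' ℓ d (Module.finrank ℚ_[ℓ] F)
  refine key F ρ₁ ρ₂ le_rfl hc₁ hc₂ hS₁ hS₂ hs₁ hs₂ fun φ hφ => ?_
  obtain ⟨p, hp, hpS, A, hA, hf⟩ := hfrob φ hφ
  exact h p hp hpS A hA φ hf

end Almost

section Tate

open Fermat.Agent.Cor.HW

/-- **Finitely many `a_p` determine the Tate modules.** For every finite set `S` of primes there is
a finite set `T` of primes outside `S` such that two elliptic curves over `ℚ` with good reduction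
outside `S` with the same `a_p` for `p ∈ T` have isomorphic `ℓ`-adic Tate modules for every odd
prime `ℓ` for which one of the two mod `ℓ` representations is irreducible. -/
theorem exists_primes_tateIso (S : Finset ℕ) :
    ∃ T : Finset ℕ, (∀ p ∈ T, p.Prime ∧ p ∉ S) ∧ ∀ W W' : WeierstrassCurve ℤ, GoodOut S W →
      GoodOut S W' → (∀ p ∈ T, W.apOfModel p = W'.apOfModel p) →
      ∀ (ℓ : ℕ) [Fact ℓ.Prime], ℓ ≠ 2 → W.ModRepIsIrreducible ℓ → TateIso W W' ℓ := by
  obtain ⟨T, hT, h⟩ := exists_primes_ap S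
  refine ⟨T, hT, fun W W' hW hW' hap ℓ _ hℓ hirr => ?_⟩
  exact (tateIso_iff hW.1 hW'.1 hℓ hirr).2 ⟨S, fun p hp hpS => h W W' hW hW' hap p hp hpS⟩

/-- **Finitely many Tate modules.** For every finite set `S` of primes there are finitely many
elliptic curves over `ℚ` with good reduction outside `S` such that every elliptic curve `W` over `ℚ`
with good reduction outside `S` has the same `a_p` for all `p ∉ S` as one of them, `W'`, and
`T_ℓ W ≃ T_ℓ W'` for every odd prime `ℓ` with `W[ℓ]` irreducible. -/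
theorem exists_finite_tateIso_all (S : Finset ℕ) :
    ∃ X : Set (WeierstrassCurve ℤ), X.Finite ∧ (∀ W ∈ X, GoodOut S W) ∧
      ∀ W : WeierstrassCurve ℤ, GoodOut S W → ∃ W' ∈ X,
        (∀ p : ℕ, p.Prime → p ∉ S → W.apOfModel p = W'.apOfModel p) ∧
        ∀ (ℓ : ℕ) [Fact ℓ.Prime], ℓ ≠ 2 → W.ModRepIsIrreducible ℓ → TateIso W W' ℓ := by
  obtain ⟨X, hX, hXS, h⟩ := exists_finite_curves S
  refine ⟨X, hX, hXS, fun W hW => ?_⟩
  obtain ⟨W', hW', hap⟩ := h W hW
  exact ⟨W', hW', hap, fun ℓ _ hℓ hirr => (tateIso_iff hW.1 (hXS W' hW').1 hℓ hirr).2 ⟨S, hap⟩⟩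

end Tate

end Fermat.Agent.Cor.Falt
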