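import Fermat.Agent.Corollaries.Falt.MultOne
import Fermat.Agent.Corollaries.ZetaK.Perlis
import Fermat.Agent.Corollaries.ZetaK.FrobFinal

/-!
# The density of the primes which distinguish two Dedekind zeta functions

Let `K` and `L` be number fields of degree `n` over `ℚ` with different Dedekind zeta functions. The
set of the primes `p` above which `K` and `L` have different numbers of places of degree one has a
natural density, and it is at least `2 / n²`; for `n = 2` this is best possible (the density is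
`1 / 2` for any two different quadratic fields).
-/

set_option autoImplicit false

open Filter Topology

namespace Fermat.Agent.Cor.Falt

section Perm

variable {G : Type*} [Group G]

/-- the permutation representation -/
noncomputable def permRep {X : Type*} (π : G →* Equiv.Perm X) : Representation ℂ G (X → ℂ) where
  toFun g := LinearMap.funLeft ℂ ℂ (π g⁻¹)
  map_one' := by
    ext f x
    simp
  map_mul' g h := by
    ext f x
    simp [LinearMap.funLeft_apply]

theorem permRep_apply {X : Type*} (π : G →* Equiv.Perm X) (g : G) (f : X → ℂ) (x : X) :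
    permRep π g f x = f (π g⁻¹ x) := rfl

theorem character_permRep {X : Type*} [Finite X] (π : G →* Equiv.Perm X) (g : G) :
    (permRep π).character g = (Nat.card {x : X // π g x = x} : ℂ) := by
  classical
  have := Fintype.ofFinite X
  change LinearMap.trace ℂ _ (permRep π g) = _
  rw [LinearMap.trace_eq_matrix_trace ℂ (Pi.basisFun ℂ X), Matrix.trace,
    Nat.card_eq_fintype_card, Fintype.card_subtype, Finset.card_filter, Nat.cast_sum]
  refine Finset.sum_congr rfl fun x _ => ?_
  rw [Matrix.diag_apply, LinearMap.toMatrix_apply, Pi.basisFun_apply, Pi.basisFun_repr,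
    permRep_apply, Pi.single_apply, map_inv]
  by_cases h : π g x = x
  · rw [if_pos (by rw [Equiv.Perm.inv_eq_iff_eq, h]), if_pos h, Nat.cast_one]
  · rw [if_neg (fun h1 => h (by rw [Equiv.Perm.inv_eq_iff_eq] at h1; exact h1.symm)), if_neg h,
      Nat.cast_zero]

theorem character_congr {V₁ V₂ : Type*} [AddCommGroup V₁] [AddCommGroup V₂] [Module ℂ V₁]
    [Module ℂ V₂] (ρ₁ : Representation ℂ G V₁) (ρ₂ : Representation ℂ G V₂)
    (h : ∃ e : V₁ ≃ₗ[ℂ] V₂, ∀ (g : G) (v : V₁), e (ρ₁ g v) = ρ₂ g (e v)) (g : G) :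
    ρ₁.character g = ρ₂.character g := by
  obtain ⟨e, he⟩ := h
  change LinearMap.trace ℂ _ (ρ₁ g) = LinearMap.trace ℂ _ (ρ₂ g)
  rw [← LinearMap.trace_conj' (ρ₁ g) e]
  congr 1
  ext v
  rw [LinearEquiv.conj_apply_apply, he, LinearEquiv.apply_symm_apply]

/-- **The refined form of `card_le_of_not_equiv`**: if `|χ₁ - χ₂| ≤ B`, then the characters are
different at `2 |G| / B²` elements at least. -/
theorem two_mul_card_le_of_not_equiv [Fintype G] {V₁ V₂ : Type*} [AddCommGroup V₁]
    [AddCommGroup V₂] [Module ℂ V₁] [Module ℂ V₂] [FiniteDimensional ℂ V₁] [FiniteDimensional ℂ V₂]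
    (hd : Module.finrank ℂ V₁ = Module.finrank ℂ V₂)
    (ρ₁ : Representation ℂ G V₁) (ρ₂ : Representation ℂ G V₂) {B : ℕ}
    (hB : ∀ g, ‖ρ₁.character g - ρ₂.character g‖ ≤ B)
    (hne : ¬ ∃ e : V₁ ≃ₗ[ℂ] V₂, ∀ (g : G) (v : V₁), e (ρ₁ g v) = ρ₂ g (e v)) :
    2 * Nat.card G ≤ B ^ 2 * Nat.card {g : G // ρ₁.character g ≠ ρ₂.character g} := by
  classical
  have hf₁ : FiniteDimensional ℂ ρ₁.asModule :=
    LinearEquiv.finiteDimensional ρ₁.asModuleEquiv.symm
  have hf₂ : FiniteDimensional ℂ ρ₂.asModule :=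
    LinearEquiv.finiteDimensional ρ₂.asModuleEquiv.symm
  have hne' : ¬ Nonempty (ρ₁.asModule ≃ₗ[MonoidAlgebra ℂ G] ρ₂.asModule) := by
    rintro ⟨e⟩
    refine hne ⟨(ρ₁.asModuleEquiv.symm.trans (e.restrictScalars ℂ)).trans ρ₂.asModuleEquiv,
      fun g v => ?_⟩
    change ρ₂.asModuleEquiv (e (ρ₁.asModuleEquiv.symm (ρ₁ g v))) =
      ρ₂ g (ρ₂.asModuleEquiv (e (ρ₁.asModuleEquiv.symm v)))
    rw [Representation.asModuleEquiv_symm_map_rho, map_smul,
      Representation.asModuleEquiv_map_smul, Representation.asAlgebraHom_of]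
  obtain ⟨c, hc2, hsum⟩ := exists_two_le (G := G) (Module.finrank ℂ V₁) ρ₁.asModule ρ₂.asModule
    ρ₁.asModuleEquiv.finrank_eq (ρ₂.asModuleEquiv.finrank_eq.trans hd.symm) hne'
  simp only [character_asModule] at hsum
  set D := Finset.univ.filter fun g : G => ρ₁.character g ≠ ρ₂.character g with hD
  have hcardD : Nat.card {g : G // ρ₁.character g ≠ ρ₂.character g} = D.card := by
    rw [Nat.card_eq_fintype_card, Fintype.card_subtype]
  have h1 : ∑ g : G, (ρ₁.character g - ρ₂.character g) * (ρ₁.character g⁻¹ - ρ₂.character g⁻¹) =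
      ∑ g ∈ D, (ρ₁.character g - ρ₂.character g) * (ρ₁.character g⁻¹ - ρ₂.character g⁻¹) := by
    symm
    refine Finset.sum_subset (Finset.subset_univ _) fun g _ hg => ?_
    have h2 : ρ₁.character g = ρ₂.character g := by
      by_contra h3
      exact hg (Finset.mem_filter.2 ⟨Finset.mem_univ _, h3⟩)
    rw [h2, sub_self, zero_mul]
  have h2 : ‖∑ g ∈ D, (ρ₁.character g - ρ₂.character g) *
      (ρ₁.character g⁻¹ - ρ₂.character g⁻¹)‖ ≤ D.card * ((B : ℝ) * B) := by
    refine (norm_sum_le _ _).trans ?_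
    rw [← nsmul_eq_mul]
    refine Finset.sum_le_card_nsmul _ _ _ fun g _ => ?_
    rw [norm_mul]
    exact mul_le_mul (hB g) (hB _) (norm_nonneg _) (by positivity)
  rw [← h1, hsum, norm_mul, Complex.norm_natCast, Complex.norm_natCast] at h2
  have h3 : c * Nat.card G ≤ D.card * (B * B) := by exact_mod_cast h2
  have h4 : 2 * Nat.card G ≤ c * Nat.card G := Nat.mul_le_mul_right _ hc2
  rw [hcardD]
  refine (h4.trans h3).trans (le_of_eq ?_)
  ring

/-- **Two actions of a finite group on sets of `n` elements** with different numbers of fixed points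
at some element: the numbers of fixed points are different at `2 |G| / n²` elements at least. -/
theorem two_mul_card_le_fixedPoints [Finite G] {X Y : Type*} [Finite X] [Finite Y] {n : ℕ}
    (hX : Nat.card X = n) (hY : Nat.card Y = n) (π₁ : G →* Equiv.Perm X) (π₂ : G →* Equiv.Perm Y)
    (hne : ∃ g, Nat.card {x : X // π₁ g x = x} ≠ Nat.card {y : Y // π₂ g y = y}) :
    2 * Nat.card G ≤ n ^ 2 * Nat.card {g : G // Nat.card {x : X // π₁ g x = x} ≠
      Nat.card {y : Y // π₂ g y = y}} := by
  classical
  have := Fintype.ofFinite G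
  have := Fintype.ofFinite X
  have := Fintype.ofFinite Y
  have hiff : ∀ g, (permRep π₁).character g ≠ (permRep π₂).character g ↔
      Nat.card {x : X // π₁ g x = x} ≠ Nat.card {y : Y // π₂ g y = y} := fun g => by
    rw [character_permRep, character_permRep, ne_eq, Nat.cast_inj]
  have hd : Module.finrank ℂ (X → ℂ) = Module.finrank ℂ (Y → ℂ) := by
    rw [Module.finrank_fintype_fun_eq_card, Module.finrank_fintype_fun_eq_card,
      ← Nat.card_eq_fintype_card, ← Nat.card_eq_fintype_card, hX, hY]
  have key := two_mul_card_le_of_not_equiv hd (B := n) (permRep π₁) (permRep π₂) ?_ ?_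
  · rwa [Nat.card_congr (Equiv.subtypeEquivRight hiff)] at key
  · intro g
    rw [character_permRep, character_permRep]
    have h1 : Nat.card {x : X // π₁ g x = x} ≤ n := hX ▸ Finite.card_subtype_le _
    have h2 : Nat.card {y : Y // π₂ g y = y} ≤ n := hY ▸ Finite.card_subtype_le _
    have h3 : ((Nat.card {x : X // π₁ g x = x} : ℂ) - (Nat.card {y : Y // π₂ g y = y} : ℂ)) =
        (((Nat.card {x : X // π₁ g x = x} : ℝ) - (Nat.card {y : Y // π₂ g y = y} : ℝ) : ℝ) : ℂ) := by
      push_cast
      rfl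
    rw [h3, Complex.norm_real, Real.norm_eq_abs, abs_le]
    have h1' : (Nat.card {x : X // π₁ g x = x} : ℝ) ≤ n := by exact_mod_cast h1
    have h2' : (Nat.card {y : Y // π₂ g y = y} : ℝ) ≤ n := by exact_mod_cast h2
    constructor
    · have := Nat.cast_nonneg (α := ℝ) (Nat.card {x : X // π₁ g x = x})
      linarith
    · have := Nat.cast_nonneg (α := ℝ) (Nat.card {y : Y // π₂ g y = y})
      linarith
  · intro h
    obtain ⟨g, hg⟩ := hne
    exact (hiff g).2 hg (character_congr _ _ h g)

theorem card_fix_conj {X : Type*} (s t : Equiv.Perm X) :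
    Nat.card {x : X // (t⁻¹ * s * t) x = x} = Nat.card {x : X // s x = x} := by
  refine Nat.card_congr (t.subtypeEquiv fun x => ?_)
  rw [Equiv.Perm.mul_apply, Equiv.Perm.mul_apply, Equiv.Perm.inv_eq_iff_eq]

theorem card_fix_of_zpowers {X : Type*} {s t : Equiv.Perm X}
    (h : Subgroup.zpowers s = Subgroup.zpowers t) :
    Nat.card {x : X // s x = x} = Nat.card {x : X // t x = x} := by
  refine Nat.card_congr (Equiv.subtypeEquivRight fun x => ⟨fun hx => ?_, fun hx => ?_⟩)
  · obtain ⟨k, hk⟩ := Subgroup.mem_zpowers_iff.1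
      (h ▸ Subgroup.mem_zpowers t : t ∈ Subgroup.zpowers s)
    rw [← hk]
    exact Equiv.Perm.zpow_apply_eq_self_of_apply_eq_self hx k
  · obtain ⟨k, hk⟩ := Subgroup.mem_zpowers_iff.1
      (h ▸ Subgroup.mem_zpowers s : s ∈ Subgroup.zpowers t)
    rw [← hk]
    exact Equiv.Perm.zpow_apply_eq_self_of_apply_eq_self hx k

end Perm

section Fields

open NumberField Fermat.Agent.Frob Fermat.Agent.Classic.Disc Fermat.Agent.Cor.Frob

local notation "Qbar" => AlgebraicClosure ℚ

variable {K L : Type*} [Field K] [NumberField K] [Field L] [NumberField L]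

theorem degOne_eq_fixCard : ∃ D : ℕ, D ≠ 0 ∧ ∀ p : ℕ, p.Prime → ¬ p ∣ D →
    ∀ A : ValuationSubring Qbar, A.LiesOverPrime p →
    ∀ σ : GQ, A.IsFrobeniusAt σ p → degOne K p = fixCard K σ := by
  obtain ⟨D, hD, h⟩ := Cor.Frob.decType_eq (K := K)
  refine ⟨D, hD, fun p hp hpD A hA σ hσ => ?_⟩
  rw [degOne_eq_count, h p hp hpD A hA σ hσ, count_one_cycType]

/-- **The primes which distinguish two zeta functions**, with `x / log x`. -/
theorem exists_hasDensity_degOne (hn : Module.finrank ℚ K = Module.finrank ℚ L)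
    (hne : dedekindZeta K ≠ dedekindZeta L) :
    ∃ δ : ℝ, 2 / (Module.finrank ℚ K : ℝ) ^ 2 ≤ δ ∧
      HasDensity (fun p => degOne K p ≠ degOne L p) δ := by
  classical
  have hne' : ¬ ArithEquiv K L := fun h => hne h.dedekindZeta_eq
  obtain ⟨σ₀, hσ₀⟩ := not_forall.1 hne'
  let Φ := (embPerm K).prod (embPerm L)
  let r : GQ →* Φ.range := Φ.rangeRestrict
  let p₁ : Φ.range →* Equiv.Perm (K →+* Qbar) := (MonoidHom.fst _ _).comp Φ.range.subtype
  let p₂ : Φ.range →* Equiv.Perm (L →+* Qbar) := (MonoidHom.snd _ _).comp Φ.range.subtype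
  have hp₁ : ∀ σ, p₁ (r σ) = embPerm K σ := fun σ => rfl
  have hp₂ : ∀ σ, p₂ (r σ) = embPerm L σ := fun σ => rfl
  have hker : IsOpen ((r.ker : Subgroup GQ) : Set GQ) := by
    change IsOpen ((Φ.rangeRestrict.ker : Subgroup GQ) : Set GQ)
    rw [MonoidHom.ker_rangeRestrict, MonoidHom.ker_prod]
    exact (isOpen_ker_embPerm K).inter (isOpen_ker_embPerm L)
  have hex : ∀ p : ℕ, ∃ σ : GQ, p.Prime → ∃ A : ValuationSubring Qbar,
      A.LiesOverPrime p ∧ A.IsFrobeniusAt σ p := by
    intro p
    by_cases hp : p.Prime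
    · obtain ⟨A, hA, σ, hσ⟩ := exists_frobenius p hp
      exact ⟨σ, fun _ => ⟨A, hA, hσ⟩⟩
    · exact ⟨1, fun h => absurd h hp⟩
  choose φ hφ using hex
  let C : Set Φ.range := {g | Nat.card {j : K →+* Qbar // p₁ g j = j} ≠
    Nat.card {j : L →+* Qbar // p₂ g j = j}}
  have hC : ∀ g, g ∈ C ↔ Nat.card {j : K →+* Qbar // p₁ g j = j} ≠
    Nat.card {j : L →+* Qbar // p₂ g j = j} := fun g => Iff.rfl
  have h1 := Frob.Final.frobenius_density hker Φ.rangeRestrict_surjective hφ (S := C)
    (fun x g hg => by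
      rw [hC] at hg ⊢
      rw [map_mul, map_mul, map_inv, map_mul, map_mul, map_inv, card_fix_conj, card_fix_conj]
      exact hg)
    (fun g g' hz hg => by
      rw [hC] at hg ⊢
      have h3 := congrArg (Subgroup.map p₁) hz
      have h4 := congrArg (Subgroup.map p₂) hz
      rw [MonoidHom.map_zpowers, MonoidHom.map_zpowers] at h3 h4
      rw [← card_fix_of_zpowers h3, ← card_fix_of_zpowers h4]
      exact hg)
  obtain ⟨D, hD, hK⟩ := degOne_eq_fixCard (K := K)
  obtain ⟨D', hD', hL⟩ := degOne_eq_fixCard (K := L)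
  refine ⟨(Nat.card C : ℝ) / Nat.card Φ.range, ?_, h1.congr (mul_ne_zero hD hD')
    fun p hp hpD => ?_⟩
  · have hG : (0 : ℝ) < Nat.card Φ.range := by exact_mod_cast Nat.card_pos
    have hn0 : (0 : ℝ) < Module.finrank ℚ K := by exact_mod_cast Module.finrank_pos
    have h2 := two_mul_card_le_fixedPoints (n := Module.finrank ℚ K) (natCard_emb K)
      ((natCard_emb L).trans hn.symm) p₁ p₂ ⟨r σ₀, hσ₀⟩
    rw [div_le_div_iff₀ (by positivity) hG]
    have h3 : 2 * (Nat.card Φ.range : ℝ) ≤ (Module.finrank ℚ K : ℝ) ^ 2 * Nat.card C := by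
      exact_mod_cast h2
    linarith
  · obtain ⟨A, hA, hσ⟩ := hφ p hp
    rw [hK p hp (fun hd => hpD (hd.mul_right _)) A hA _ hσ,
      hL p hp (fun hd => hpD (hd.mul_left _)) A hA _ hσ]
    rfl

open Classical in
theorem tendsto_div_primeCounting {P : ℕ → Prop} {δ : ℝ} (h : HasDensity P δ) :
    Tendsto (fun x : ℕ => (((Finset.range (x + 1)).filter fun p => p.Prime ∧ P p).card : ℝ) /
      Nat.primeCounting x) atTop (𝓝 δ) := by
  have h1 := (hasDensity_iff.1 h).div prime_number_theorem one_ne_zero
  rw [div_one] at h1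
  refine h1.congr' ?_
  filter_upwards [eventually_gt_atTop 1] with x hx
  have hx0 : (0 : ℝ) < x := by exact_mod_cast (by omega : 0 < x)
  have hl : 0 < Real.log (x : ℝ) := Real.log_pos (by exact_mod_cast hx)
  rcases eq_or_ne (Nat.primeCounting x : ℝ) 0 with h0 | h0
  · simp only [Pi.div_apply, h0, zero_mul, zero_div, div_zero]
  · simp only [Pi.div_apply]
    field_simp

/-- **The density of the primes which distinguish two zeta functions.** Let `K` and `L` be number
fields of degree `n` with different Dedekind zeta functions. The set of the primes `p` above which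
`K` and `L` have different numbers of places of degree one has a natural density, and it is at least
`2 / n²`. -/
theorem exists_density_degOne (hn : Module.finrank ℚ K = Module.finrank ℚ L)
    (hne : dedekindZeta K ≠ dedekindZeta L) :
    ∃ δ : ℝ, 2 / (Module.finrank ℚ K : ℝ) ^ 2 ≤ δ ∧
      Tendsto (fun x : ℕ => (((Finset.range (x + 1)).filter fun p =>
        p.Prime ∧ degOne K p ≠ degOne L p).card : ℝ) / Nat.primeCounting x) atTop (𝓝 δ) := by
  obtain ⟨δ, hδ, h⟩ := exists_hasDensity_degOne hn hne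
  refine ⟨δ, hδ, ?_⟩
  convert tendsto_div_primeCounting h

/-- **Almost all primes are not needed in the theorem of Gassmann and Perlis**: let `K` and `L` be
number fields of degree `n`. If the proportion of the primes `p ≤ x` above which they have the same
number of places of degree one is at least `1 - 2 / n² + ε` for arbitrarily large `x`, the Dedekind
zeta functions of `K` and `L` are equal. -/
theorem dedekindZeta_eq_of_frequently (hn : Module.finrank ℚ K = Module.finrank ℚ L)
    {ε : ℝ} (hε : 0 < ε)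
    (hfreq : ∃ᶠ x : ℕ in atTop,
      (1 - 2 / (Module.finrank ℚ K : ℝ) ^ 2 + ε) * Nat.primeCounting x ≤
      (((Finset.range (x + 1)).filter fun p => p.Prime ∧ degOne K p = degOne L p).card : ℝ)) :
    dedekindZeta K = dedekindZeta L := by
  by_contra hne
  obtain ⟨δ, hδ, hlim⟩ := exists_density_degOne hn hne
  have h3 := hlim.eventually (lt_mem_nhds (show δ - ε < δ by linarith))
  obtain ⟨x, hx, hx', hx2⟩ := (hfreq.and_eventually (h3.and (eventually_ge_atTop 2))).exists
  have hpos : (0 : ℝ) < Nat.primeCounting x := by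
    have h4 : 0 < Nat.primeCounting x := by
      have h5 := Nat.monotone_primeCounting hx2
      have h6 : Nat.primeCounting 2 = 1 := by decide
      omega
    exact_mod_cast h4
  rw [lt_div_iff₀ hpos] at hx'
  have hpc : ((Finset.range (x + 1)).filter Nat.Prime).card = Nat.primeCounting x := by
    rw [Nat.primeCounting, Nat.primeCounting', Nat.count_eq_card_filter_range]
  have hsum := Finset.card_filter_add_card_filter_not
    (s := (Finset.range (x + 1)).filter Nat.Prime) (fun p => degOne K p = degOne L p)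
  rw [Finset.filter_filter, Finset.filter_filter, hpc] at hsum
  have hsum' : (((Finset.range (x + 1)).filter fun p => p.Prime ∧ degOne K p = degOne L p).card : ℝ)
      + (((Finset.range (x + 1)).filter fun p => p.Prime ∧ degOne K p ≠ degOne L p).card : ℝ) =
      Nat.primeCounting x := by exact_mod_cast hsum
  nlinarith

end Fields

end Fermat.Agent.Cor.Falt
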