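import Fermat.Agent.Corollaries.Falt.Arith
import Fermat.Agent.Corollaries.ChebK.NatType

/-!
# Strong multiplicity one and Gassmann's theorem over number fields

`K` a number field, `N / K` a finite Galois extension.

* `strong_multiplicity_one_field` : two complex representations of `Gal(N/K)` of dimension `d` which
  are not isomorphic have different Frobenius traces at a set of places of `K` of natural density at
  least `1 / (2 d²)`.
* `exists_hasNatDensity_degOneK` : two extensions `M`, `M'` of degree `n` of `K` in `N` for which the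
  permutation characters of `Gal(N/K)` on the embeddings are different have different numbers of
  places of relative degree one above a set of places of `K` of natural density at least `2 / n²`.
* `gassmann_tfae` : the same numbers of places of relative degree one above a set of places of upper
  density `> 1 - 2 / n²` imply the same residue degrees above almost all places.
-/

set_option autoImplicit false
set_option linter.unusedSectionVars false

open NumberField Filter Topology IsDedekindDomain

namespace Fermat.Agent.Cor.Falt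

open Fermat.Agent.Cor.ChebK Fermat.Agent.Frob Fermat.Agent.FrobDensity
open Fermat.Agent.LT.Tower.Fr

/-! ### Artin representations of `Gal(N/K)` -/

section Art

variable {K N : Type*} [Field K] [NumberField K] [Field N] [NumberField N] [Algebra K N]
  [IsGalois K N]

/-- **Strong multiplicity one for Artin representations over a number field** `K`. -/
theorem strong_multiplicity_one_field {V₁ V₂ : Type*} [AddCommGroup V₁] [AddCommGroup V₂]
    [Module ℂ V₁] [Module ℂ V₂] [FiniteDimensional ℂ V₁] [FiniteDimensional ℂ V₂] {d : ℕ}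
    (hd₁ : Module.finrank ℂ V₁ = d) (hd₂ : Module.finrank ℂ V₂ = d)
    (ρ₁ : Representation ℂ (N ≃ₐ[K] N) V₁) (ρ₂ : Representation ℂ (N ≃ₐ[K] N) V₂)
    (hne : ¬ ∃ e : V₁ ≃ₗ[ℂ] V₂, ∀ (g : N ≃ₐ[K] N) (v : V₁), e (ρ₁ g v) = ρ₂ g (e v)) :
    ∃ δ : ℝ, 1 / (2 * (d : ℝ) ^ 2) ≤ δ ∧
      HasNatDensity {v : HeightOneSpectrum (𝓞 K) | Unr N v ∧
        HasFrobIn {g : N ≃ₐ[K] N | ρ₁.character g ≠ ρ₂.character g} v} δ := by
  have := Fintype.ofFinite (N ≃ₐ[K] N)
  have hcard := card_le_of_not_equiv hd₁ hd₂ ρ₁ ρ₂ hne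
  have hC : ∀ g c : N ≃ₐ[K] N, c ∈ {g : N ≃ₐ[K] N | ρ₁.character g ≠ ρ₂.character g} →
      g * c * g⁻¹ ∈ {g : N ≃ₐ[K] N | ρ₁.character g ≠ ρ₂.character g} := by
    intro g c hc
    change ρ₁.character (g * c * g⁻¹) ≠ ρ₂.character (g * c * g⁻¹)
    rw [Representation.char_conj, Representation.char_conj]
    exact hc
  refine ⟨_, ?_, chebotarev_nat hC⟩
  have hG : (0 : ℝ) < Nat.card (N ≃ₐ[K] N) := by exact_mod_cast Nat.card_pos
  rcases Nat.eq_zero_or_pos d with hd | hd
  · have h0 : (d : ℝ) = 0 := by exact_mod_cast hd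
    rw [h0]
    simp only [ne_eq, OfNat.ofNat_ne_zero, not_false_eq_true, zero_pow, mul_zero, div_zero]
    positivity
  · have hd' : (0 : ℝ) < d := by exact_mod_cast hd
    rw [div_le_div_iff₀ (by positivity) hG, one_mul]
    have h3 : (Nat.card (N ≃ₐ[K] N) : ℝ) ≤ 2 * (d : ℝ) ^ 2 *
        Nat.card {g : N ≃ₐ[K] N // ρ₁.character g ≠ ρ₂.character g} := by
      exact_mod_cast hcard
    have h4 : (Nat.card {g : N ≃ₐ[K] N // ρ₁.character g ≠ ρ₂.character g} : ℝ) =
      Nat.card ({g : N ≃ₐ[K] N | ρ₁.character g ≠ ρ₂.character g} : Set (N ≃ₐ[K] N)) := rfl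
    rw [← h4]
    linarith

end Art

/-! ### Relative extensions -/

section Rel

variable {K M M' N : Type*} [Field K] [NumberField K] [Field M] [NumberField M]
  [Field M'] [NumberField M'] [Field N] [NumberField N] [Algebra K M] [Algebra K M'] [Algebra K N]

variable (M) in
/-- the number of places of `M` of relative degree one above the place `v` of `K` -/
noncomputable def degOneK (v : HeightOneSpectrum (𝓞 K)) : ℕ := (decTypeK M v).count 1

open Classical in
theorem degOneK_eq (v : HeightOneSpectrum (𝓞 K)) : degOneK M v =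
    ((placesOver M v).filter fun u => u.asIdeal.inertiaDeg (𝓞 K) = 1).card := by
  rw [degOneK, decTypeK, Multiset.count_map]
  have h : (placesOver M v).filter (fun u => u.asIdeal.inertiaDeg (𝓞 K) = 1) =
      (placesOver M v).filter fun u => 1 = u.asIdeal.inertiaDeg (𝓞 K) :=
    Finset.filter_congr fun v _ => eq_comm
  rw [h]
  rfl

variable (K M N) in
/-- the number of the `K`-embeddings `M → N` fixed by `σ` -/
noncomputable def fixK (σ : N ≃ₐ[K] N) : ℕ :=
  Nat.card {j : M →ₐ[K] N // permEmb K M N σ j = j}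

theorem count_one_cycTypeK (σ : N ≃ₐ[K] N) :
    (cycTypeK K M N (permEmb K M N σ)).count 1 = fixK K M N σ := by
  classical
  have h := Frob.card_fix_pow (permEmb K M N σ) 1
  have h1 : ∀ m : Multiset ℕ, (m.filter (· ∣ 1)).sum = m.count 1 := by
    intro m
    have h2 : m.filter (· ∣ 1) = m.filter (1 = ·) :=
      Multiset.filter_congr fun x _ => by rw [Nat.dvd_one, eq_comm]
    rw [h2, Multiset.filter_eq, Multiset.sum_replicate, smul_eq_mul, mul_one]
  rw [h1, pow_one] at h
  rw [fixK, Nat.card_eq_fintype_card, Fintype.card_subtype, cycTypeK]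
  convert h.symm

variable [Algebra M N] [IsScalarTower K M N] [Algebra M' N] [IsScalarTower K M' N] [IsGalois K N]

theorem natCard_algHom : Nat.card (M →ₐ[K] N) = Module.finrank K M := by
  refine AlgHom.natCard_of_splits K M N fun x => ?_
  have h1 : minpoly K x = minpoly K (algebraMap M N x) :=
    (minpoly.algebraMap_eq (algebraMap M N).injective x).symm
  rw [h1]
  exact Normal.splits inferInstance _

theorem cycTypeK_eq_of_fixK {σ : N ≃ₐ[K] N}
    (h : ∀ k : ℕ, fixK K M N (σ ^ k) = fixK K M' N (σ ^ k)) :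
    cycTypeK K M N (permEmb K M N σ) = cycTypeK K M' N (permEmb K M' N σ) := by
  classical
  refine Frob.ext_of_sum (fun x hx => ?_) (fun x hx => ?_) fun k => ?_
  · rw [cycTypeK] at hx
    exact Nat.Partition.parts_pos _ hx
  · rw [cycTypeK] at hx
    exact Nat.Partition.parts_pos _ hx
  · have hK := Frob.card_fix_pow (permEmb K M N σ) k
    have hL := Frob.card_fix_pow (permEmb K M' N σ) k
    have h1 := h k
    rw [fixK, fixK, Nat.card_eq_fintype_card, Nat.card_eq_fintype_card, Fintype.card_subtype,
      Fintype.card_subtype, map_pow, map_pow] at h1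
    rw [cycTypeK, cycTypeK]
    convert hK.symm.trans (Eq.trans ?_ hL) using 2
    convert h1

/-- at the places of prime norm `p`, `p ∤ D`, the residue degrees are given by the Frobenius
elements -/
theorem exists_good_place : ∃ D : ℕ, D ≠ 0 ∧ ∀ v : HeightOneSpectrum (𝓞 K),
    (Ideal.absNorm v.asIdeal).Prime → ¬ Ideal.absNorm v.asIdeal ∣ D →
    ∀ w : HeightOneSpectrum (𝓞 N), w.under (𝓞 K) = v → ∀ σ : N ≃ₐ[K] N,
    IsArithFrobAt (𝓞 K) σ w.asIdeal → decTypeK M v = cycTypeK K M N (permEmb K M N σ) := by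
  obtain ⟨D₁, hD₁, h₁⟩ := exists_good K
  obtain ⟨D₂, hD₂, h₂⟩ := exists_good M
  obtain ⟨D₃, hD₃, h₃⟩ := exists_good N
  refine ⟨D₁ * D₂ * D₃, mul_ne_zero (mul_ne_zero hD₁ hD₂) hD₃, fun v hv hvD w hw σ hσ => ?_⟩
  have hg₁ := h₁ _ hv fun h => hvD (Dvd.dvd.mul_right (Dvd.dvd.mul_right h D₂) D₃)
  have hg₂ := h₂ _ hv fun h => hvD (Dvd.dvd.mul_right (Dvd.dvd.mul_left h D₁) D₃)
  have hg₃ := h₃ _ hv fun h => hvD (Dvd.dvd.mul_left h (D₁ * D₂))
  exact decTypeK_eq hv hg₁ hg₂ hg₃ rfl hw hσ

variable (K M M' N) in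
/-- The places of `K` above which `M` and `M'` have different numbers of places of relative degree
one have a natural density: the proportion of the elements of `Gal(N/K)` with different numbers of
fixed embeddings. -/
theorem hasNatDensity_degOneK :
    HasNatDensity {v : HeightOneSpectrum (𝓞 K) | degOneK M v ≠ degOneK M' v}
      ((Nat.card {σ : N ≃ₐ[K] N // fixK K M N σ ≠ fixK K M' N σ} : ℝ) /
        Nat.card (N ≃ₐ[K] N)) := by
  obtain ⟨D, hD, h⟩ := exists_good_place (K := K) (M := M) (N := N)
  obtain ⟨D', hD', h'⟩ := exists_good_place (K := K) (M := M') (N := N)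
  have hC : ∀ g c : N ≃ₐ[K] N, c ∈ {σ : N ≃ₐ[K] N | fixK K M N σ ≠ fixK K M' N σ} →
      g * c * g⁻¹ ∈ {σ : N ≃ₐ[K] N | fixK K M N σ ≠ fixK K M' N σ} := by
    intro g c hc
    have h1 : ∀ (s : N ≃ₐ[K] N), fixK K M N (g * s * g⁻¹) = fixK K M N s := fun s => by
      have h2 := card_fix_conj (permEmb K M N s) (permEmb K M N g)⁻¹
      rw [fixK, fixK, ← h2, map_mul, map_mul, map_inv, inv_inv]
    have h1' : ∀ (s : N ≃ₐ[K] N), fixK K M' N (g * s * g⁻¹) = fixK K M' N s := fun s => by
      have h2 := card_fix_conj (permEmb K M' N s) (permEmb K M' N g)⁻¹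
      rw [fixK, fixK, ← h2, map_mul, map_mul, map_inv, inv_inv]
    rw [Set.mem_ofPred_eq, h1, h1']
    exact hc
  refine (hasNatDensity_hasFrobIn hC).congr_prime (D := D * D') (mul_ne_zero hD hD')
    fun v hv hvD => ?_
  have hval : ∀ w : HeightOneSpectrum (𝓞 N), w.under (𝓞 K) = v → ∀ σ : N ≃ₐ[K] N,
      IsArithFrobAt (𝓞 K) σ w.asIdeal →
        (degOneK M v ≠ degOneK M' v ↔ fixK K M N σ ≠ fixK K M' N σ) := by
    intro w hw σ hσ
    rw [degOneK, degOneK, h v hv (fun hd => hvD (hd.mul_right _)) w hw σ hσ,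
      h' v hv (fun hd => hvD (hd.mul_left _)) w hw σ hσ, count_one_cycTypeK, count_one_cycTypeK]
  constructor
  · rintro ⟨w, hw, σ, hσ, hF⟩
    exact (hval w hw σ hF).2 hσ
  · intro h1
    obtain ⟨w, hw⟩ := ChebK.exists_above (L := N) v
    obtain ⟨σ, hF⟩ := exists_isArithFrobAt (K := K) w
    exact ⟨w, hw, σ, (hval w hw σ hF).1 h1, hF⟩

/-- **The places of `K` which distinguish two extensions**: if the permutation characters of
`Gal(N/K)` on the embeddings of `M` and of `M'` (both of degree `n` over `K`) are different, then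
the natural density of the places of `K` above which `M` and `M'` have different numbers of places
of relative degree one is at least `2 / n²`. -/
theorem exists_hasNatDensity_degOneK (hn : Module.finrank K M = Module.finrank K M')
    (hne : ∃ σ : N ≃ₐ[K] N, fixK K M N σ ≠ fixK K M' N σ) :
    ∃ δ : ℝ, 2 / (Module.finrank K M : ℝ) ^ 2 ≤ δ ∧
      HasNatDensity {v : HeightOneSpectrum (𝓞 K) | degOneK M v ≠ degOneK M' v} δ := by
  refine ⟨_, ?_, hasNatDensity_degOneK K M M' N⟩
  have hG : (0 : ℝ) < Nat.card (N ≃ₐ[K] N) := by exact_mod_cast Nat.card_pos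
  have hn0 : (0 : ℝ) < Module.finrank K M := by exact_mod_cast Module.finrank_pos
  have h2 := two_mul_card_le_fixedPoints (n := Module.finrank K M) natCard_algHom
    (natCard_algHom.trans hn.symm) (permEmb K M N) (permEmb K M' N) hne
  rw [div_le_div_iff₀ (by positivity) hG]
  have h3 : 2 * (Nat.card (N ≃ₐ[K] N) : ℝ) ≤ (Module.finrank K M : ℝ) ^ 2 *
      Nat.card {σ : N ≃ₐ[K] N // fixK K M N σ ≠ fixK K M' N σ} := by
    exact_mod_cast h2
  linarith

variable (K M M' N) in
/-- **Gassmann's theorem over a number field `K`, with densities**: `M`, `M'` extensions of `K` of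
degree `n`, `N / K` a finite Galois extension which contains both. Equivalent are:
the permutation characters of `Gal(N/K)` on the `K`-embeddings of `M` and of `M'` are equal; above
all places of `K` outside a set of density zero the residue degrees are the same; the numbers of
places of relative degree one are the same outside a set of density zero; they are the same outside
a set of natural density less than `2 / n²`. -/
theorem gassmann_tfae (hn : Module.finrank K M = Module.finrank K M') : List.TFAE [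
    ∀ σ : N ≃ₐ[K] N, fixK K M N σ = fixK K M' N σ,
    HasNatDensity {v : HeightOneSpectrum (𝓞 K) | decTypeK M v ≠ decTypeK M' v} 0,
    HasNatDensity {v : HeightOneSpectrum (𝓞 K) | degOneK M v ≠ degOneK M' v} 0,
    ∃ δ : ℝ, δ < 2 / (Module.finrank K M : ℝ) ^ 2 ∧
      HasNatDensity {v : HeightOneSpectrum (𝓞 K) | degOneK M v ≠ degOneK M' v} δ] := by
  have hn0 : (0 : ℝ) < Module.finrank K M := by exact_mod_cast Module.finrank_pos
  tfae_have 1 → 2 := by
    intro h
    obtain ⟨D, hD, h₁⟩ := exists_good_place (K := K) (M := M) (N := N)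
    obtain ⟨D', hD', h₂⟩ := exists_good_place (K := K) (M := M') (N := N)
    refine (hasNatDensity_empty (K := K)).congr_prime (D := D * D') (mul_ne_zero hD hD')
      fun v hv hvD => ⟨fun h3 => absurd h3 (Set.notMem_empty v), fun h3 => absurd ?_ h3⟩
    obtain ⟨w, hw⟩ := ChebK.exists_above (L := N) v
    obtain ⟨σ, hF⟩ := exists_isArithFrobAt (K := K) w
    rw [h₁ v hv (fun hd => hvD (hd.mul_right _)) w hw σ hF,
      h₂ v hv (fun hd => hvD (hd.mul_left _)) w hw σ hF]
    exact cycTypeK_eq_of_fixK fun k => h (σ ^ k)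
  tfae_have 2 → 3 := by
    intro h
    have h1 := hasNatDensity_degOneK K M M' N
    have hsub : {v : HeightOneSpectrum (𝓞 K) | degOneK M v ≠ degOneK M' v} ⊆
        {v : HeightOneSpectrum (𝓞 K) | decTypeK M v ≠ decTypeK M' v} := by
      intro v hv hv'
      exact hv (by rw [degOneK, degOneK, hv'])
    have h2 := h1.mono hsub h
    have h3 := h1.nonneg
    rwa [le_antisymm h2 h3] at h1
  tfae_have 3 → 4 := fun h => ⟨0, by positivity, h⟩
  tfae_have 4 → 1 := by
    rintro ⟨δ, hδ, h⟩
    by_contra hne
    obtain ⟨δ', hδ', h'⟩ := exists_hasNatDensity_degOneK hn (not_forall.1 hne)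
    exact absurd (h.unique h') (hδ.trans_le hδ').ne
  tfae_finish

end Rel

end Fermat.Agent.Cor.Falt
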