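import Mathlib

/-!
# Semisimple modules with the same traces are isomorphic (characteristic zero)

Let `K` be a field of characteristic zero, `A` a `K`-algebra and `V₁`, `V₂` semisimple `A`-modules
of finite dimension over `K` such that every `a ∈ A` has the same trace on `V₁` and on `V₂`. Then
`V₁` and `V₂` are isomorphic. In particular two semisimple representations of a group (or a monoid)
over `K` with the same character are isomorphic.
-/

set_option autoImplicit false

namespace Fermat.Agent.Cor.Falt

section Mod

variable {A : Type*} [Ring A]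

theorem isSemisimpleModule_prod (V W : Type*) [AddCommGroup V] [AddCommGroup W] [Module A V]
    [Module A W] [IsSemisimpleModule A V] [IsSemisimpleModule A W] :
    IsSemisimpleModule A (V × W) := by
  have h3 : IsSemisimpleModule A
      ↥(LinearMap.range (LinearMap.inl A V W) ⊔ LinearMap.range (LinearMap.inr A V W)) :=
    .sup (.range _) (.range _)
  rw [LinearMap.sup_range_inl_inr] at h3
  exact IsSemisimpleModule.congr (Submodule.topEquiv (R := A) (M := V × W)).symm

/-- a nonzero homomorphism from a semisimple module to an isotypic one -/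
theorem exists_hom_of_isotypic {X C S : Type*} [AddCommGroup X] [Module A X] [AddCommGroup C]
    [Module A C] [AddCommGroup S] [Module A S] [IsSemisimpleModule A X] [IsSemisimpleModule A C]
    (hC : IsIsotypicOfType A C S) (g : X →ₗ[A] C) (hg : g ≠ 0) : ∃ h : S →ₗ[A] X, h ≠ 0 := by
  have h1 : LinearMap.range g ≠ ⊥ := fun h => hg (LinearMap.range_eq_bot.1 h)
  obtain ⟨m, hm, hs⟩ :=
    (IsSemisimpleModule.eq_bot_or_exists_simple_le (LinearMap.range g)).resolve_left h1
  obtain ⟨e⟩ := hC m
  obtain ⟨h, hh⟩ := IsSemisimpleModule.lifting_property g.rangeRestrict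
    (LinearMap.surjective_rangeRestrict g) (Submodule.inclusion hm)
  refine ⟨h ∘ₗ e.symm.toLinearMap, fun h0 => ?_⟩
  have hnt : Nontrivial m := IsSimpleModule.nontrivial A m
  obtain ⟨x, hx⟩ := exists_ne (0 : m)
  have h2 : h x = 0 := by
    have h3 := LinearMap.congr_fun h0 (e x)
    rw [LinearMap.comp_apply, LinearEquiv.coe_coe, LinearEquiv.symm_apply_apply] at h3
    exact h3
  have h4 := LinearMap.congr_fun hh x
  rw [LinearMap.comp_apply, h2, map_zero] at h4
  exact hx (Submodule.inclusion_injective hm (h4.symm.trans (map_zero _).symm))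

/-- the projection to an isotypic component commutes with all endomorphisms -/
theorem exists_projection {M : Type*} [AddCommGroup M] [Module A M] [IsSemisimpleModule A M]
    (S : Submodule A M) [IsSimpleModule A S] :
    ∃ f : Module.End (Module.End A M) M, (∀ m, f m ∈ isotypicComponent A M S) ∧
      (∀ m ∈ isotypicComponent A M S, f m = m) ∧ ∀ (a : A) (m : M), f (a • m) = a • f m := by
  set C := isotypicComponent A M S with hC
  have hCmem : C ∈ isotypicComponents A M := ⟨S, inferInstance, rfl⟩
  set N := sSup (isotypicComponents A M \ {C}) with hN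
  have hdis : Disjoint C N := sSupIndep_isotypicComponents A M hCmem
  have hsup : C ⊔ N = ⊤ := by
    rw [← top_le_iff, ← sSup_isotypicComponents A M]
    refine sSup_le fun D hD => ?_
    by_cases h : D = C
    · exact h ▸ le_sup_left
    · exact le_sup_of_le_right (le_sSup ⟨hD, h⟩)
  have hcompl : IsCompl C N := ⟨hdis, codisjoint_iff.2 hsup⟩
  have hCinv : C.IsFullyInvariant := .of_mem_isotypicComponents hCmem
  have hNinv : N.IsFullyInvariant :=
    isFullyInvariant_iff_sSup_isotypicComponents.2 ⟨_, Set.sdiff_subset, rfl⟩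
  let f := Submodule.projection C N hcompl
  have hfC : ∀ m ∈ C, f m = m := fun m hm => Submodule.projection_apply_left hcompl ⟨m, hm⟩
  have hfN : ∀ m ∈ N, f m = 0 := fun m hm => by
    have h := Submodule.projection_apply_right hcompl ⟨m, hm⟩
    exact h
  have hmem : ∀ m, f m ∈ C := fun m => Submodule.projection_apply_mem hcompl m
  refine ⟨{ toFun := f, map_add' := map_add f, map_smul' := ?_ }, hmem, hfC,
    fun a m => map_smul f a m⟩
  intro φ m
  obtain ⟨c, hc, n, hn, rfl⟩ := Submodule.mem_sup.1 (hsup.ge (Submodule.mem_top (x := m)))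
  change f (φ (c + n)) = φ (f (c + n))
  rw [map_add φ, map_add, map_add, hfC c hc, hfN n hn, hfC _ (hCinv φ hc), hfN _ (hNinv φ hn),
    add_zero, add_zero]

end Mod

section Trace

variable {K A : Type*} [Field K] [Ring A] [Algebra K A]

/-- the action of `a` as a `K`-linear map -/
abbrev act (K : Type*) {A : Type*} [Field K] [Ring A] [Algebra K A] (V : Type*) [AddCommGroup V]
    [Module K V] [Module A V] [IsScalarTower K A V] (a : A) : V →ₗ[K] V :=
  Algebra.lsmul K K V a

/-- an element which kills `V₂` and has nonzero trace on `V₁` -/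
theorem exists_trace_ne_zero [CharZero K] {V₁ V₂ : Type*} [AddCommGroup V₁] [AddCommGroup V₂]
    [Module K V₁] [Module K V₂] [Module A V₁] [Module A V₂] [IsScalarTower K A V₁]
    [IsScalarTower K A V₂] [FiniteDimensional K V₁] [FiniteDimensional K V₂]
    [IsSemisimpleModule A V₁] [IsSemisimpleModule A V₂] (S : Submodule A V₁) [IsSimpleModule A S]
    (hS : ∀ h : S →ₗ[A] V₂, h = 0) :
    ∃ a : A, LinearMap.trace K V₁ (act K V₁ a) ≠ 0 ∧ ∀ v : V₂, a • v = 0 := by
  classical
  have : IsSemisimpleModule A (V₁ × V₂) := isSemisimpleModule_prod V₁ V₂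
  let S' : Submodule A (V₁ × V₂) := S.map (LinearMap.inl A V₁ V₂)
  let e : S ≃ₗ[A] S' := Submodule.equivMapOfInjective _ LinearMap.inl_injective S
  have hS' : IsSimpleModule A S' := IsSimpleModule.congr e.symm
  obtain ⟨f, hfC, hfid, hfA⟩ := exists_projection S'
  have hiso : IsIsotypicOfType A (isotypicComponent A (V₁ × V₂) S') S' :=
    .isotypicComponent A (V₁ × V₂) S'
  -- density
  let b := Module.finBasis K (V₁ × V₂)
  obtain ⟨a, ha⟩ := jacobson_density f (Finset.univ.image b)
  let fK : (V₁ × V₂) →ₗ[K] (V₁ × V₂) :=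
    { toFun := f
      map_add' := map_add f
      map_smul' := fun c m => by
        have h1 := hfA (algebraMap K A c) m
        rwa [algebraMap_smul, algebraMap_smul] at h1 }
  have hfa : ∀ m, f m = a • m := by
    have h1 : fK = act K (V₁ × V₂) a := b.ext fun i =>
      ha (b i) (Finset.mem_image_of_mem _ (Finset.mem_univ i))
    exact fun m => LinearMap.congr_fun h1 m
  have hV₂ : ∀ v : V₂, a • v = 0 := by
    intro v
    let fA : (V₁ × V₂) →ₗ[A] (isotypicComponent A (V₁ × V₂) S') :=
      { toFun := fun m => ⟨f m, hfC m⟩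
        map_add' := fun x y => Subtype.ext (map_add f x y)
        map_smul' := fun a x => Subtype.ext (hfA a x) }
    have h1 : fA ∘ₗ LinearMap.inr A V₁ V₂ = 0 := by
      by_contra hne
      obtain ⟨h, hh⟩ := exists_hom_of_isotypic hiso _ hne
      apply hh
      have h2 := hS (h ∘ₗ e.toLinearMap)
      ext x
      have h3 := LinearMap.congr_fun h2 (e.symm x)
      rw [LinearMap.comp_apply, LinearEquiv.coe_coe, LinearEquiv.apply_symm_apply] at h3
      exact h3
    have h2 : f (0, v) = 0 := congrArg Subtype.val (LinearMap.congr_fun h1 v)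
    rw [hfa] at h2
    exact congrArg Prod.snd h2
  refine ⟨a, ?_, hV₂⟩
  let W : Submodule K V₁ :=
    ((isotypicComponent A (V₁ × V₂) S').comap (LinearMap.inl A V₁ V₂)).restrictScalars K
  have hW : ∀ v : V₁, v ∈ W ↔ (v, (0 : V₂)) ∈ isotypicComponent A (V₁ × V₂) S' := fun v => Iff.rfl
  have hav : ∀ v : V₁, f (v, 0) = (a • v, 0) := by
    intro v
    rw [hfa]
    exact Prod.ext rfl (smul_zero a)
  have hproj : LinearMap.IsProj W (act K V₁ a) := by
    constructor
    · intro v
      rw [hW]
      have h1 := hfC (v, 0)
      rwa [hav] at h1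
    · intro v hv
      rw [hW] at hv
      have h1 := hfid _ hv
      rw [hav] at h1
      exact congrArg Prod.fst h1
  rw [hproj.trace, Nat.cast_ne_zero]
  have hnt : Nontrivial S := IsSimpleModule.nontrivial A S
  obtain ⟨x, hx⟩ := exists_ne (0 : S)
  have hxW : (x : V₁) ∈ W := by
    rw [hW]
    exact S'.le_isotypicComponent ⟨x, x.2, rfl⟩
  have : Nontrivial W := ⟨⟨x, hxW⟩, 0, fun h => hx (Subtype.ext (congrArg (W.subtype) h))⟩
  exact Module.finrank_pos.ne'

theorem finiteDimensional_sub {V : Type*} [AddCommGroup V] [Module K V] [Module A V]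
    [IsScalarTower K A V] [FiniteDimensional K V] (S : Submodule A V) : FiniteDimensional K S :=
  FiniteDimensional.of_injective (S.subtype.restrictScalars K) S.subtype_injective

theorem trace_act_congr {V W : Type*} [AddCommGroup V] [Module K V] [Module A V]
    [IsScalarTower K A V] [AddCommGroup W] [Module K W] [Module A W] [IsScalarTower K A W]
    (e : V ≃ₗ[A] W) (a : A) :
    LinearMap.trace K V (act K V a) = LinearMap.trace K W (act K W a) := by
  have h1 : (e.restrictScalars K).conj (act K V a) = act K W a := by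
    ext w
    rw [LinearEquiv.conj_apply_apply]
    change e (a • e.symm w) = a • w
    rw [map_smul, LinearEquiv.apply_symm_apply]
  rw [← h1, LinearMap.trace_conj']

theorem trace_act_prod {V W : Type*} [AddCommGroup V] [Module K V] [Module A V]
    [IsScalarTower K A V] [AddCommGroup W] [Module K W] [Module A W] [IsScalarTower K A W]
    [FiniteDimensional K V] [FiniteDimensional K W] (a : A) :
    LinearMap.trace K (V × W) (act K (V × W) a) =
      LinearMap.trace K V (act K V a) + LinearMap.trace K W (act K W a) := by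
  have h1 : act K (V × W) a = (act K V a).prodMap (act K W a) := rfl
  rw [h1, LinearMap.trace_prodMap']

/-- **Semisimple modules with the same traces are isomorphic**, characteristic zero. -/
theorem nonempty_linearEquiv_of_trace.{u, v} [CharZero K] (n : ℕ) :
    ∀ (V₁ : Type u) (V₂ : Type v) [AddCommGroup V₁] [AddCommGroup V₂] [Module K V₁] [Module K V₂]
      [Module A V₁] [Module A V₂] [IsScalarTower K A V₁] [IsScalarTower K A V₂]
      [FiniteDimensional K V₁] [FiniteDimensional K V₂] [IsSemisimpleModule A V₁]
      [IsSemisimpleModule A V₂], Module.finrank K V₁ = n →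
      (∀ a : A, LinearMap.trace K V₁ (act K V₁ a) = LinearMap.trace K V₂ (act K V₂ a)) →
      Nonempty (V₁ ≃ₗ[A] V₂) := by
  induction n using Nat.strong_induction_on with
  | _ n ih =>
    intro V₁ V₂ _ _ _ _ _ _ _ _ _ _ _ _ hn htr
    rcases subsingleton_or_nontrivial V₁ with hs | hnt
    · have h1 := htr 1
      have h2 : act K V₁ (1 : A) = LinearMap.id := LinearMap.ext fun v => one_smul A v
      have h3 : act K V₂ (1 : A) = LinearMap.id := LinearMap.ext fun v => one_smul A v
      rw [h2, h3, LinearMap.trace_id, LinearMap.trace_id, Nat.cast_inj,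
        Module.finrank_zero_of_subsingleton] at h1
      have : Subsingleton V₂ := Module.finrank_zero_iff.1 h1.symm
      exact ⟨0⟩
    · obtain ⟨S, -, hS⟩ := (IsSemisimpleModule.eq_bot_or_exists_simple_le
        (⊤ : Submodule A V₁)).resolve_left top_ne_bot
      have hex : ∃ h : S →ₗ[A] V₂, h ≠ 0 := by
        by_contra hcon
        push Not at hcon
        obtain ⟨a, ha, ha0⟩ := exists_trace_ne_zero (K := K) S hcon
        apply ha
        rw [htr]
        have h1 : act K V₂ a = 0 := by
          ext v
          exact ha0 v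
        rw [h1, map_zero]
      obtain ⟨h, hne⟩ := hex
      have hinj : Function.Injective h := (LinearMap.injective_or_eq_zero h).resolve_right hne
      let e₁ : S ≃ₗ[A] LinearMap.range h := LinearEquiv.ofInjective h hinj
      obtain ⟨N₁, hN₁⟩ := exists_isCompl S
      obtain ⟨N₂, hN₂⟩ := exists_isCompl (LinearMap.range h)
      have := finiteDimensional_sub (K := K) S
      have := finiteDimensional_sub (K := K) N₁
      have := finiteDimensional_sub (K := K) N₂
      have := finiteDimensional_sub (K := K) (LinearMap.range h)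
      let E₁ := Submodule.prodEquivOfIsCompl S N₁ hN₁
      let E₂ := Submodule.prodEquivOfIsCompl (LinearMap.range h) N₂ hN₂
      have hSnt : Nontrivial S := IsSimpleModule.nontrivial A S
      have hlt : Module.finrank K N₁ < n := by
        have h1 := (E₁.restrictScalars K).finrank_eq
        rw [Module.finrank_prod, hn] at h1
        have h2 : 0 < Module.finrank K S := Module.finrank_pos
        omega
      obtain ⟨e₂⟩ := ih _ hlt N₁ N₂ rfl (fun a => by
        have h1 := htr a
        rw [← trace_act_congr E₁, ← trace_act_congr E₂, trace_act_prod, trace_act_prod,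
          trace_act_congr e₁] at h1
        exact add_left_cancel h1)
      exact ⟨E₁.symm.trans ((e₁.prodCongr e₂).trans E₂)⟩

end Trace

section Rep

variable {K G V₁ V₂ : Type*} [Field K] [CharZero K] [Monoid G] [AddCommGroup V₁] [AddCommGroup V₂]
  [Module K V₁] [Module K V₂] [FiniteDimensional K V₁] [FiniteDimensional K V₂]

/-- **Semisimple representations with the same character are isomorphic**, characteristic zero. -/
theorem exists_equiv_of_trace (ρ₁ : Representation K G V₁) (ρ₂ : Representation K G V₂)
    [h₁ : ρ₁.IsSemisimpleRepresentation] [h₂ : ρ₂.IsSemisimpleRepresentation]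
    (htr : ∀ g, LinearMap.trace K V₁ (ρ₁ g) = LinearMap.trace K V₂ (ρ₂ g)) :
    ∃ e : V₁ ≃ₗ[K] V₂, ∀ (g : G) (v : V₁), e (ρ₁ g v) = ρ₂ g (e v) := by
  have hs₁ : IsSemisimpleModule (MonoidAlgebra K G) ρ₁.asModule :=
    (Representation.isSemisimpleRepresentation_iff_isSemisimpleModule_asModule ρ₁).1 h₁
  have hs₂ : IsSemisimpleModule (MonoidAlgebra K G) ρ₂.asModule :=
    (Representation.isSemisimpleRepresentation_iff_isSemisimpleModule_asModule ρ₂).1 h₂
  have hf₁ : FiniteDimensional K ρ₁.asModule :=
    LinearEquiv.finiteDimensional ρ₁.asModuleEquiv.symm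
  have hf₂ : FiniteDimensional K ρ₂.asModule :=
    LinearEquiv.finiteDimensional ρ₂.asModuleEquiv.symm
  have key : ∀ a : MonoidAlgebra K G, LinearMap.trace K V₁ (ρ₁.asAlgebraHom a) =
      LinearMap.trace K V₂ (ρ₂.asAlgebraHom a) := by
    intro a
    induction a using MonoidAlgebra.induction_on with
    | of g => rw [Representation.asAlgebraHom_of, Representation.asAlgebraHom_of, htr]
    | add a b ha hb => rw [map_add, map_add, map_add, map_add, ha, hb]
    | smul c a ha => rw [map_smul, map_smul, map_smul, map_smul, ha]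
  have hact₁ : ∀ a : MonoidAlgebra K G, LinearMap.trace K ρ₁.asModule (act K ρ₁.asModule a) =
      LinearMap.trace K V₁ (ρ₁.asAlgebraHom a) := by
    intro a
    rw [← LinearMap.trace_conj' _ ρ₁.asModuleEquiv]
    rfl
  have hact₂ : ∀ a : MonoidAlgebra K G, LinearMap.trace K ρ₂.asModule (act K ρ₂.asModule a) =
      LinearMap.trace K V₂ (ρ₂.asAlgebraHom a) := by
    intro a
    rw [← LinearMap.trace_conj' _ ρ₂.asModuleEquiv]
    rfl
  obtain ⟨e⟩ := nonempty_linearEquiv_of_trace (K := K) (A := MonoidAlgebra K G) _ ρ₁.asModule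
    ρ₂.asModule rfl (fun a => by rw [hact₁, hact₂, key])
  refine ⟨(ρ₁.asModuleEquiv.symm.trans (e.restrictScalars K)).trans ρ₂.asModuleEquiv,
    fun g v => ?_⟩
  change ρ₂.asModuleEquiv (e (ρ₁.asModuleEquiv.symm (ρ₁ g v))) =
    ρ₂ g (ρ₂.asModuleEquiv (e (ρ₁.asModuleEquiv.symm v)))
  rw [Representation.asModuleEquiv_symm_map_rho, map_smul, Representation.asModuleEquiv_map_smul,
    Representation.asAlgebraHom_of]

end Rep

end Fermat.Agent.Cor.Falt
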