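import Fermat.Agent.Corollaries.Falt.Semisimple
import Fermat.Agent.CFT.SKummer.Omega

/-!
# Hermite's and Faltings' finiteness over a number field

Let `K ⊂ ℚ̄` be a number field and `G_K = Gal(ℚ̄/K)`, the subgroup `K.fixingSubgroup` of
`Gal(ℚ̄/ℚ)`, `S` a finite set of prime numbers.

* `finite_hom_base` : for a finite group `X` there are only finitely many continuous homomorphisms
  `G_K → X` unramified outside `S` (Mazur's finiteness condition for all open subgroups of the
  Galois group of the maximal extension of `ℚ` unramified outside `S`);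
* `exists_frob_base` : a finite set of Frobenius elements in `G_K`, at places of degree one, meets
  all cosets of all open normal subgroups of `G_K` of bounded index and ramified only in `S`.
-/

set_option autoImplicit false

namespace Fermat.Agent.Cor.Falt

open NumberField IsDedekindDomain Fermat.Agent.Frob Fermat.Agent.Classic.Disc
open Fermat.Agent.Cor.Frob Fermat.Agent.Cor.Herm Fermat.Agent.FrobDensity
open scoped Pointwise

local notation "Qbar" => AlgebraicClosure ℚ

/-- conjugation of inertia groups -/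
theorem conj_mem_inertia' {A : ValuationSubring Qbar} {g σ : GQ}
    (hσ : σ ∈ A.inertiaSubgroupIn ℚ) : g * σ * g⁻¹ ∈ (g • A).inertiaSubgroupIn ℚ := by
  have h := Fermat.Agent.CFT.SKummer.conj_mem_inertia (A := g • A) (g := g⁻¹) (σ := σ)
    (by rwa [inv_smul_smul])
  rwa [inv_inv] at h

variable (K : IntermediateField ℚ Qbar) [NumberField K]

/-- inertia groups at unramified primes are in `G_K` -/
theorem inertia_le {p : ℕ} (hp : p.Prime) (hpD : ¬ p ∣ (discr K).natAbs)
    {A : ValuationSubring Qbar} (hA : A.LiesOverPrime p) :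
    A.inertiaSubgroupIn ℚ ≤ K.fixingSubgroup := by
  intro σ hσ
  rw [not_dvd_discr_iff hp hA] at hpD
  rw [IntermediateField.mem_fixingSubgroup_iff]
  intro x hx
  have h1 := Equiv.congr_fun (hpD σ hσ) (K.val : K →+* Qbar)
  exact RingHom.congr_fun h1 ⟨x, hx⟩

/-- unramified outside `S`, for maps defined on `G_K` -/
def UnrBase {X : Type*} [One X] (S : Finset ℕ) (ρ : K.fixingSubgroup → X) : Prop :=
  ∀ p : ℕ, p.Prime → p ∉ S → ∀ A : ValuationSubring Qbar, A.LiesOverPrime p →
    ∀ σ : K.fixingSubgroup, (σ : GQ) ∈ A.inertiaSubgroupIn ℚ → ρ σ = 1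

/-- the core in `Gal(ℚ̄/ℚ)` of a subgroup of `G_K` -/
noncomputable def core (N : Subgroup K.fixingSubgroup) : Subgroup GQ :=
  (N.map K.fixingSubgroup.subtype).normalCore

omit [NumberField K] in
theorem core_le (N : Subgroup K.fixingSubgroup) {σ : GQ} (hσ : σ ∈ core K N) :
    ∃ h : σ ∈ K.fixingSubgroup, (⟨σ, h⟩ : K.fixingSubgroup) ∈ N := by
  obtain ⟨τ, hτ, rfl⟩ := Subgroup.normalCore_le _ hσ
  exact ⟨τ.2, hτ⟩

/-- the properties of the core -/
theorem core_props (S : Finset ℕ) (Q : ℕ) (N : Subgroup K.fixingSubgroup)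
    (hL : ∃ L : IntermediateField ℚ Qbar, FiniteDimensional ℚ L ∧
      ∀ σ : K.fixingSubgroup, (∀ x ∈ L, (σ : GQ) x = x) → σ ∈ N)
    (hQ : N.index ≤ Q)
    (hI : ∀ p : ℕ, p.Prime → p ∉ S → ∀ A : ValuationSubring Qbar, A.LiesOverPrime p →
      ∀ σ : K.fixingSubgroup, (σ : GQ) ∈ A.inertiaSubgroupIn ℚ → σ ∈ N) :
    (∃ L : IntermediateField ℚ Qbar, FiniteDimensional ℚ L ∧ L.fixingSubgroup ≤ core K N) ∧
    (core K N).index ≤ (Q * Module.finrank ℚ K).factorial ∧
    ∀ p : ℕ, p.Prime → p ∉ S ∪ (discr K).natAbs.primeFactors → ∀ A : ValuationSubring Qbar,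
      A.LiesOverPrime p → A.inertiaSubgroupIn ℚ ≤ core K N := by
  classical
  obtain ⟨L, hLfd, hLN⟩ := hL
  have hL' : ∃ L' : IntermediateField ℚ Qbar, FiniteDimensional ℚ L' ∧
      L'.fixingSubgroup ≤ core K N := by
    let L' := IntermediateField.normalClosure ℚ ((K ⊔ L : IntermediateField ℚ Qbar)) Qbar
    have hfd : FiniteDimensional ℚ L' := normalClosure.is_finiteDimensional ℚ _ _
    have hn : Normal ℚ L' := normalClosure.normal ℚ _ _
    have hg : IsGalois ℚ L' := ⟨⟩
    have hle : K ⊔ L ≤ L' := IntermediateField.le_normalClosure _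
    have hnorm : L'.fixingSubgroup.Normal := (InfiniteGalois.normal_iff_isGalois L').2 hg
    refine ⟨L', hfd, ?_⟩
    rw [core, Subgroup.normal_le_normalCore]
    intro σ hσ
    rw [IntermediateField.mem_fixingSubgroup_iff] at hσ
    have hσK : σ ∈ K.fixingSubgroup := by
      rw [IntermediateField.mem_fixingSubgroup_iff]
      exact fun x hx => hσ x (hle ((le_sup_left : K ≤ K ⊔ L) hx))
    exact ⟨⟨σ, hσK⟩, hLN ⟨σ, hσK⟩ fun x hx => hσ x (hle ((le_sup_right : L ≤ K ⊔ L) hx)), rfl⟩
  refine ⟨hL', ?_, ?_⟩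
  · obtain ⟨L', hfd', hle'⟩ := hL'
    have hN₁ : (N.map K.fixingSubgroup.subtype).index ≤ Q * Module.finrank ℚ K := by
      have h1 : (N.map K.fixingSubgroup.subtype) ≤ K.fixingSubgroup := Subgroup.map_subtype_le N
      have h2 := Subgroup.relIndex_mul_index h1
      have h3 : (N.map K.fixingSubgroup.subtype).relIndex K.fixingSubgroup = N.index := by
        rw [Subgroup.relIndex, Subgroup.subgroupOf, Subgroup.comap_map_eq_self_of_injective
          (Subgroup.subtype_injective _)]
      rw [← h2, h3, ← IntermediateField.finrank_eq_fixingSubgroup_index]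
      exact Nat.mul_le_mul_right _ hQ
    have hfi : L'.fixingSubgroup.FiniteIndex := by
      refine ⟨?_⟩
      rw [← IntermediateField.finrank_eq_fixingSubgroup_index]
      exact Module.finrank_pos.ne'
    have hN₁fi : (N.map K.fixingSubgroup.subtype).FiniteIndex :=
      Subgroup.finiteIndex_of_le (hle'.trans (Subgroup.normalCore_le _))
    have hfin : Finite (GQ ⧸ N.map K.fixingSubgroup.subtype) :=
      Subgroup.finite_quotient_of_finiteIndex
    rw [core, Subgroup.normalCore_eq_ker, Subgroup.index_ker]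
    calc Nat.card (MulAction.toPermHom GQ (GQ ⧸ N.map K.fixingSubgroup.subtype)).range
        ≤ Nat.card (Equiv.Perm (GQ ⧸ N.map K.fixingSubgroup.subtype)) :=
          Nat.card_le_card_of_injective _ Subtype.val_injective
      _ = (Nat.card (GQ ⧸ N.map K.fixingSubgroup.subtype)).factorial := Nat.card_perm
      _ ≤ (Q * Module.finrank ℚ K).factorial := Nat.factorial_le hN₁
  · intro p hp hpS A hA σ hσ
    rw [Finset.mem_union, not_or] at hpS
    have hpD : ¬ p ∣ (discr K).natAbs := fun h =>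
      hpS.2 (Nat.mem_primeFactors.2 ⟨hp, h, Int.natAbs_ne_zero.2 (discr_ne_zero K)⟩)
    intro g
    have h1 : g * σ * g⁻¹ ∈ (g • A).inertiaSubgroupIn ℚ := conj_mem_inertia' hσ
    have hA' : (g • A).LiesOverPrime p := liesOverPrime_smul hA
    exact ⟨⟨g * σ * g⁻¹, inertia_le K hp hpD hA' h1⟩, hI p hp hpS.1 _ hA' _ h1, rfl⟩

/-- **Hermite's theorem for homomorphisms over a number field**: `G_K` has only finitely many
continuous homomorphisms to a finite group which are unramified outside a finite set `S`. -/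
theorem finite_hom_base (S : Finset ℕ) (X : Type*) [Group X] [Finite X] :
    {ρ : K.fixingSubgroup →* X | IsOpen (ρ.ker : Set K.fixingSubgroup) ∧ UnrBase K S ρ}.Finite := by
  classical
  refine ((finite_galois (S ∪ (discr K).natAbs.primeFactors)
    (Nat.card X * Module.finrank ℚ K).factorial).biUnion
    (t := fun L => {ρ : K.fixingSubgroup →* X |
      L.fixingSubgroup.subgroupOf K.fixingSubgroup ≤ ρ.ker}) ?_).subset ?_
  · rintro L ⟨hL, -⟩
    have : L.fixingSubgroup.FiniteIndex := by
      refine ⟨?_⟩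
      rw [← IntermediateField.finrank_eq_fixingSubgroup_index]
      exact Module.finrank_pos.ne'
    exact finite_hom_of_le (L.fixingSubgroup.subgroupOf K.fixingSubgroup)
  · rintro ρ ⟨ho, hS⟩
    rw [Set.mem_iUnion₂]
    -- the kernel is open
    have hL : ∃ L : IntermediateField ℚ Qbar, FiniteDimensional ℚ L ∧
        ∀ σ : K.fixingSubgroup, (∀ x ∈ L, (σ : GQ) x = x) → σ ∈ ρ.ker := by
      obtain ⟨U, hU, hUker⟩ := isOpen_induced_iff.1 ho
      have h1 : U ∈ nhds (1 : GQ) := by
        refine hU.mem_nhds ?_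
        have h2 : (1 : K.fixingSubgroup) ∈ Subtype.val ⁻¹' U := by
          rw [hUker]
          exact one_mem ρ.ker
        exact h2
      obtain ⟨L, hL, h3⟩ := (krullTopology_mem_nhds_one_iff ℚ Qbar _).1 h1
      refine ⟨L, hL, fun σ hσ => ?_⟩
      have h4 : σ ∈ Subtype.val ⁻¹' U :=
        h3 ((IntermediateField.mem_fixingSubgroup_iff _ _).2 hσ)
      rw [hUker] at h4
      exact h4
    have hindex : ρ.ker.index ≤ Nat.card X := by
      rw [Subgroup.index_ker]
      exact Nat.card_le_card_of_injective _ Subtype.val_injective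
    obtain ⟨h1, h2, h3⟩ := core_props K S (Nat.card X) ρ.ker hL hindex hS
    have hn : (core K ρ.ker).Normal := Subgroup.normalCore_normal _
    obtain ⟨hfix, hmem⟩ := fixedField_mem _ _ (core K ρ.ker) h1 h2 h3
    refine ⟨IntermediateField.fixedField (core K ρ.ker), hmem, ?_⟩
    intro σ hσ
    rw [Subgroup.mem_subgroupOf, hfix] at hσ
    obtain ⟨h4, h5⟩ := core_le K _ hσ
    exact h5

/-- **A finite set of Frobenius elements at places of degree one** meets all cosets of all open
normal subgroups of `G_K` of index at most `Q` which are ramified only in `S`. -/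
theorem exists_frob_base (S S' : Finset ℕ) (Q : ℕ) :
    ∃ T : Set K.fixingSubgroup, T.Finite ∧ (∀ φ ∈ T, ∃ p : ℕ, p.Prime ∧ p ∉ S' ∧
        ∃ A : ValuationSubring Qbar, A.LiesOverPrime p ∧ A.IsFrobeniusAt (φ : GQ) p) ∧
      ∀ N : Subgroup K.fixingSubgroup,
        (∃ L : IntermediateField ℚ Qbar, FiniteDimensional ℚ L ∧
          ∀ σ : K.fixingSubgroup, (∀ x ∈ L, (σ : GQ) x = x) → σ ∈ N) →
        N.index ≤ Q →
        (∀ p : ℕ, p.Prime → p ∉ S → ∀ A : ValuationSubring Qbar, A.LiesOverPrime p →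
          ∀ σ : K.fixingSubgroup, (σ : GQ) ∈ A.inertiaSubgroupIn ℚ → σ ∈ N) →
        ∀ σ : K.fixingSubgroup, ∃ φ ∈ T, σ⁻¹ * φ ∈ N := by
  classical
  obtain ⟨T, hT, hfrob, h⟩ := exists_frob (S ∪ (discr K).natAbs.primeFactors) S'
    (Q * Module.finrank ℚ K).factorial
  refine ⟨Subtype.val ⁻¹' T, hT.preimage Subtype.val_injective.injOn, fun φ hφ => hfrob _ hφ, ?_⟩
  intro N hL hQ hI σ
  obtain ⟨h1, h2, h3⟩ := core_props K S Q N hL hQ hI
  obtain ⟨φ, hφT, hφ⟩ := h (core K N) (Subgroup.normalCore_normal _) h1 h2 h3 (σ : GQ)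
  obtain ⟨h4, h5⟩ := core_le K N hφ
  have h6 : φ ∈ K.fixingSubgroup := by
    have h7 := mul_mem σ.2 h4
    rwa [mul_inv_cancel_left] at h7
  exact ⟨⟨φ, h6⟩, hφT, h5⟩

end Fermat.Agent.Cor.Falt
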