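import Fermat.Agent.Corollaries.Falt.Padic

/-!
# Values of a continuous homomorphism of a compact group in a `ℚ_ℓ`-algebra

Let `G` be a compact group, `B` a finite dimensional `ℚ_ℓ`-algebra and `ρ : G → Bˣ` continuous. If a
subset `T` of `G` meets every coset of every open normal subgroup of `G` of index at most
`ℓ ^ dim B` (which contains a given subset `I` of the kernel), then the values of `ρ` on `T`
generate the vector space generated by all the values.
-/

set_option autoImplicit false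

namespace Fermat.Agent.Cor.Falt

open IsLocalRing (maximalIdeal ResidueField residue)

section Lattice

variable (R : Type*) [CommRing R] {G E : Type*} [Group G] [Ring E] [Algebra R E] (ρ : G →* E)

/-- the module generated by the values -/
def latG : Submodule R E := Submodule.span R (Set.range ρ)

theorem mem_latG (σ : G) : ρ σ ∈ latG R ρ := Submodule.subset_span ⟨σ, rfl⟩

theorem mul_mem_smul_latG (I : Ideal R) (σ : G) {x : E} (hx : x ∈ I • latG R ρ) :
    ρ σ * x ∈ I • latG R ρ := by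
  have h1 : (latG R ρ).map (LinearMap.mulLeft R (ρ σ)) ≤ latG R ρ := by
    rw [latG, Submodule.map_span, Submodule.span_le]
    rintro _ ⟨_, ⟨τ, rfl⟩, rfl⟩
    refine Submodule.subset_span ⟨σ * τ, ?_⟩
    rw [map_mul]
    rfl
  have h2 : LinearMap.mulLeft R (ρ σ) x ∈ (I • latG R ρ).map (LinearMap.mulLeft R (ρ σ)) :=
    Submodule.mem_map_of_mem hx
  rw [Submodule.map_smul''] at h2
  exact Submodule.smul_mono le_rfl h1 h2

theorem smul_latG_mul_mem (I : Ideal R) (σ : G) {x : E} (hx : x ∈ I • latG R ρ) :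
    x * ρ σ ∈ I • latG R ρ := by
  have h1 : (latG R ρ).map (LinearMap.mulRight R (ρ σ)) ≤ latG R ρ := by
    rw [latG, Submodule.map_span, Submodule.span_le]
    rintro _ ⟨_, ⟨τ, rfl⟩, rfl⟩
    refine Submodule.subset_span ⟨τ * σ, ?_⟩
    rw [map_mul]
    rfl
  have h2 : LinearMap.mulRight R (ρ σ) x ∈ (I • latG R ρ).map (LinearMap.mulRight R (ρ σ)) :=
    Submodule.mem_map_of_mem hx
  rw [Submodule.map_smul''] at h2
  exact Submodule.smul_mono le_rfl h1 h2

/-- the kernel of the action on the lattice modulo `I` -/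
def kerG (I : Ideal R) : Subgroup G where
  carrier := {σ | ρ σ - 1 ∈ I • latG R ρ}
  one_mem' := by
    change ρ 1 - 1 ∈ I • latG R ρ
    rw [map_one, sub_self]
    exact zero_mem _
  mul_mem' := by
    intro σ τ hσ hτ
    change ρ (σ * τ) - 1 ∈ I • latG R ρ
    have h : ρ (σ * τ) - 1 = ρ σ * (ρ τ - 1) + (ρ σ - 1) := by
      rw [map_mul, mul_sub, mul_one, sub_add_sub_cancel]
    rw [h]
    exact add_mem (mul_mem_smul_latG R ρ I σ hτ) hσ
  inv_mem' := by
    intro σ hσ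
    change ρ σ⁻¹ - 1 ∈ I • latG R ρ
    have h : ρ σ⁻¹ - 1 = -(ρ σ⁻¹ * (ρ σ - 1)) := by
      rw [mul_sub, ← map_mul, inv_mul_cancel, map_one, mul_one, neg_sub]
    rw [h]
    exact neg_mem (mul_mem_smul_latG R ρ I σ⁻¹ hσ)

theorem mem_kerG {I : Ideal R} {σ : G} : σ ∈ kerG R ρ I ↔ ρ σ - 1 ∈ I • latG R ρ := Iff.rfl

theorem kerG_normal (I : Ideal R) : (kerG R ρ I).Normal := by
  refine ⟨fun σ hσ τ => ?_⟩
  rw [mem_kerG] at hσ ⊢
  have h : ρ (τ * σ * τ⁻¹) - 1 = ρ τ * (ρ σ - 1) * ρ τ⁻¹ := by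
    rw [mul_sub, sub_mul, mul_one, ← map_mul, ← map_mul, ← map_mul, mul_inv_cancel, map_one]
  rw [h]
  exact smul_latG_mul_mem R ρ I _ (mul_mem_smul_latG R ρ I _ hσ)

end Lattice

section Local

variable {R : Type*} [CommRing R] [IsLocalRing R] [IsDomain R] [IsPrincipalIdealRing R]
  {G E : Type*} [Group G] [Ring E] [Algebra R E] [Module.Finite R E]

/-- the index of the kernel -/
theorem index_kerG_le [Module.Free R E] [Finite (ResidueField R)] (ρ : G →* E) {r : ℕ}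
    (hr : Module.finrank R E ≤ r) :
    (kerG R ρ (maximalIdeal R)).index ≤ Nat.card (ResidueField R) ^ r := by
  classical
  have hfree : Module.Free R (latG R ρ) := inferInstance
  have hfinite : Module.Finite R (latG R ρ) := inferInstance
  let b := Module.finBasis R (latG R ρ)
  have hcoord : ∀ x : latG R ρ, (∀ i, residue R (b.repr x i) = 0) →
      (x : E) ∈ maximalIdeal R • latG R ρ := by
    intro x hx
    rw [← b.sum_repr x, Submodule.coe_sum]
    refine Submodule.sum_mem _ fun i _ => ?_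
    rw [Submodule.coe_smul]
    refine Submodule.smul_mem_smul ?_ (b i).2
    rw [← IsLocalRing.residue_eq_zero_iff]
    exact hx i
  let f : G ⧸ kerG R ρ (maximalIdeal R) → (Fin (Module.finrank R (latG R ρ)) → ResidueField R) :=
    fun c i => residue R (b.repr ⟨ρ c.out, mem_latG R ρ _⟩ i)
  have hf : Function.Injective f := by
    intro c c' hcc
    rw [← QuotientGroup.out_eq' c, ← QuotientGroup.out_eq' c', QuotientGroup.eq, mem_kerG]
    have h1 : ρ ((c.out)⁻¹ * c'.out) - 1 = ρ (c.out)⁻¹ * (ρ c'.out - ρ c.out) := by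
      rw [mul_sub, ← map_mul, ← map_mul, inv_mul_cancel, map_one]
    rw [h1]
    apply mul_mem_smul_latG
    refine hcoord (⟨ρ c'.out, mem_latG R ρ _⟩ - ⟨ρ c.out, mem_latG R ρ _⟩) fun i => ?_
    rw [map_sub, Finsupp.sub_apply, map_sub, sub_eq_zero]
    exact (congrFun hcc i).symm
  have h1 : Nat.card (G ⧸ kerG R ρ (maximalIdeal R)) ≤
      Nat.card (Fin (Module.finrank R (latG R ρ)) → ResidueField R) :=
    Nat.card_le_card_of_injective f hf
  rw [Nat.card_fun, Nat.card_fin] at h1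
  exact h1.trans (Nat.pow_le_pow_right Nat.card_pos ((Submodule.finrank_le _).trans hr))

/-- Nakayama -/
theorem span_eq_of_cover (ρ : G →* E) {T : Set G}
    (hT : ∀ σ, ∃ φ ∈ T, σ⁻¹ * φ ∈ kerG R ρ (maximalIdeal R)) :
    Submodule.span R (Set.range ρ) = Submodule.span R (ρ '' T) := by
  refine le_antisymm ?_ (Submodule.span_mono (Set.image_subset_range _ _))
  refine Submodule.le_of_le_smul_of_le_jacobson_bot (I := maximalIdeal R)
    (IsNoetherian.noetherian _) (IsLocalRing.maximalIdeal_le_jacobson _) ?_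
  rw [Submodule.span_le]
  rintro _ ⟨σ, rfl⟩
  obtain ⟨φ, hφ, hφN⟩ := hT σ
  rw [mem_kerG] at hφN
  have h2 : ρ σ = ρ φ - ρ σ * (ρ (σ⁻¹ * φ) - 1) := by
    rw [mul_sub, ← map_mul, mul_inv_cancel_left, mul_one, sub_sub_cancel]
  rw [h2]
  refine Submodule.sub_mem _ (Submodule.mem_sup_left (Submodule.subset_span ⟨φ, hφ, rfl⟩))
    (Submodule.mem_sup_right (mul_mem_smul_latG R ρ _ σ hφN))

end Local

/-- **Values of a continuous homomorphism of a compact group** in a finite dimensional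
`ℚ_ℓ`-algebra. -/
theorem span_eq_of_compact {ℓ : ℕ} [hℓ : Fact ℓ.Prime] {G : Type*} [Group G] [TopologicalSpace G]
    [IsTopologicalGroup G] [CompactSpace G] {B : Type*} [Ring B] [Algebra ℚ_[ℓ] B]
    [FiniteDimensional ℚ_[ℓ] B] [TopologicalSpace B] [IsTopologicalAddGroup B]
    [ContinuousSMul ℚ_[ℓ] B] [T2Space B] {ρ : G →* B} (hρ : Continuous ρ) {r : ℕ}
    (hr : Module.finrank ℚ_[ℓ] B ≤ r) {T I : Set G} (hI : ∀ σ ∈ I, ρ σ = 1)
    (hT : ∀ N : Subgroup G, N.Normal → IsOpen (N : Set G) → N.index ≤ ℓ ^ r → I ⊆ N →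
      ∀ σ, ∃ φ ∈ T, σ⁻¹ * φ ∈ N) :
    Submodule.span ℚ_[ℓ] (Set.range ρ) = Submodule.span ℚ_[ℓ] (ρ '' T) := by
  classical
  have := finite_residueField ℓ
  refine le_antisymm ?_ (Submodule.span_mono (Set.image_subset_range _ _))
  let : Algebra ℤ_[ℓ] B := Algebra.compHom B (algebraMap ℤ_[ℓ] ℚ_[ℓ])
  have htow : IsScalarTower ℤ_[ℓ] ℚ_[ℓ] B := IsScalarTower.of_algebraMap_eq fun _ => rfl
  have hsm : ∀ (a : ℤ_[ℓ]) (x : B), a • x = (a : ℚ_[ℓ]) • x := fun a x => by
    rw [← algebraMap_smul ℚ_[ℓ] a x]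
    rfl
  -- coordinates
  let N := Module.finrank ℚ_[ℓ] B
  let b : Module.Basis (Fin N) ℚ_[ℓ] B := Module.finBasis ℚ_[ℓ] B
  have hcoord : ∀ i, Continuous (b.coord i) := fun i =>
    LinearMap.continuous_of_finiteDimensional (b.coord i)
  obtain ⟨k, hk⟩ := exists_norm_le (fun (i : Fin N) (σ : G) => b.coord i (ρ σ))
    (fun i => (hcoord i).comp hρ)
  have hℓ0 : (ℓ : ℚ_[ℓ]) ^ k ≠ 0 := pow_ne_zero _ (by exact_mod_cast hℓ.out.ne_zero)
  -- the lattice
  let ι : (Fin N → ℤ_[ℓ]) →ₗ[ℤ_[ℓ]] B :=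
    { toFun := fun y => ∑ i, (((ℓ : ℚ_[ℓ]) ^ k)⁻¹ * (y i : ℚ_[ℓ])) • b i
      map_add' := fun y z => by
        rw [← Finset.sum_add_distrib]
        refine Finset.sum_congr rfl fun i _ => ?_
        rw [Pi.add_apply, PadicInt.coe_add, mul_add, add_smul]
      map_smul' := fun a y => by
        rw [RingHom.id_apply, hsm, Finset.smul_sum]
        refine Finset.sum_congr rfl fun i _ => ?_
        rw [Pi.smul_apply, smul_eq_mul, PadicInt.coe_mul, smul_smul]
        congr 1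
        ring }
  have hιcoord : ∀ y i, b.coord i (ι y) = ((ℓ : ℚ_[ℓ]) ^ k)⁻¹ * (y i : ℚ_[ℓ]) := by
    intro y i
    change b.repr (∑ j, (((ℓ : ℚ_[ℓ]) ^ k)⁻¹ * (y j : ℚ_[ℓ])) • b j) i = _
    rw [b.repr_sum_self]
  have hιinj : Function.Injective ι := by
    intro y z hyz
    funext i
    have h1 := hιcoord y i
    rw [hyz, hιcoord z i] at h1
    exact (Subtype.ext (mul_left_cancel₀ (inv_ne_zero hℓ0) h1)).symm
  have hιrange : ∀ x : B, (∀ i, ‖b.coord i x‖ ≤ (ℓ : ℝ) ^ k) → ∃ y, ι y = x ∧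
      ∀ i, (y i : ℚ_[ℓ]) = (ℓ : ℚ_[ℓ]) ^ k * b.coord i x := by
    intro x hx
    choose y hy using fun i => exists_padicInt (hx i)
    refine ⟨y, ?_, hy⟩
    refine b.ext_elem fun i => ?_
    change b.coord i (ι y) = b.coord i x
    rw [hιcoord, hy, inv_mul_cancel_left₀ hℓ0]
  -- the order
  let E : Subalgebra ℤ_[ℓ] B := Algebra.adjoin ℤ_[ℓ] (Set.range ρ)
  have hEspan : Subalgebra.toSubmodule E = Submodule.span ℤ_[ℓ] (Set.range ρ) := by
    have h1 : Submonoid.closure (Set.range ρ) = MonoidHom.mrange ρ := by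
      rw [← MonoidHom.coe_mrange, Submonoid.closure_eq]
    rw [Algebra.adjoin_eq_span, h1, MonoidHom.coe_mrange]
  have hEle : Subalgebra.toSubmodule E ≤ LinearMap.range ι := by
    rw [hEspan, Submodule.span_le]
    rintro _ ⟨σ, rfl⟩
    obtain ⟨y, hy, -⟩ := hιrange (ρ σ) (fun i => hk i σ)
    exact ⟨y, hy⟩
  let E' : Submodule ℤ_[ℓ] (Fin N → ℤ_[ℓ]) := (Subalgebra.toSubmodule E).comap ι
  let e₀ : E' →ₗ[ℤ_[ℓ]] E :=
    { toFun := fun y => ⟨ι y, y.2⟩
      map_add' := fun y z => Subtype.ext (map_add ι _ _)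
      map_smul' := fun a y => Subtype.ext (map_smul ι _ _) }
  have he₀ : Function.Bijective e₀ := by
    constructor
    · intro y z hyz
      exact Subtype.ext (hιinj (congrArg Subtype.val hyz))
    · rintro ⟨x, hx⟩
      obtain ⟨y, rfl⟩ := hEle hx
      exact ⟨⟨y, hx⟩, rfl⟩
  let e : E' ≃ₗ[ℤ_[ℓ]] E := LinearEquiv.ofBijective e₀ he₀
  have hfree : Module.Free ℤ_[ℓ] E := Module.Free.of_equiv e
  have hfin : Module.Finite ℤ_[ℓ] E := Module.Finite.equiv e
  have hrank : Module.finrank ℤ_[ℓ] E ≤ r := by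
    rw [← e.finrank_eq]
    refine (Submodule.finrank_le E').trans ?_
    rw [Module.finrank_fin_fun]
    exact hr
  -- the homomorphism
  let ρE : G →* E :=
    { toFun := fun σ => ⟨ρ σ, Algebra.subset_adjoin ⟨σ, rfl⟩⟩
      map_one' := Subtype.ext (map_one ρ)
      map_mul' := fun σ τ => Subtype.ext (map_mul ρ σ τ) }
  have hlat : latG ℤ_[ℓ] ρE = ⊤ := by
    rw [eq_top_iff]
    rintro ⟨x, hx⟩ -
    have h1 : x ∈ Submodule.span ℤ_[ℓ] (Set.range ρ) := hEspan ▸ hx
    have h2 : (latG ℤ_[ℓ] ρE).map E.val.toLinearMap = Submodule.span ℤ_[ℓ] (Set.range ρ) := by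
      rw [latG, Submodule.map_span, ← Set.range_comp]
      rfl
    rw [← h2] at h1
    obtain ⟨z, hz, hzx⟩ := h1
    have h3 : z = ⟨x, hx⟩ := Subtype.ext hzx
    exact h3 ▸ hz
  have hopen : IsOpen (kerG ℤ_[ℓ] ρE (maximalIdeal ℤ_[ℓ]) : Set G) := by
    obtain ⟨k₀, hk₀⟩ := Ideal.exists_pow_inf_eq_pow_smul (maximalIdeal ℤ_[ℓ]) E'
    have h1 : ∀ i, {σ : G | ‖b.coord i (ρ σ - 1)‖ ≤ (ℓ : ℝ) ^ (-(1 + k₀ : ℕ) : ℤ)} ∈
        nhds (1 : G) := by
      intro i
      have hij : Continuous fun σ : G => b.coord i (ρ σ - 1) :=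
        (hcoord i).comp (hρ.sub continuous_const)
      have h2 : Metric.closedBall (0 : ℚ_[ℓ]) ((ℓ : ℝ) ^ (-(1 + k₀ : ℕ) : ℤ)) ∈
          nhds (b.coord i (ρ 1 - 1)) := by
        rw [map_one, sub_self, map_zero]
        refine Metric.closedBall_mem_nhds _ (zpow_pos ?_ _)
        exact_mod_cast hℓ.out.pos
      refine Filter.mem_of_superset (hij.continuousAt.preimage_mem_nhds h2) ?_
      intro σ hσ
      rwa [Set.mem_preimage, mem_closedBall_zero_iff] at hσ
    refine Subgroup.isOpen_of_mem_nhds _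
      (Filter.mem_of_superset (Filter.iInter_mem.2 h1) fun σ hσ => ?_) (g := 1)
    rw [Set.mem_iInter] at hσ
    have h5 : ∀ i, ‖b.coord i (ρ σ - 1)‖ ≤ (ℓ : ℝ) ^ (-(1 + k₀ : ℕ) : ℤ) := hσ
    have hone : (1 : ℝ) < ℓ := by exact_mod_cast hℓ.out.one_lt
    obtain ⟨y, hy, hyi⟩ := hιrange (ρ σ - 1) (fun i => (h5 i).trans (by
      rw [← zpow_natCast]
      exact zpow_le_zpow_right₀ hone.le (by omega)))
    have hyE : y ∈ E' := by
      change ι y ∈ Subalgebra.toSubmodule E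
      rw [hy]
      exact sub_mem (Algebra.subset_adjoin ⟨σ, rfl⟩) (one_mem E)
    have hytop : y ∈ (maximalIdeal ℤ_[ℓ] ^ (1 + k₀)) • (⊤ : Submodule ℤ_[ℓ] (Fin N → ℤ_[ℓ])) := by
      refine pi_mem_smul_top fun i => ?_
      rw [PadicInt.maximalIdeal_eq_span_p, Ideal.span_singleton_pow,
        ← PadicInt.norm_le_pow_iff_mem_span_pow, PadicInt.norm_def, hyi, norm_mul]
      refine le_trans ?_ (h5 i)
      refine mul_le_of_le_one_left (norm_nonneg _) ?_
      rw [norm_pow]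
      exact pow_le_one₀ (norm_nonneg _) (by
        rw [Padic.norm_p]
        exact inv_le_one_of_one_le₀ hone.le)
    have h7 : y ∈ maximalIdeal ℤ_[ℓ] • E' := by
      have h8 : y ∈ (maximalIdeal ℤ_[ℓ] ^ (1 + k₀)) • (⊤ : Submodule ℤ_[ℓ] (Fin N → ℤ_[ℓ])) ⊓ E' :=
        ⟨hytop, hyE⟩
      rw [hk₀ (1 + k₀) (Nat.le_add_left _ _), Nat.add_sub_cancel, pow_one] at h8
      exact Submodule.smul_mono le_rfl inf_le_right h8
    have h9 : (⟨y, hyE⟩ : E') ∈ maximalIdeal ℤ_[ℓ] • (⊤ : Submodule ℤ_[ℓ] E') := by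
      rw [Submodule.mem_smul_top_iff]
      exact h7
    have h10 := Submodule.mem_map_of_mem (f := e.toLinearMap) h9
    rw [Submodule.map_smul''] at h10
    have h11 := Submodule.smul_mono (le_refl (maximalIdeal ℤ_[ℓ]))
      (le_top : _ ≤ (⊤ : Submodule ℤ_[ℓ] E)) h10
    have h12 : e.toLinearMap ⟨y, hyE⟩ = ρE σ - 1 := Subtype.ext hy
    rw [h12] at h11
    rw [SetLike.mem_coe, mem_kerG, hlat]
    exact h11
  have hindex : (kerG ℤ_[ℓ] ρE (maximalIdeal ℤ_[ℓ])).index ≤ ℓ ^ r := by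
    have h1 := index_kerG_le ρE hrank
    rwa [card_residueField] at h1
  have hspan := span_eq_of_cover ρE (T := T)
    (hT (kerG ℤ_[ℓ] ρE (maximalIdeal ℤ_[ℓ])) (kerG_normal _ _ _) hopen hindex
      (fun σ hσ => by
        have h1 : ρE σ = 1 := Subtype.ext (hI σ hσ)
        rw [SetLike.mem_coe, mem_kerG, h1, sub_self]
        exact zero_mem _))
  rw [Submodule.span_le]
  rintro _ ⟨σ, rfl⟩
  have h1 : ρE σ ∈ Submodule.span ℤ_[ℓ] (ρE '' T) := hspan ▸ Submodule.subset_span ⟨σ, rfl⟩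
  have h2 := Submodule.mem_map_of_mem (f := E.val.toLinearMap) h1
  rw [Submodule.map_span, ← Set.image_comp] at h2
  exact Submodule.span_le_restrictScalars ℤ_[ℓ] ℚ_[ℓ] (ρ '' T) h2

end Fermat.Agent.Cor.Falt
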