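import Fermat.Agent.Corollaries.Falt.Base
import Fermat.Agent.Corollaries.Falt.Compact

/-!
# Faltings' finiteness theorem over a number field

Let `K ⊂ ℚ̄` be a number field, `G_K = Gal(ℚ̄/K)`, `S` a finite set of prime numbers, `ℓ` a prime.

* `exists_primes_iso_base` : a continuous semisimple representation `G_K → GL_d(F)`, `F` a finite
  extension of `ℚ_ℓ`, unramified outside `S`, is determined up to conjugation by the traces of the
  Frobenius elements at the places of degree one of `K` above finitely many primes, which depend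
  only on `K`, `S`, `ℓ`, `d` and `[F : ℚ_ℓ]`;
* `exists_finite_classes_base` : if these traces lie in given finite sets, there are only finitely
  many such representations up to conjugation (Faltings 1983, Satz 5).
-/

set_option autoImplicit false

namespace Fermat.Agent.Cor.Falt

open NumberField IsDedekindDomain Fermat.Agent.Frob Fermat.Agent.Classic.Disc
open Fermat.Agent.Cor.Frob Fermat.Agent.Cor.Herm

local notation "Qbar" => AlgebraicClosure ℚ

section Rep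

variable {G F : Type*} [Group G] [Field F] {d : ℕ}

/-- the representation on column vectors -/
noncomputable def repG (ρ : G →* GL (Fin d) F) : Representation F G (Fin d → F) :=
  ((Matrix.toLinAlgEquiv' : Matrix (Fin d) (Fin d) F ≃ₐ[F] _).toAlgHom : _ →* _).comp
    ((Units.coeHom _).comp ρ)

theorem repG_apply (ρ : G →* GL (Fin d) F) (σ : G) :
    repG ρ σ = Matrix.toLin' (ρ σ).1 := rfl

theorem trace_repG (ρ : G →* GL (Fin d) F) (σ : G) :
    LinearMap.trace F _ (repG ρ σ) = (ρ σ).1.trace := by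
  rw [repG_apply, Matrix.trace_toLin'_eq]

/-- an isomorphism of representations is a conjugation -/
theorem exists_conjG (ρ₁ ρ₂ : G →* GL (Fin d) F) (e : (Fin d → F) ≃ₗ[F] (Fin d → F))
    (he : ∀ σ v, e (repG ρ₁ σ v) = repG ρ₂ σ (e v)) :
    ∃ g : GL (Fin d) F, ∀ σ, g * ρ₁ σ * g⁻¹ = ρ₂ σ := by
  let g : GL (Fin d) F :=
    { val := LinearMap.toMatrix' e.toLinearMap
      inv := LinearMap.toMatrix' e.symm.toLinearMap
      val_inv := by
        rw [← LinearMap.toMatrix'_comp, LinearEquiv.comp_symm, LinearMap.toMatrix'_id]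
      inv_val := by
        rw [← LinearMap.toMatrix'_comp, LinearEquiv.symm_comp, LinearMap.toMatrix'_id] }
  refine ⟨g, fun σ => ?_⟩
  rw [mul_inv_eq_iff_eq_mul]
  refine Units.ext ?_
  change LinearMap.toMatrix' e.toLinearMap * (ρ₁ σ).1 =
    (ρ₂ σ).1 * LinearMap.toMatrix' e.toLinearMap
  apply Matrix.toLin'.injective
  rw [Matrix.toLin'_mul, Matrix.toLin'_mul, Matrix.toLin'_toMatrix']
  exact LinearMap.ext fun v => he σ v

end Rep

variable (K : IntermediateField ℚ Qbar)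

theorem compactSpace_fixingSubgroup [NumberField K] : CompactSpace K.fixingSubgroup :=
  isCompact_iff_compactSpace.1 (IntermediateField.fixingSubgroup_isClosed K).isCompact

theorem exists_level_of_isOpen {N : Subgroup K.fixingSubgroup}
    (ho : IsOpen (N : Set K.fixingSubgroup)) :
    ∃ L : IntermediateField ℚ Qbar, FiniteDimensional ℚ L ∧
      ∀ σ : K.fixingSubgroup, (∀ x ∈ L, (σ : GQ) x = x) → σ ∈ N := by
  obtain ⟨U, hU, hUN⟩ := isOpen_induced_iff.1 ho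
  have h1 : U ∈ nhds (1 : GQ) := by
    refine hU.mem_nhds ?_
    have h2 : (1 : K.fixingSubgroup) ∈ Subtype.val ⁻¹' U := by
      rw [hUN]
      exact one_mem N
    exact h2
  obtain ⟨L, hL, h3⟩ := (krullTopology_mem_nhds_one_iff ℚ Qbar _).1 h1
  refine ⟨L, hL, fun σ hσ => ?_⟩
  have h4 : σ ∈ Subtype.val ⁻¹' U := h3 ((IntermediateField.mem_fixingSubgroup_iff _ _).2 hσ)
  rw [hUN] at h4
  exact h4

variable [NumberField K]

/-- **Faltings' criterion over a number field**, values in a finite dimensional `ℚ_ℓ`-algebra. -/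
theorem exists_span_base.{v} (S S' : Finset ℕ) (ℓ : ℕ) [hℓ : Fact ℓ.Prime] (r : ℕ) :
    ∃ T : Set K.fixingSubgroup, T.Finite ∧ (∀ φ ∈ T, ∃ p : ℕ, p.Prime ∧ p ∉ S' ∧
        ∃ A : ValuationSubring Qbar, A.LiesOverPrime p ∧ A.IsFrobeniusAt (φ : GQ) p) ∧
      ∀ (B : Type v) [Ring B] [Algebra ℚ_[ℓ] B] [FiniteDimensional ℚ_[ℓ] B]
        [TopologicalSpace B] [IsTopologicalAddGroup B] [ContinuousSMul ℚ_[ℓ] B] [T2Space B]
        (ρ : K.fixingSubgroup →* B), Module.finrank ℚ_[ℓ] B ≤ r → Continuous ρ →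
        UnrBase K S ρ → Submodule.span ℚ_[ℓ] (Set.range ρ) = Submodule.span ℚ_[ℓ] (ρ '' T) := by
  obtain ⟨T, hT, hfrob, h⟩ := exists_frob_base K S S' (ℓ ^ r)
  have := compactSpace_fixingSubgroup K
  refine ⟨T, hT, hfrob, ?_⟩
  intro B _ _ _ _ _ _ _ ρ hr hρ hS
  refine span_eq_of_compact hρ hr (I := {σ | ∃ p : ℕ, p.Prime ∧ p ∉ S ∧
    ∃ A : ValuationSubring Qbar, A.LiesOverPrime p ∧ (σ : GQ) ∈ A.inertiaSubgroupIn ℚ}) ?_ ?_
  · rintro σ ⟨p, hp, hpS, A, hA, hσ⟩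
    exact hS p hp hpS A hA σ hσ
  · intro N _ ho hN hI
    exact h N (exists_level_of_isOpen K ho) hN
      (fun p hp hpS A hA σ hσ => hI ⟨p, hp, hpS, A, hA, hσ⟩)

/-- **Faltings' criterion for semisimple representations over a number field**, with Frobenius
elements. -/
theorem exists_frob_iso_base.{u} (S S' : Finset ℕ) (ℓ : ℕ) [hℓ : Fact ℓ.Prime] (d m : ℕ) :
    ∃ T : Set K.fixingSubgroup, T.Finite ∧ (∀ φ ∈ T, ∃ p : ℕ, p.Prime ∧ p ∉ S' ∧
        ∃ A : ValuationSubring Qbar, A.LiesOverPrime p ∧ A.IsFrobeniusAt (φ : GQ) p) ∧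
      ∀ (F : Type u) [NormedField F] [NormedAlgebra ℚ_[ℓ] F] [FiniteDimensional ℚ_[ℓ] F]
        (ρ₁ ρ₂ : K.fixingSubgroup →* GL (Fin d) F), Module.finrank ℚ_[ℓ] F ≤ m →
        Continuous ρ₁ → Continuous ρ₂ → UnrBase K S ρ₁ → UnrBase K S ρ₂ →
        (repG ρ₁).IsSemisimpleRepresentation → (repG ρ₂).IsSemisimpleRepresentation →
        (∀ φ ∈ T, (ρ₁ φ).1.trace = (ρ₂ φ).1.trace) →
        ∃ g : GL (Fin d) F, ∀ σ, g * ρ₁ σ * g⁻¹ = ρ₂ σ := by
  obtain ⟨T, hT, hfrob, h⟩ := exists_span_base.{u} K S S' ℓ (d * d * m + d * d * m)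
  refine ⟨T, hT, hfrob, ?_⟩
  intro F _ _ _ ρ₁ ρ₂ hm hc₁ hc₂ hS₁ hS₂ hs₁ hs₂ htr
  have hchar : CharZero F := charZero_of_injective_algebraMap (algebraMap ℚ_[ℓ] F).injective
  let ρ : K.fixingSubgroup →* Matrix (Fin d) (Fin d) F × Matrix (Fin d) (Fin d) F :=
    ((Units.coeHom _).comp ρ₁).prod ((Units.coeHom _).comp ρ₂)
  have hcont : Continuous ρ :=
    (Units.continuous_val.comp hc₁).prodMk (Units.continuous_val.comp hc₂)
  have hr : Module.finrank ℚ_[ℓ] (Matrix (Fin d) (Fin d) F × Matrix (Fin d) (Fin d) F) ≤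
      d * d * m + d * d * m := by
    rw [Module.finrank_prod, Module.finrank_matrix, Fintype.card_fin]
    exact add_le_add (Nat.mul_le_mul_left _ hm) (Nat.mul_le_mul_left _ hm)
  have hfin₁ : FiniteDimensional ℚ_[ℓ] (Matrix (Fin d) (Fin d) F) := Module.Finite.matrix
  have hfin₂ : FiniteDimensional ℚ_[ℓ]
    (Matrix (Fin d) (Fin d) F × Matrix (Fin d) (Fin d) F) := Module.Finite.prod
  have hspan := h (Matrix (Fin d) (Fin d) F × Matrix (Fin d) (Fin d) F) ρ hr hcont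
    (fun p hp hpS A hA σ hσ => Prod.ext
      (congrArg Units.val (hS₁ p hp hpS A hA σ hσ)) (congrArg Units.val (hS₂ p hp hpS A hA σ hσ)))
  have key : ∀ σ, (ρ₁ σ).1.trace = (ρ₂ σ).1.trace := by
    intro σ
    have h1 : ρ σ ∈ Submodule.span ℚ_[ℓ] (ρ '' T) := hspan ▸ Submodule.subset_span ⟨σ, rfl⟩
    have h2 : Submodule.span ℚ_[ℓ] (ρ '' T) ≤ LinearMap.ker
        ((Matrix.traceLinearMap (Fin d) ℚ_[ℓ] F).comp (LinearMap.fst ℚ_[ℓ] _ _) -
        (Matrix.traceLinearMap (Fin d) ℚ_[ℓ] F).comp (LinearMap.snd ℚ_[ℓ] _ _)) := by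
      rw [Submodule.span_le]
      rintro _ ⟨φ, hφ, rfl⟩
      exact sub_eq_zero.2 (htr φ hφ)
    exact sub_eq_zero.1 (h2 h1)
  obtain ⟨e, he⟩ := exists_equiv_of_trace (repG ρ₁) (repG ρ₂)
    (fun σ => by rw [trace_repG, trace_repG, key])
  exact exists_conjG ρ₁ ρ₂ e he

/-- **Faltings' criterion for semisimple `ℓ`-adic representations over a number field `K`.** For a
finite set `S` of primes, a prime `ℓ` and `d`, `m` there is a finite set `T` of primes outside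
`S ∪ {ℓ}` such that two continuous semisimple representations `Gal(ℚ̄/K) → GL_d(F)`, `F` an
extension of `ℚ_ℓ` of degree at most `m`, unramified outside `S`, are conjugate as soon as the
traces of the Frobenius elements at the places of degree one of `K` above the primes of `T` are the
same. -/
theorem exists_primes_iso_base.{u} (S : Finset ℕ) (ℓ : ℕ) [hℓ : Fact ℓ.Prime] (d m : ℕ) :
    ∃ T : Finset ℕ, (∀ p ∈ T, p.Prime ∧ p ∉ S ∧ p ≠ ℓ) ∧
      ∀ (F : Type u) [NormedField F] [NormedAlgebra ℚ_[ℓ] F] [FiniteDimensional ℚ_[ℓ] F]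
        (ρ₁ ρ₂ : K.fixingSubgroup →* GL (Fin d) F), Module.finrank ℚ_[ℓ] F ≤ m →
        Continuous ρ₁ → Continuous ρ₂ → UnrBase K S ρ₁ → UnrBase K S ρ₂ →
        (repG ρ₁).IsSemisimpleRepresentation → (repG ρ₂).IsSemisimpleRepresentation →
        (∀ p ∈ T, ∀ A : ValuationSubring Qbar, A.LiesOverPrime p → ∀ φ : K.fixingSubgroup,
          A.IsFrobeniusAt (φ : GQ) p → (ρ₁ φ).1.trace = (ρ₂ φ).1.trace) →
        ∃ g : GL (Fin d) F, ∀ σ, g * ρ₁ σ * g⁻¹ = ρ₂ σ := by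
  classical
  obtain ⟨T, hT, hfrob, h⟩ := exists_frob_iso_base.{u} K S (insert ℓ S) ℓ d m
  choose! p hp hpS hA using hfrob
  refine ⟨(hT.image p).toFinset, ?_, ?_⟩
  · intro l hl
    rw [Set.Finite.mem_toFinset] at hl
    obtain ⟨φ, hφ, rfl⟩ := hl
    exact ⟨hp φ hφ, fun h => hpS φ hφ (Finset.mem_insert_of_mem h),
      fun h => hpS φ hφ (h ▸ Finset.mem_insert_self _ _)⟩
  · intro F _ _ _ ρ₁ ρ₂ hm hc₁ hc₂ hS₁ hS₂ hs₁ hs₂ htr
    refine h F ρ₁ ρ₂ hm hc₁ hc₂ hS₁ hS₂ hs₁ hs₂ fun φ hφ => ?_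
    obtain ⟨A, hAp, hf⟩ := hA φ hφ
    exact htr (p φ) (by rw [Set.Finite.mem_toFinset]; exact ⟨φ, hφ, rfl⟩) A hAp φ hf

/-- **Faltings' finiteness theorem over a number field `K`** (1983, Satz 5). Up to conjugation there
are only finitely many continuous semisimple representations `ρ : Gal(ℚ̄/K) → GL_d(F)`, `F` a finite
extension of `ℚ_ℓ`, unramified outside a finite set `S` of primes, such that the traces of the
Frobenius elements at the places of degree one of `K` above `p` lie in a given finite set `Z p`, for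
all primes `p ∉ S ∪ {ℓ}`. -/
theorem exists_finite_classes_base (S : Finset ℕ) (ℓ : ℕ) [hℓ : Fact ℓ.Prime] (d : ℕ)
    {F : Type*} [NormedField F] [NormedAlgebra ℚ_[ℓ] F] [FiniteDimensional ℚ_[ℓ] F]
    {Z : ℕ → Set F} (hZ : ∀ p, (Z p).Finite) :
    ∃ X : Set (K.fixingSubgroup →* GL (Fin d) F), X.Finite ∧
      ∀ ρ : K.fixingSubgroup →* GL (Fin d) F, Continuous ρ → UnrBase K S ρ →
        (repG ρ).IsSemisimpleRepresentation →
        (∀ p : ℕ, p.Prime → p ∉ S → p ≠ ℓ → ∀ A : ValuationSubring Qbar, A.LiesOverPrime p →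
          ∀ φ : K.fixingSubgroup, A.IsFrobeniusAt (φ : GQ) p → (ρ φ).1.trace ∈ Z p) →
        ∃ ρ' ∈ X, ∃ g : GL (Fin d) F, ∀ σ, g * ρ σ * g⁻¹ = ρ' σ := by
  obtain ⟨T, hT, hfrob, h⟩ := exists_frob_iso_base K S (insert ℓ S) ℓ d (Module.finrank ℚ_[ℓ] F)
  choose p hp hpS A hA hφ using fun φ : T => hfrob φ.1 φ.2
  have : Finite T := hT.to_subtype
  let P : (K.fixingSubgroup →* GL (Fin d) F) → Prop := fun ρ => Continuous ρ ∧ UnrBase K S ρ ∧
    (repG ρ).IsSemisimpleRepresentation ∧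
    ∀ p : ℕ, p.Prime → p ∉ S → p ≠ ℓ → ∀ A : ValuationSubring Qbar, A.LiesOverPrime p →
      ∀ φ : K.fixingSubgroup, A.IsFrobeniusAt (φ : GQ) p → (ρ φ).1.trace ∈ Z p
  let tr : (K.fixingSubgroup →* GL (Fin d) F) → (T → F) := fun ρ φ => (ρ φ).1.trace
  have hfin : (tr '' {ρ | P ρ}).Finite := by
    refine (Set.Finite.pi' fun φ : T => hZ (p φ)).subset ?_
    rintro _ ⟨ρ, hρ, rfl⟩ φ
    exact hρ.2.2.2 (p φ) (hp φ) (fun h => hpS φ (Finset.mem_insert_of_mem h))
      (fun h => hpS φ (h ▸ Finset.mem_insert_self _ _)) (A φ) (hA φ) φ (hφ φ)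
  have : Finite (tr '' {ρ | P ρ}) := hfin.to_subtype
  choose R hR hRx using fun x : tr '' {ρ | P ρ} => x.2
  refine ⟨Set.range R, Set.finite_range R, ?_⟩
  intro ρ hc hu hs ht
  have hρ : P ρ := ⟨hc, hu, hs, ht⟩
  refine ⟨R ⟨tr ρ, ρ, hρ, rfl⟩, ⟨_, rfl⟩, ?_⟩
  have h1 : P (R ⟨tr ρ, ρ, hρ, rfl⟩) := hR ⟨tr ρ, ρ, hρ, rfl⟩
  have h2 := hRx ⟨tr ρ, ρ, hρ, rfl⟩
  exact h F ρ _ le_rfl hc h1.1 hu h1.2.1 hs h1.2.2.1 (fun φ hφT => (congrFun h2 ⟨φ, hφT⟩).symm)

end Fermat.Agent.Cor.Falt
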