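import Fermat.Agent.Corollaries.Falt.BN

/-!
# How often two characters of a finite group differ

Let `G` be a finite group and `V₁`, `V₂` two complex representations of dimension `d` which are not
isomorphic. Then their characters differ on at least `|G| / (2 d²)` elements of `G`.
-/

set_option autoImplicit false

namespace Fermat.Agent.Cor.Falt

open scoped MonoidAlgebra

/-- the trace of an endomorphism of finite order -/
theorem norm_trace_le {V : Type*} [AddCommGroup V] [Module ℂ V] [FiniteDimensional ℂ V]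
    {f : Module.End ℂ V} {n : ℕ} (hn : n ≠ 0) (hf : f ^ n = 1) :
    ‖LinearMap.trace ℂ V f‖ ≤ Module.finrank ℂ V := by
  classical
  let b := Module.finBasis ℂ V
  have h1 : LinearMap.trace ℂ V f = (f.charpoly.roots).sum := by
    rw [LinearMap.trace_eq_matrix_trace ℂ b, Matrix.trace_eq_sum_roots_charpoly,
      LinearMap.charpoly_toMatrix]
  have h2 : ∀ μ ∈ f.charpoly.roots, ‖μ‖ = 1 := by
    intro μ hμ
    have h3 : f.HasEigenvalue μ := by
      rw [Module.End.hasEigenvalue_iff_isRoot_charpoly]
      exact (Polynomial.mem_roots'.1 hμ).2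
    obtain ⟨v, hv⟩ := h3.exists_hasEigenvector
    have h4 : (f ^ n) v = μ ^ n • v := hv.pow_apply n
    rw [hf, Module.End.one_apply] at h4
    have h5 : μ ^ n = 1 := by
      have h6 : (μ ^ n - 1) • v = 0 := by rw [sub_smul, ← h4, one_smul, sub_self]
      exact sub_eq_zero.1 ((smul_eq_zero.1 h6).resolve_right hv.2)
    exact Complex.norm_eq_one_of_pow_eq_one h5 hn
  rw [h1]
  have h3 : ‖(f.charpoly.roots).sum‖ ≤ ((f.charpoly.roots).map fun μ => ‖μ‖).sum :=
    norm_multiset_sum_le _
  refine h3.trans ?_
  rw [Multiset.map_congr rfl h2, Multiset.map_const', Multiset.sum_replicate, nsmul_eq_mul, mul_one]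
  have h4 := Polynomial.card_roots' f.charpoly
  rw [LinearMap.charpoly_natDegree] at h4
  exact_mod_cast h4

section Group

variable {G : Type*} [Group G]

/-- the representation of `G` on a module over the group algebra -/
noncomputable def modRep (G : Type*) [Group G] (V : Type*) [AddCommGroup V] [Module ℂ V]
    [Module (MonoidAlgebra ℂ G) V] [IsScalarTower ℂ (MonoidAlgebra ℂ G) V] :
    Representation ℂ G V :=
  ((Algebra.lsmul ℂ ℂ V : MonoidAlgebra ℂ G →ₐ[ℂ] _) : MonoidAlgebra ℂ G →* _).comp
    (MonoidAlgebra.of ℂ G)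

variable {V W : Type*} [AddCommGroup V] [Module ℂ V] [Module (MonoidAlgebra ℂ G) V]
  [IsScalarTower ℂ (MonoidAlgebra ℂ G) V] [AddCommGroup W] [Module ℂ W]
  [Module (MonoidAlgebra ℂ G) W] [IsScalarTower ℂ (MonoidAlgebra ℂ G) W]

theorem modRep_apply (g : G) (v : V) : modRep G V g v = MonoidAlgebra.of ℂ G g • v := rfl

theorem char_eq_act (g : G) :
    (modRep G V).character g = LinearMap.trace ℂ V (act ℂ V (MonoidAlgebra.of ℂ G g)) := rfl

/-- the scalar product of two characters -/
theorem sum_char_mul_char [Fintype G] [FiniteDimensional ℂ V] [FiniteDimensional ℂ W] :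
    ∑ g : G, (modRep G W).character g * (modRep G V).character g⁻¹ =
      (Nat.card G : ℂ) * Module.finrank ℂ (Representation.IntertwiningMap (modRep G V) (modRep G W)) := by
  have hc : (Nat.card G : ℂ) ≠ 0 := by exact_mod_cast Nat.card_pos.ne'
  have : Invertible (Nat.card G : ℂ) := invertibleOfNonzero hc
  rw [← Representation.card_inv_mul_sum_char_mul_char_eq_finrank, mul_inv_cancel_left₀ hc]

theorem finrank_intertwining_eq_zero (h : ∀ φ : V →ₗ[MonoidAlgebra ℂ G] W, φ = 0) :
    Module.finrank ℂ (Representation.IntertwiningMap (modRep G V) (modRep G W)) = 0 := by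
  have hs : Subsingleton (Representation.IntertwiningMap (modRep G V) (modRep G W)) := by
    refine ⟨fun φ ψ => ?_⟩
    have key : ∀ φ : Representation.IntertwiningMap (modRep G V) (modRep G W), ∀ v, φ v = 0 := by
      intro φ v
      let φA : V →ₗ[MonoidAlgebra ℂ G] W :=
        { toFun := φ
          map_add' := map_add φ
          map_smul' := fun a v => by
            rw [RingHom.id_apply]
            induction a using MonoidAlgebra.induction_on with
            | of g => exact Representation.IntertwiningMap.isIntertwining _ _ φ g v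
            | add a b ha hb => rw [add_smul, map_add, ha, hb, add_smul]
            | smul c a ha => rw [smul_assoc, map_smul, ha, smul_assoc] }
      exact LinearMap.congr_fun (h φA) v
    apply Representation.IntertwiningMap.ext
    ext v
    exact (key φ v).trans (key ψ v).symm
  exact Module.finrank_zero_of_subsingleton

theorem finrank_intertwining_pos [FiniteDimensional ℂ V] [Nontrivial V] :
    0 < Module.finrank ℂ (Representation.IntertwiningMap (modRep G V) (modRep G V)) := by
  have hf : FiniteDimensional ℂ (Representation.IntertwiningMap (modRep G V) (modRep G V)) :=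
    LinearEquiv.finiteDimensional
      (Representation.invariantsEquivIntertwiningMap (modRep G V) (modRep G V))
  let φ : Representation.IntertwiningMap (modRep G V) (modRep G V) :=
    { toLinearMap := LinearMap.id
      isIntertwining' := fun g => rfl }
  have hne : φ ≠ 0 := by
    intro h
    obtain ⟨v, hv⟩ := exists_ne (0 : V)
    apply hv
    exact congrArg (fun ψ : Representation.IntertwiningMap (modRep G V) (modRep G V) => ψ v) h
  have : Nontrivial (Representation.IntertwiningMap (modRep G V) (modRep G V)) := ⟨φ, 0, hne⟩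
  exact Module.finrank_pos

end Group

section Hom

variable {A V W : Type*} [Ring A] [AddCommGroup V] [Module A V] [AddCommGroup W] [Module A W]

theorem hom_eq_zero_left [IsSemisimpleModule A V]
    (h : ∀ (S : Submodule A V) [IsSimpleModule A S] (f : S →ₗ[A] W), f = 0) (φ : V →ₗ[A] W) :
    φ = 0 := by
  by_contra hne
  obtain ⟨C, hC⟩ := exists_isCompl (LinearMap.ker φ)
  have hC0 : C ≠ ⊥ := by
    intro h0
    rw [h0] at hC
    exact hne (LinearMap.ker_eq_top.1 (eq_top_of_isCompl_bot hC))
  obtain ⟨S, hSC, hS⟩ := (IsSemisimpleModule.eq_bot_or_exists_simple_le C).resolve_left hC0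
  have hnt : Nontrivial S := IsSimpleModule.nontrivial A S
  obtain ⟨x, hx⟩ := exists_ne (0 : S)
  have h1 : φ x = 0 := LinearMap.congr_fun (h S (φ ∘ₗ S.subtype)) x
  have h2 : (x : V) ∈ LinearMap.ker φ ⊓ C := ⟨h1, hSC x.2⟩
  rw [hC.inf_eq_bot] at h2
  exact hx (Subtype.ext h2)

theorem hom_eq_zero_right [IsSemisimpleModule A V] [IsSemisimpleModule A W]
    (h : ∀ (S : Submodule A V) [IsSimpleModule A S] (f : S →ₗ[A] W), f = 0) (φ : W →ₗ[A] V) :
    φ = 0 := by
  by_contra hne
  have h1 : LinearMap.range φ ≠ ⊥ := fun h => hne (LinearMap.range_eq_bot.1 h)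
  obtain ⟨S, hSr, hS⟩ :=
    (IsSemisimpleModule.eq_bot_or_exists_simple_le (LinearMap.range φ)).resolve_left h1
  obtain ⟨f, hf⟩ := IsSemisimpleModule.lifting_property φ.rangeRestrict
    (LinearMap.surjective_rangeRestrict φ) (Submodule.inclusion hSr)
  have hnt : Nontrivial S := IsSimpleModule.nontrivial A S
  obtain ⟨x, hx⟩ := exists_ne (0 : S)
  have h4 := LinearMap.congr_fun hf x
  rw [h S f, LinearMap.comp_zero, LinearMap.zero_apply] at h4
  exact hx (Submodule.inclusion_injective hSr (h4.symm.trans (map_zero _).symm))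

end Hom

section Two

variable {G : Type*} [Group G] [Fintype G]

/-- **The norm of the difference of two characters of the same degree is at least `2`.** -/
theorem exists_two_le.{u, v} (n : ℕ) :
    ∀ (V₁ : Type u) (V₂ : Type v) [AddCommGroup V₁] [AddCommGroup V₂] [Module ℂ V₁] [Module ℂ V₂]
      [Module (MonoidAlgebra ℂ G) V₁] [Module (MonoidAlgebra ℂ G) V₂]
      [IsScalarTower ℂ (MonoidAlgebra ℂ G) V₁] [IsScalarTower ℂ (MonoidAlgebra ℂ G) V₂]
      [FiniteDimensional ℂ V₁] [FiniteDimensional ℂ V₂], Module.finrank ℂ V₁ = n →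
      Module.finrank ℂ V₂ = n → ¬ Nonempty (V₁ ≃ₗ[MonoidAlgebra ℂ G] V₂) →
      ∃ c : ℕ, 2 ≤ c ∧
        ∑ g : G, ((modRep G V₁).character g - (modRep G V₂).character g) *
          ((modRep G V₁).character g⁻¹ - (modRep G V₂).character g⁻¹) = c * (Nat.card G : ℂ) := by
  have hc : (Nat.card G : ℂ) ≠ 0 := by exact_mod_cast Nat.card_pos.ne'
  have : NeZero (Nat.card G : ℂ) := ⟨hc⟩
  induction n using Nat.strong_induction_on with
  | _ n ih =>
    intro V₁ V₂ _ _ _ _ _ _ _ _ _ _ hn₁ hn₂ hne
    have hs₁ : IsSemisimpleModule (MonoidAlgebra ℂ G) V₁ := inferInstance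
    have hs₂ : IsSemisimpleModule (MonoidAlgebra ℂ G) V₂ := inferInstance
    by_cases hcase : ∀ (S : Submodule (MonoidAlgebra ℂ G) V₁)
        [IsSimpleModule (MonoidAlgebra ℂ G) S] (f : S →ₗ[MonoidAlgebra ℂ G] V₂), f = 0
    · -- no common constituent
      have hnt₁ : Nontrivial V₁ := by
        by_contra h0
        rw [not_nontrivial_iff_subsingleton] at h0
        rw [Module.finrank_zero_of_subsingleton] at hn₁
        have : Subsingleton V₂ := Module.finrank_zero_iff.1 (hn₂.trans hn₁.symm)
        exact hne ⟨0⟩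
      have hnt₂ : Nontrivial V₂ := by
        have h0 : 0 < Module.finrank ℂ V₂ := by
          rw [hn₂, ← hn₁]
          exact Module.finrank_pos
        exact Module.nontrivial_of_finrank_pos h0
      have hp₁ := finrank_intertwining_pos (G := G) (V := V₁)
      have hp₂ := finrank_intertwining_pos (G := G) (V := V₂)
      refine ⟨Module.finrank ℂ (Representation.IntertwiningMap (modRep G V₁) (modRep G V₁)) +
        Module.finrank ℂ (Representation.IntertwiningMap (modRep G V₂) (modRep G V₂)),
        by omega, ?_⟩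
      have h11 := sum_char_mul_char (G := G) (V := V₁) (W := V₁)
      have h22 := sum_char_mul_char (G := G) (V := V₂) (W := V₂)
      have h12 := sum_char_mul_char (G := G) (V := V₁) (W := V₂)
      have h21 := sum_char_mul_char (G := G) (V := V₂) (W := V₁)
      rw [finrank_intertwining_eq_zero (hom_eq_zero_left hcase), Nat.cast_zero, mul_zero] at h12
      rw [finrank_intertwining_eq_zero (hom_eq_zero_right hcase), Nat.cast_zero, mul_zero] at h21
      simp only [sub_mul, mul_sub, Finset.sum_sub_distrib]
      rw [h11, h22, h12, h21]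
      push_cast
      ring
    · -- a common constituent
      push Not at hcase
      obtain ⟨S, hS, h, hh⟩ := hcase
      have hinj : Function.Injective h := (LinearMap.injective_or_eq_zero h).resolve_right hh
      let e₁ : S ≃ₗ[MonoidAlgebra ℂ G] LinearMap.range h := LinearEquiv.ofInjective h hinj
      obtain ⟨N₁, hN₁⟩ := exists_isCompl S
      obtain ⟨N₂, hN₂⟩ := exists_isCompl (LinearMap.range h)
      have := finiteDimensional_sub (K := ℂ) S
      have := finiteDimensional_sub (K := ℂ) N₁
      have := finiteDimensional_sub (K := ℂ) N₂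
      have := finiteDimensional_sub (K := ℂ) (LinearMap.range h)
      let E₁ := Submodule.prodEquivOfIsCompl S N₁ hN₁
      let E₂ := Submodule.prodEquivOfIsCompl (LinearMap.range h) N₂ hN₂
      have hSnt : Nontrivial S := IsSimpleModule.nontrivial (MonoidAlgebra ℂ G) S
      have h1 := (E₁.restrictScalars ℂ).finrank_eq
      have h2 := (E₂.restrictScalars ℂ).finrank_eq
      have h3 := (e₁.restrictScalars ℂ).finrank_eq
      have h4 : 0 < Module.finrank ℂ S := Module.finrank_pos
      rw [Module.finrank_prod, hn₁] at h1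
      rw [Module.finrank_prod, hn₂] at h2
      obtain ⟨c, hc2, hcsum⟩ := ih (Module.finrank ℂ N₁) (by omega) N₁ N₂ rfl (by omega)
        (fun ⟨e₂⟩ => hne ⟨E₁.symm.trans ((e₁.prodCongr e₂).trans E₂)⟩)
      refine ⟨c, hc2, ?_⟩
      rw [← hcsum]
      have key : ∀ g : G, (modRep G V₁).character g - (modRep G V₂).character g =
          (modRep G N₁).character g - (modRep G N₂).character g := by
        intro g
        rw [char_eq_act, char_eq_act, char_eq_act, char_eq_act, ← trace_act_congr E₁,
          ← trace_act_congr E₂, trace_act_prod, trace_act_prod, trace_act_congr e₁]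
        ring
      exact Finset.sum_congr rfl fun g _ => by rw [key g, key g⁻¹]

theorem norm_character_le {V : Type*} [AddCommGroup V] [Module ℂ V] [FiniteDimensional ℂ V]
    (ρ : Representation ℂ G V) (g : G) : ‖ρ.character g‖ ≤ Module.finrank ℂ V := by
  refine norm_trace_le (n := Fintype.card G) Fintype.card_ne_zero ?_
  rw [← map_pow, pow_card_eq_one, map_one]

omit [Fintype G] in
theorem character_asModule {V : Type*} [AddCommGroup V] [Module ℂ V]
    (ρ : Representation ℂ G V) (g : G) :
    (modRep G ρ.asModule).character g = ρ.character g := by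
  rw [char_eq_act, ← LinearMap.trace_conj' _ ρ.asModuleEquiv]
  have h1 : ρ.asModuleEquiv.conj (act ℂ ρ.asModule (MonoidAlgebra.of ℂ G g)) =
      ρ.asAlgebraHom (MonoidAlgebra.of ℂ G g) := rfl
  rw [h1, Representation.asAlgebraHom_of]
  rfl

/-- **Two non-isomorphic representations of dimension `d` of a finite group `G` have different
characters at `|G| / (2 d ^ 2)` elements at least.** -/
theorem card_le_of_not_equiv {V₁ V₂ : Type*} [AddCommGroup V₁] [AddCommGroup V₂] [Module ℂ V₁]
    [Module ℂ V₂] [FiniteDimensional ℂ V₁] [FiniteDimensional ℂ V₂] {d : ℕ}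
    (hd₁ : Module.finrank ℂ V₁ = d) (hd₂ : Module.finrank ℂ V₂ = d)
    (ρ₁ : Representation ℂ G V₁) (ρ₂ : Representation ℂ G V₂)
    (hne : ¬ ∃ e : V₁ ≃ₗ[ℂ] V₂, ∀ (g : G) (v : V₁), e (ρ₁ g v) = ρ₂ g (e v)) :
    Nat.card G ≤ 2 * d ^ 2 * Nat.card {g : G // ρ₁.character g ≠ ρ₂.character g} := by
  classical
  have hf₁ : FiniteDimensional ℂ ρ₁.asModule :=
    LinearEquiv.finiteDimensional ρ₁.asModuleEquiv.symm
  have hf₂ : FiniteDimensional ℂ ρ₂.asModule :=
    LinearEquiv.finiteDimensional ρ₂.asModuleEquiv.symm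
  have hne' : ¬ Nonempty (ρ₁.asModule ≃ₗ[MonoidAlgebra ℂ G] ρ₂.asModule) := by
    rintro ⟨e⟩
    refine hne ⟨(ρ₁.asModuleEquiv.symm.trans (e.restrictScalars ℂ)).trans ρ₂.asModuleEquiv,
      fun g v => ?_⟩
    change ρ₂.asModuleEquiv (e (ρ₁.asModuleEquiv.symm (ρ₁ g v))) =
      ρ₂ g (ρ₂.asModuleEquiv (e (ρ₁.asModuleEquiv.symm v)))
    rw [Representation.asModuleEquiv_symm_map_rho, map_smul,
      Representation.asModuleEquiv_map_smul, Representation.asAlgebraHom_of]
  obtain ⟨c, hc2, hsum⟩ := exists_two_le (G := G) d ρ₁.asModule ρ₂.asModule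
    (ρ₁.asModuleEquiv.finrank_eq.trans hd₁) (ρ₂.asModuleEquiv.finrank_eq.trans hd₂) hne'
  simp only [character_asModule] at hsum
  set D := Finset.univ.filter fun g : G => ρ₁.character g ≠ ρ₂.character g with hD
  have hcardD : Nat.card {g : G // ρ₁.character g ≠ ρ₂.character g} = D.card := by
    rw [Nat.card_eq_fintype_card, Fintype.card_subtype]
  have hbound : ∀ g, ‖ρ₁.character g - ρ₂.character g‖ ≤ 2 * d := by
    intro g
    refine (norm_sub_le _ _).trans ?_
    have h1 := norm_character_le ρ₁ g
    have h2 := norm_character_le ρ₂ g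
    rw [hd₁] at h1
    rw [hd₂] at h2
    linarith
  have h1 : ∑ g : G, (ρ₁.character g - ρ₂.character g) * (ρ₁.character g⁻¹ - ρ₂.character g⁻¹) =
      ∑ g ∈ D, (ρ₁.character g - ρ₂.character g) * (ρ₁.character g⁻¹ - ρ₂.character g⁻¹) := by
    symm
    refine Finset.sum_subset (Finset.subset_univ _) fun g _ hg => ?_
    have h2 : ρ₁.character g = ρ₂.character g := by
      by_contra h3
      exact hg (Finset.mem_filter.2 ⟨Finset.mem_univ _, h3⟩)
    rw [h2, sub_self, zero_mul]
  have h2 : ‖∑ g ∈ D, (ρ₁.character g - ρ₂.character g) *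
      (ρ₁.character g⁻¹ - ρ₂.character g⁻¹)‖ ≤ D.card * (2 * d * (2 * d)) := by
    refine (norm_sum_le _ _).trans ?_
    rw [← nsmul_eq_mul]
    refine Finset.sum_le_card_nsmul _ _ _ fun g _ => ?_
    rw [norm_mul]
    exact mul_le_mul (hbound g) (hbound _) (norm_nonneg _) (by positivity)
  rw [← h1, hsum, norm_mul, Complex.norm_natCast, Complex.norm_natCast] at h2
  have h3 : c * Nat.card G ≤ D.card * (2 * d * (2 * d)) := by exact_mod_cast h2
  have h4 : 2 * Nat.card G ≤ c * Nat.card G := Nat.mul_le_mul_right _ hc2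
  rw [hcardD]
  have h5 : 2 * Nat.card G ≤ 2 * (2 * d ^ 2 * D.card) := by
    refine (h4.trans h3).trans (le_of_eq ?_)
    ring
  exact Nat.le_of_mul_le_mul_left h5 two_pos

end Two

end Fermat.Agent.Cor.Falt
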