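import Fermat.Agent.Corollaries.Falt.Span

/-!
# Faltings' finiteness criterion for Galois representations

* `exists_primes_trace` : for a finite set `S` of primes, `q` and `d` there is a finite set `T` of
  primes such that two continuous representations of `Gal(ℚ̄/ℚ)` of dimension `≤ d` over a local
  principal ideal domain with at most `q` elements in its residue field, unramified outside `S`,
  with the same traces of Frobenius at the primes of `T`, have the same trace everywhere;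
* `exists_primes_padic` : the case of continuous homomorphisms `Gal(ℚ̄/ℚ) → GL_d(ℤ_ℓ)`;
* `finite_trace` : if the traces of the Frobenius elements lie in given finite sets, there are only
  finitely many trace functions.
-/

set_option autoImplicit false

namespace Fermat.Agent.Cor.Falt

open NumberField IsDedekindDomain Fermat.Agent.Frob Fermat.Agent.Classic.Disc
open Fermat.Agent.Cor.Frob Fermat.Agent.Cor.Herm
open IsLocalRing (maximalIdeal ResidueField residue)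

local notation "Qbar" => AlgebraicClosure ℚ

section Adic

variable {R : Type*} [CommRing R]

theorem prod_mem_smul_top {E₁ E₂ : Type*} [AddCommGroup E₁] [AddCommGroup E₂] [Module R E₁]
    [Module R E₂] {I : Ideal R} {x : E₁} {y : E₂} (hx : x ∈ I • (⊤ : Submodule R E₁))
    (hy : y ∈ I • (⊤ : Submodule R E₂)) : (x, y) ∈ I • (⊤ : Submodule R (E₁ × E₂)) := by
  have h1 : LinearMap.inl R E₁ E₂ x ∈ I • (⊤ : Submodule R (E₁ × E₂)) := by
    have h := Submodule.mem_map_of_mem (f := LinearMap.inl R E₁ E₂) hx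
    rw [Submodule.map_smul''] at h
    exact Submodule.smul_mono le_rfl le_top h
  have h2 : LinearMap.inr R E₁ E₂ y ∈ I • (⊤ : Submodule R (E₁ × E₂)) := by
    have h := Submodule.mem_map_of_mem (f := LinearMap.inr R E₁ E₂) hy
    rw [Submodule.map_smul''] at h
    exact Submodule.smul_mono le_rfl le_top h
  have h3 := add_mem h1 h2
  simpa using h3

/-- a matrix with entries in `I` -/
theorem matrix_mem_smul_top {m n : Type*} [Fintype m] [Fintype n] [DecidableEq m] [DecidableEq n]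
    {I : Ideal R} {M : Matrix m n R} (h : ∀ i j, M i j ∈ I) :
    M ∈ I • (⊤ : Submodule R (Matrix m n R)) := by
  rw [Matrix.matrix_eq_sum_single M]
  refine Submodule.sum_mem _ fun i _ => Submodule.sum_mem _ fun j _ => ?_
  have h1 : Matrix.single i j (M i j) = M i j • Matrix.single i j (1 : R) := by
    rw [Matrix.smul_single, smul_eq_mul, mul_one]
  rw [h1]
  exact Submodule.smul_mem_smul (h i j) Submodule.mem_top

/-- an endomorphism with image in `I V` -/
theorem end_mem_smul_top {V : Type*} [AddCommGroup V] [Module R V] [Module.Free R V]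
    [Module.Finite R V] {I : Ideal R} {f : Module.End R V}
    (h : ∀ v, f v ∈ I • (⊤ : Submodule R V)) : f ∈ I • (⊤ : Submodule R (Module.End R V)) := by
  classical
  let b := Module.Free.chooseBasis R V
  have h1 : ∀ i j, LinearMap.toMatrix b b f i j ∈ I := by
    intro i j
    rw [LinearMap.toMatrix_apply]
    have h2 := Submodule.mem_map_of_mem (f := b.coord i) (h (b j))
    rw [Submodule.map_smul''] at h2
    have h3 := Submodule.smul_mono (le_refl I) (le_top : _ ≤ (⊤ : Submodule R R)) h2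
    rw [Ideal.smul_top_eq_map] at h3
    simpa using h3
  have h4 := Submodule.mem_map_of_mem
    (f := ((LinearMap.toMatrix b b).symm : Matrix _ _ R →ₗ[R] (V →ₗ[R] V)))
    (matrix_mem_smul_top h1)
  rw [Submodule.map_smul''] at h4
  have h5 := Submodule.smul_mono (le_refl I) (le_top : _ ≤ (⊤ : Submodule R (V →ₗ[R] V))) h4
  simpa using h5

theorem AdicCont.prod [IsLocalRing R] {E₁ E₂ : Type*} [Ring E₁] [Ring E₂] [Algebra R E₁]
    [Algebra R E₂] {ρ₁ : GQ →* E₁} {ρ₂ : GQ →* E₂} (h₁ : AdicCont R ρ₁) (h₂ : AdicCont R ρ₂) :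
    AdicCont R (ρ₁.prod ρ₂) := by
  intro n
  obtain ⟨L₁, hL₁, h₁⟩ := h₁ n
  obtain ⟨L₂, hL₂, h₂⟩ := h₂ n
  refine ⟨L₁ ⊔ L₂, inferInstance, fun σ hσ => ?_⟩
  exact prod_mem_smul_top (h₁ σ fun x hx => hσ x ((le_sup_left : L₁ ≤ L₁ ⊔ L₂) hx))
    (h₂ σ fun x hx => hσ x ((le_sup_right : L₂ ≤ L₁ ⊔ L₂) hx))

end Adic

/-- the set of primes below a finite set of Frobenius elements -/
theorem exists_primes_of {S' : Finset ℕ} {T : Set GQ} (hT : T.Finite)
    (hfrob : ∀ φ ∈ T, ∃ p : ℕ, p.Prime ∧ p ∉ S' ∧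
        ∃ A : ValuationSubring Qbar, A.LiesOverPrime p ∧ A.IsFrobeniusAt φ p) :
    ∃ P : Finset ℕ, (∀ p ∈ P, p.Prime ∧ p ∉ S') ∧ ∀ φ ∈ T, ∃ p ∈ P,
      ∃ A : ValuationSubring Qbar, A.LiesOverPrime p ∧ A.IsFrobeniusAt φ p := by
  classical
  choose! p hp hpS hA using hfrob
  refine ⟨(hT.image p).toFinset, ?_, ?_⟩
  · intro l hl
    rw [Set.Finite.mem_toFinset] at hl
    obtain ⟨φ, hφ, rfl⟩ := hl
    exact ⟨hp φ hφ, hpS φ hφ⟩
  · intro φ hφ
    exact ⟨p φ, by rw [Set.Finite.mem_toFinset]; exact ⟨φ, hφ, rfl⟩, hA φ hφ⟩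

/-- **Faltings' criterion.** For a finite set `S` of primes, a finite set `S'`, and `q`, `d` there
is a finite set `T` of primes outside `S'` such that two representations `ρ₁`, `ρ₂` of
`Gal(ℚ̄/ℚ)` on free modules of rank at most `d` over a local principal ideal domain with at most
`q` elements in the residue field, continuous for the adic topology and unramified outside `S`,
have the same trace function as soon as the traces of the Frobenius elements at the primes of `T`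
are the same. -/
theorem exists_primes_trace.{u, v} (S S' : Finset ℕ) (q d : ℕ) :
    ∃ T : Finset ℕ, (∀ p ∈ T, p.Prime ∧ p ∉ S') ∧
      ∀ (R : Type u) [CommRing R] [IsDomain R] [IsPrincipalIdealRing R] [IsLocalRing R]
        [Finite (ResidueField R)] (V₁ V₂ : Type v) [AddCommGroup V₁] [AddCommGroup V₂]
        [Module R V₁] [Module R V₂] [Module.Free R V₁] [Module.Free R V₂] [Module.Finite R V₁]
        [Module.Finite R V₂] (ρ₁ : GQ →* Module.End R V₁) (ρ₂ : GQ →* Module.End R V₂),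
        Nat.card (ResidueField R) ≤ q → Module.finrank R V₁ ≤ d → Module.finrank R V₂ ≤ d →
        (∀ n : ℕ, ∃ L : IntermediateField ℚ Qbar, FiniteDimensional ℚ L ∧
          ∀ σ : GQ, (∀ x ∈ L, σ x = x) →
            ∀ v, ρ₁ σ v - v ∈ (maximalIdeal R ^ n) • (⊤ : Submodule R V₁)) →
        (∀ n : ℕ, ∃ L : IntermediateField ℚ Qbar, FiniteDimensional ℚ L ∧
          ∀ σ : GQ, (∀ x ∈ L, σ x = x) →
            ∀ v, ρ₂ σ v - v ∈ (maximalIdeal R ^ n) • (⊤ : Submodule R V₂)) →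
        UnrOutside S ρ₁ → UnrOutside S ρ₂ →
        (∀ p ∈ T, ∀ A : ValuationSubring Qbar, A.LiesOverPrime p → ∀ φ : GQ,
          A.IsFrobeniusAt φ p →
          LinearMap.trace R V₁ (ρ₁ φ) = LinearMap.trace R V₂ (ρ₂ φ)) →
        ∀ σ : GQ, LinearMap.trace R V₁ (ρ₁ σ) = LinearMap.trace R V₂ (ρ₂ σ) := by
  obtain ⟨T, hT, hfrob, h⟩ := exists_span.{u, v} S S' q (d * d + d * d)
  obtain ⟨P, hP, hPT⟩ := exists_primes_of hT hfrob
  refine ⟨P, hP, ?_⟩
  intro R _ _ _ _ _ V₁ V₂ _ _ _ _ _ _ _ _ ρ₁ ρ₂ hq hd₁ hd₂ hc₁ hc₂ hS₁ hS₂ htr σ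
  have hr : Module.finrank R (Module.End R V₁ × Module.End R V₂) ≤ d * d + d * d := by
    rw [Module.finrank_prod, Module.finrank_linearMap, Module.finrank_linearMap]
    exact add_le_add (Nat.mul_le_mul hd₁ hd₁) (Nat.mul_le_mul hd₂ hd₂)
  have hc₁' : AdicCont R ρ₁ := fun n => by
    obtain ⟨L, hL, h⟩ := hc₁ n
    exact ⟨L, hL, fun σ hσ => end_mem_smul_top fun v => by simpa using h σ hσ v⟩
  have hc₂' : AdicCont R ρ₂ := fun n => by
    obtain ⟨L, hL, h⟩ := hc₂ n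
    exact ⟨L, hL, fun σ hσ => end_mem_smul_top fun v => by simpa using h σ hσ v⟩
  have hspan := h R (Module.End R V₁ × Module.End R V₂) (ρ₁.prod ρ₂) hq hr (hc₁'.prod hc₂')
    (fun p hp hpS A hA τ hτ => Prod.ext (hS₁ p hp hpS A hA τ hτ) (hS₂ p hp hpS A hA τ hτ))
  have h1 := eq_zero_of_span hspan
    ((LinearMap.trace R V₁).comp (LinearMap.fst R _ _) -
      (LinearMap.trace R V₂).comp (LinearMap.snd R _ _)) (fun φ hφ => by
        obtain ⟨p, hp, A, hA, hf⟩ := hPT φ hφ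
        exact sub_eq_zero.2 (htr p hp A hA φ hf)) σ
  exact sub_eq_zero.1 h1

section Matrix

/-- The trace function of a matrix representation is determined by its values at a finite set of
Frobenius elements depending only on `S`, `q`, `d`. -/
theorem exists_frob_trace.{u} (S S' : Finset ℕ) (q d : ℕ) :
    ∃ T : Set GQ, T.Finite ∧ (∀ φ ∈ T, ∃ p : ℕ, p.Prime ∧ p ∉ S' ∧
        ∃ A : ValuationSubring Qbar, A.LiesOverPrime p ∧ A.IsFrobeniusAt φ p) ∧
      ∀ (R : Type u) [CommRing R] [IsDomain R] [IsPrincipalIdealRing R] [IsLocalRing R]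
        [Finite (ResidueField R)] (ρ₁ ρ₂ : GQ →* Matrix (Fin d) (Fin d) R),
        Nat.card (ResidueField R) ≤ q → AdicCont R ρ₁ → AdicCont R ρ₂ →
        UnrOutside S ρ₁ → UnrOutside S ρ₂ → (∀ φ ∈ T, (ρ₁ φ).trace = (ρ₂ φ).trace) →
        ∀ σ : GQ, (ρ₁ σ).trace = (ρ₂ σ).trace := by
  obtain ⟨T, hT, hfrob, h⟩ := exists_span.{u, u} S S' q (d * d + d * d)
  refine ⟨T, hT, hfrob, ?_⟩
  intro R _ _ _ _ _ ρ₁ ρ₂ hq hc₁ hc₂ hS₁ hS₂ htr σ
  have hr : Module.finrank R (Matrix (Fin d) (Fin d) R × Matrix (Fin d) (Fin d) R) ≤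
      d * d + d * d := by
    rw [Module.finrank_prod, Module.finrank_matrix]
    simp
  have hspan := h R _ (ρ₁.prod ρ₂) hq hr (hc₁.prod hc₂)
    (fun p hp hpS A hA τ hτ => Prod.ext (hS₁ p hp hpS A hA τ hτ) (hS₂ p hp hpS A hA τ hτ))
  have h1 := eq_zero_of_span hspan
    ((Matrix.traceLinearMap (Fin d) R R).comp (LinearMap.fst R _ _) -
      (Matrix.traceLinearMap (Fin d) R R).comp (LinearMap.snd R _ _)) (fun φ hφ =>
        sub_eq_zero.2 (htr φ hφ)) σ
  exact sub_eq_zero.1 h1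

/-- **Finiteness of the trace functions.** If the traces of the Frobenius elements at every prime
outside `S` lie in a given finite set, there are only finitely many trace functions of continuous
representations of dimension `d` unramified outside `S`. -/
theorem finite_trace (S : Finset ℕ) (d : ℕ) {R : Type*} [CommRing R] [IsDomain R]
    [IsPrincipalIdealRing R] [IsLocalRing R] [Finite (ResidueField R)] {Z : ℕ → Set R}
    (hZ : ∀ p, (Z p).Finite) :
    {f : GQ → R | ∃ ρ : GQ →* Matrix (Fin d) (Fin d) R, AdicCont R ρ ∧ UnrOutside S ρ ∧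
      (∀ p : ℕ, p.Prime → p ∉ S → ∀ A : ValuationSubring Qbar, A.LiesOverPrime p →
        ∀ φ : GQ, A.IsFrobeniusAt φ p → (ρ φ).trace ∈ Z p) ∧
      f = fun σ => (ρ σ).trace}.Finite := by
  obtain ⟨T, hT, hfrob, h⟩ := exists_frob_trace S S (Nat.card (ResidueField R)) d
  choose p hp hpS A hA hφ using fun φ : T => hfrob φ.1 φ.2
  have : Finite T := hT.to_subtype
  refine Set.Finite.of_finite_image (f := fun g : GQ → R => fun φ : T => g φ)
    ((Set.Finite.pi' fun φ : T => hZ (p φ)).subset ?_) ?_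
  · rintro _ ⟨_, ⟨ρ, -, -, hρ, rfl⟩, rfl⟩ φ
    exact hρ (p φ) (hp φ) (hpS φ) (A φ) (hA φ) φ (hφ φ)
  · rintro _ ⟨ρ₁, hc₁, hS₁, -, rfl⟩ _ ⟨ρ₂, hc₂, hS₂, -, rfl⟩ heq
    funext σ
    exact h R ρ₁ ρ₂ le_rfl hc₁ hc₂ hS₁ hS₂ (fun φ hφT => congrFun heq ⟨φ, hφT⟩) σ

end Matrix

section Padic

variable {ℓ : ℕ} [hℓ : Fact ℓ.Prime] {d : ℕ}

theorem finite_residueField (ℓ : ℕ) [Fact ℓ.Prime] : Finite (ResidueField ℤ_[ℓ]) :=
  Finite.of_equiv _ (PadicInt.residueField (p := ℓ)).symm.toEquiv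

theorem card_residueField (ℓ : ℕ) [Fact ℓ.Prime] : Nat.card (ResidueField ℤ_[ℓ]) = ℓ := by
  rw [Nat.card_congr (PadicInt.residueField (p := ℓ)).toEquiv, Nat.card_zmod]

/-- the matrix representation -/
noncomputable def mat (ρ : GQ →* GL (Fin d) ℤ_[ℓ]) : GQ →* Matrix (Fin d) (Fin d) ℤ_[ℓ] :=
  (Units.coeHom _).comp ρ

theorem adicCont_of_continuous {ρ : GQ →* GL (Fin d) ℤ_[ℓ]} (h : Continuous ρ) :
    AdicCont ℤ_[ℓ] (mat ρ) := by
  intro n
  have hc : Continuous fun σ => (ρ σ).1 := Units.continuous_val.comp h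
  have h1 : ∀ i j, {σ : GQ | (ρ σ).1 i j - (1 : Matrix (Fin d) (Fin d) ℤ_[ℓ]) i j ∈
      maximalIdeal ℤ_[ℓ] ^ n} ∈ nhds (1 : GQ) := by
    intro i j
    have hij : Continuous fun σ : GQ => (ρ σ).1 i j - (1 : Matrix (Fin d) (Fin d) ℤ_[ℓ]) i j :=
      (hc.matrix_elem i j).sub continuous_const
    have h2 : Metric.closedBall (0 : ℤ_[ℓ]) ((ℓ : ℝ) ^ (-n : ℤ)) ∈
        nhds ((ρ 1).1 i j - (1 : Matrix (Fin d) (Fin d) ℤ_[ℓ]) i j) := by
      rw [map_one, Units.val_one, sub_self]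
      refine Metric.closedBall_mem_nhds _ (zpow_pos ?_ _)
      exact_mod_cast hℓ.out.pos
    refine Filter.mem_of_superset (hij.continuousAt.preimage_mem_nhds h2) ?_
    intro σ hσ
    rw [Set.mem_preimage, mem_closedBall_zero_iff, PadicInt.norm_le_pow_iff_mem_span_pow] at hσ
    rw [Set.mem_ofPred_eq, PadicInt.maximalIdeal_eq_span_p, Ideal.span_singleton_pow]
    exact hσ
  have h3 : {σ : GQ | ∀ i j, (ρ σ).1 i j - (1 : Matrix (Fin d) (Fin d) ℤ_[ℓ]) i j ∈
      maximalIdeal ℤ_[ℓ] ^ n} ∈ nhds (1 : GQ) := by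
    have h4 : {σ : GQ | ∀ i j, (ρ σ).1 i j - (1 : Matrix (Fin d) (Fin d) ℤ_[ℓ]) i j ∈
      maximalIdeal ℤ_[ℓ] ^ n} = ⋂ i, ⋂ j, {σ : GQ | (ρ σ).1 i j -
        (1 : Matrix (Fin d) (Fin d) ℤ_[ℓ]) i j ∈ maximalIdeal ℤ_[ℓ] ^ n} := by
      ext σ
      simp
    rw [h4]
    exact Filter.iInter_mem.2 fun i => Filter.iInter_mem.2 fun j => h1 i j
  obtain ⟨L, hL, h4⟩ := (krullTopology_mem_nhds_one_iff ℚ Qbar _).1 h3
  refine ⟨L, hL, fun σ hσ => matrix_mem_smul_top fun i j => ?_⟩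
  exact h4 ((IntermediateField.mem_fixingSubgroup_iff _ _).2 hσ) i j

/-- **Faltings' criterion for `ℓ`-adic representations.** -/
theorem exists_primes_padic (S : Finset ℕ) (ℓ : ℕ) [Fact ℓ.Prime] (d : ℕ) :
    ∃ T : Finset ℕ, (∀ p ∈ T, p.Prime ∧ p ∉ S ∧ p ≠ ℓ) ∧
      ∀ ρ₁ ρ₂ : GQ →* GL (Fin d) ℤ_[ℓ], Continuous ρ₁ → Continuous ρ₂ →
        UnrOutside S ρ₁ → UnrOutside S ρ₂ →
        (∀ p ∈ T, ∀ A : ValuationSubring Qbar, A.LiesOverPrime p → ∀ φ : GQ,
          A.IsFrobeniusAt φ p → (ρ₁ φ).1.trace = (ρ₂ φ).1.trace) →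
        ∀ σ : GQ, (ρ₁ σ).1.trace = (ρ₂ σ).1.trace := by
  have := finite_residueField ℓ
  obtain ⟨T, hT, hfrob, h⟩ := exists_frob_trace S (insert ℓ S) ℓ d
  obtain ⟨P, hP, hPT⟩ := exists_primes_of hT hfrob
  refine ⟨P, fun p hp => ⟨(hP p hp).1, fun h => (hP p hp).2 (Finset.mem_insert_of_mem h),
    fun h => (hP p hp).2 (h ▸ Finset.mem_insert_self _ _)⟩, ?_⟩
  intro ρ₁ ρ₂ hc₁ hc₂ hS₁ hS₂ htr
  refine h ℤ_[ℓ] (mat ρ₁) (mat ρ₂) (card_residueField ℓ).le (adicCont_of_continuous hc₁)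
    (adicCont_of_continuous hc₂) ?_ ?_ ?_
  · intro p hp hpS A hA σ hσ
    change (ρ₁ σ).1 = 1
    rw [hS₁ p hp hpS A hA σ hσ, Units.val_one]
  · intro p hp hpS A hA σ hσ
    change (ρ₂ σ).1 = 1
    rw [hS₂ p hp hpS A hA σ hσ, Units.val_one]
  · intro φ hφ
    obtain ⟨p, hp, A, hA, hf⟩ := hPT φ hφ
    exact htr p hp A hA φ hf

/-- **Finiteness of the trace functions of `ℓ`-adic representations** with given finite sets of
possible traces of Frobenius elements. -/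
theorem finite_trace_padic (S : Finset ℕ) (ℓ : ℕ) [Fact ℓ.Prime] (d : ℕ) {Z : ℕ → Set ℤ_[ℓ]}
    (hZ : ∀ p, (Z p).Finite) :
    {f : GQ → ℤ_[ℓ] | ∃ ρ : GQ →* GL (Fin d) ℤ_[ℓ], Continuous ρ ∧ UnrOutside S ρ ∧
      (∀ p : ℕ, p.Prime → p ∉ S → ∀ A : ValuationSubring Qbar, A.LiesOverPrime p →
        ∀ φ : GQ, A.IsFrobeniusAt φ p → (ρ φ).1.trace ∈ Z p) ∧
      f = fun σ => (ρ σ).1.trace}.Finite := by
  have := finite_residueField ℓ
  refine (finite_trace S d hZ).subset ?_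
  rintro _ ⟨ρ, hc, hS, hρ, rfl⟩
  refine ⟨mat ρ, adicCont_of_continuous hc, ?_, hρ, rfl⟩
  intro p hp hpS A hA σ hσ
  change (ρ σ).1 = 1
  rw [hS p hp hpS A hA σ hσ, Units.val_one]

end Padic

end Fermat.Agent.Cor.Falt
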