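import Fermat.Agent.Corollaries.Falt.CharDiff
import Fermat.Agent.Corollaries.Falt.BaseIso
import Fermat.Agent.Corollaries.Cheb.NatMain

/-!
# Strong multiplicity one for Artin representations

Let `ρ₁`, `ρ₂ : Gal(ℚ̄/ℚ) → GL_d(ℂ)` be continuous and not conjugate. Then the set of the primes `p`
with `tr ρ₁(Frob_p) ≠ tr ρ₂(Frob_p)` has a natural density, and it is at least `1 / (2 d²)`.
-/

set_option autoImplicit false

open Filter Topology

namespace Fermat.Agent.Cor.Falt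

open Fermat.Agent.Frob Fermat.Agent.FrobDensity

local notation "Qbar" => AlgebraicClosure ℚ

/-! ### No small subgroups in `GL_d(ℂ)` -/

section Small

variable {d : ℕ}

/-- the sum of the absolute values of the entries -/
noncomputable def ent (M : Matrix (Fin d) (Fin d) ℂ) : ℝ := ∑ i, ∑ j, ‖M i j‖

theorem ent_nonneg (M : Matrix (Fin d) (Fin d) ℂ) : 0 ≤ ent M :=
  Finset.sum_nonneg fun _ _ => Finset.sum_nonneg fun _ _ => norm_nonneg _

theorem eq_zero_of_ent {M : Matrix (Fin d) (Fin d) ℂ} (h : ent M = 0) : M = 0 := by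
  ext i j
  have h1 := (Finset.sum_eq_zero_iff_of_nonneg
    (fun i _ => Finset.sum_nonneg fun _ _ => norm_nonneg _)).1 h i (Finset.mem_univ i)
  have h2 := (Finset.sum_eq_zero_iff_of_nonneg (fun j _ => norm_nonneg _)).1 h1 j
    (Finset.mem_univ j)
  exact norm_eq_zero.1 h2

theorem ent_add_le (M N : Matrix (Fin d) (Fin d) ℂ) : ent (M + N) ≤ ent M + ent N := by
  unfold ent
  rw [← Finset.sum_add_distrib]
  refine Finset.sum_le_sum fun i _ => ?_
  rw [← Finset.sum_add_distrib]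
  exact Finset.sum_le_sum fun j _ => norm_add_le _ _

theorem ent_mul_le (M N : Matrix (Fin d) (Fin d) ℂ) : ent (M * N) ≤ ent M * ent N := by
  unfold ent
  calc ∑ i, ∑ j, ‖(M * N) i j‖ ≤ ∑ i, ∑ j, ∑ k, ‖M i k‖ * ‖N k j‖ := by
        refine Finset.sum_le_sum fun i _ => Finset.sum_le_sum fun j _ => ?_
        rw [Matrix.mul_apply]
        refine (norm_sum_le _ _).trans ?_
        exact Finset.sum_le_sum fun k _ => (norm_mul _ _).le
    _ = ∑ i, ∑ k, ‖M i k‖ * ∑ j, ‖N k j‖ := by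
        refine Finset.sum_congr rfl fun i _ => ?_
        rw [Finset.sum_comm]
        exact Finset.sum_congr rfl fun k _ => (Finset.mul_sum _ _ _).symm
    _ ≤ ∑ i, ∑ k, ‖M i k‖ * ∑ l, ∑ j, ‖N l j‖ := by
        refine Finset.sum_le_sum fun i _ => Finset.sum_le_sum fun k _ => ?_
        refine mul_le_mul_of_nonneg_left ?_ (norm_nonneg _)
        exact Finset.single_le_sum (f := fun l => ∑ j, ‖N l j‖)
          (fun l _ => Finset.sum_nonneg fun _ _ => norm_nonneg _) (Finset.mem_univ k)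
    _ = (∑ i, ∑ j, ‖M i j‖) * ∑ i, ∑ j, ‖N i j‖ := by
        rw [Finset.sum_mul]
        refine Finset.sum_congr rfl fun i _ => ?_
        rw [Finset.sum_mul]

theorem ent_two_mul (M : Matrix (Fin d) (Fin d) ℂ) : ent (M + M) = 2 * ent M := by
  unfold ent
  rw [Finset.mul_sum]
  refine Finset.sum_congr rfl fun i _ => ?_
  rw [Finset.mul_sum]
  refine Finset.sum_congr rfl fun j _ => ?_
  rw [Matrix.add_apply, ← two_mul, norm_mul, Complex.norm_two]

theorem continuous_ent : Continuous (ent : Matrix (Fin d) (Fin d) ℂ → ℝ) := by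
  unfold ent
  exact continuous_finsetSum _ fun i _ => continuous_finsetSum _ fun j _ =>
    (continuous_id.matrix_elem i j).norm

/-- `M ^ 2 - 1` is larger than `M - 1` near `1` -/
theorem ent_sq_sub_one {M : Matrix (Fin d) (Fin d) ℂ} (h : ent (M - 1) ≤ 1 / 2) :
    3 / 2 * ent (M - 1) ≤ ent (M ^ 2 - 1) := by
  have h1 : (M - 1) + (M - 1) = (M ^ 2 - 1) + (-((M - 1) * (M - 1))) := by
    rw [pow_two]
    noncomm_ring
  have h2 := ent_two_mul (M - 1)
  rw [h1] at h2
  have h3 := ent_add_le (M ^ 2 - 1) (-((M - 1) * (M - 1)))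
  have h4 : ent (-((M - 1) * (M - 1))) = ent ((M - 1) * (M - 1)) := by
    unfold ent
    simp only [Matrix.neg_apply, norm_neg]
  have h5 := ent_mul_le (M - 1) (M - 1)
  have h6 := ent_nonneg (M - 1)
  nlinarith

theorem eq_one_of_pow {M : Matrix (Fin d) (Fin d) ℂ}
    (h : ∀ k : ℕ, ent (M ^ 2 ^ k - 1) ≤ 1 / 2) : M = 1 := by
  have h1 : ∀ k : ℕ, (3 / 2 : ℝ) ^ k * ent (M - 1) ≤ ent (M ^ 2 ^ k - 1) := by
    intro k
    induction k with
    | zero => simp
    | succ k ih =>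
      have h2 := ent_sq_sub_one (h k)
      rw [← pow_mul, ← pow_succ] at h2
      have h3 : (3 / 2 : ℝ) ^ (k + 1) * ent (M - 1) = 3 / 2 * ((3 / 2) ^ k * ent (M - 1)) := by
        ring
      rw [h3]
      linarith
  by_contra hne
  have hpos : 0 < ent (M - 1) := by
    refine lt_of_le_of_ne (ent_nonneg _) fun h0 => hne ?_
    exact sub_eq_zero.1 (eq_zero_of_ent h0.symm)
  obtain ⟨k, hk⟩ := pow_unbounded_of_one_lt (1 / (2 * ent (M - 1)))
    (show (1 : ℝ) < 3 / 2 by norm_num)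
  have h4 := (h1 k).trans (h k)
  rw [div_lt_iff₀ (by positivity)] at hk
  nlinarith

/-- **A continuous homomorphism `Gal(ℚ̄/ℚ) → GL_d(ℂ)` has open kernel.** -/
theorem isOpen_ker_complex {ρ : GQ →* GL (Fin d) ℂ} (hρ : Continuous ρ) :
    ∃ L : IntermediateField ℚ Qbar, FiniteDimensional ℚ L ∧
      ∀ σ : GQ, (∀ x ∈ L, σ x = x) → ρ σ = 1 := by
  have h1 : Continuous fun σ : GQ => ent ((ρ σ).1 - 1) :=
    continuous_ent.comp ((Units.continuous_val.comp hρ).sub continuous_const)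
  have h2 : {σ : GQ | ent ((ρ σ).1 - 1) < 1 / 2} ∈ 𝓝 (1 : GQ) := by
    refine (isOpen_lt h1 continuous_const).mem_nhds ?_
    rw [Set.mem_ofPred_eq, map_one, Units.val_one, sub_self]
    unfold ent
    simp
  obtain ⟨L, hL, h3⟩ := (krullTopology_mem_nhds_one_iff ℚ Qbar _).1 h2
  refine ⟨L, hL, fun σ hσ => Units.ext (eq_one_of_pow fun k => ?_)⟩
  have h4 : σ ^ 2 ^ k ∈ L.fixingSubgroup :=
    pow_mem ((IntermediateField.mem_fixingSubgroup_iff _ _).2 hσ) _
  have h5 := h3 h4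
  rw [Set.mem_ofPred_eq, map_pow, Units.val_pow_eq_pow_val] at h5
  exact h5.le

end Small

/-! ### Strong multiplicity one -/

section Main

variable {d : ℕ}

/-- the primes at which both representations are unramified and the traces of the Frobenius elements
are different -/
def DiffPrimes (ρ₁ ρ₂ : GQ →* GL (Fin d) ℂ) : Set ℕ :=
  {p | p.Prime ∧ ∃ A : ValuationSubring Qbar, A.LiesOverPrime p ∧
    (∀ σ ∈ A.inertiaSubgroupIn ℚ, ρ₁ σ = 1 ∧ ρ₂ σ = 1) ∧
    ∃ φ : GQ, A.IsFrobeniusAt φ p ∧ (ρ₁ φ).1.trace ≠ (ρ₂ φ).1.trace}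

theorem trace_conj_GL {g M : GL (Fin d) ℂ} : (g * M * g⁻¹).1.trace = M.1.trace := by
  change (g.1 * M.1 * (g⁻¹).1).trace = _
  rw [Matrix.trace_mul_comm, ← mul_assoc, ← Units.val_mul, inv_mul_cancel, Units.val_one, one_mul]

open Classical in
/-- **Strong multiplicity one for Artin representations.** Let `ρ₁`, `ρ₂ : Gal(ℚ̄/ℚ) → GL_d(ℂ)` be
continuous and not conjugate. Then the set of the primes at which the traces of the Frobenius
elements are different has a natural density, and it is at least `1 / (2 d²)`. -/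
theorem strong_multiplicity_one {ρ₁ ρ₂ : GQ →* GL (Fin d) ℂ} (h₁ : Continuous ρ₁)
    (h₂ : Continuous ρ₂) (hne : ¬ ∃ g : GL (Fin d) ℂ, ∀ σ, g * ρ₁ σ * g⁻¹ = ρ₂ σ) :
    ∃ δ : ℝ, 1 / (2 * (d : ℝ) ^ 2) ≤ δ ∧
      Tendsto (fun x : ℕ => (((Finset.range (x + 1)).filter fun p =>
        p ∈ DiffPrimes ρ₁ ρ₂).card : ℝ) / Nat.primeCounting x) atTop (𝓝 δ) := by
  obtain ⟨L₁, hL₁, hker₁⟩ := isOpen_ker_complex h₁
  obtain ⟨L₂, hL₂, hker₂⟩ := isOpen_ker_complex h₂
  let r := (ρ₁.prod ρ₂).rangeRestrict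
  have hr : Function.Surjective r := (ρ₁.prod ρ₂).rangeRestrict_surjective
  have hrval : ∀ σ, (r σ).1 = (ρ₁ σ, ρ₂ σ) := fun σ => rfl
  have hlevel : ∃ L : IntermediateField ℚ Qbar, FiniteDimensional ℚ L ∧
      ∀ σ : GQ, (∀ x ∈ L, σ x = x) → r σ = 1 := by
    refine ⟨L₁ ⊔ L₂, inferInstance, fun σ hσ => Subtype.ext (Prod.ext ?_ ?_)⟩
    · exact hker₁ σ fun x hx => hσ x ((le_sup_left : L₁ ≤ L₁ ⊔ L₂) hx)
    · exact hker₂ σ fun x hx => hσ x ((le_sup_right : L₂ ≤ L₁ ⊔ L₂) hx)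
  have hfin : Finite (ρ₁.prod ρ₂).range := by
    obtain ⟨L, hL, hLr⟩ := hlevel
    have hfi : L.fixingSubgroup.FiniteIndex := by
      refine ⟨?_⟩
      rw [← IntermediateField.finrank_eq_fixingSubgroup_index]
      exact Module.finrank_pos.ne'
    have hle : L.fixingSubgroup ≤ (ρ₁.prod ρ₂).ker := by
      intro σ hσ
      exact congrArg Subtype.val (hLr σ ((IntermediateField.mem_fixingSubgroup_iff _ _).1 hσ))
    have hfi' : (ρ₁.prod ρ₂).ker.FiniteIndex := Subgroup.finiteIndex_of_le hle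
    have : Finite (GQ ⧸ (ρ₁.prod ρ₂).ker) := Subgroup.finite_quotient_of_finiteIndex
    exact Finite.of_equiv _ (QuotientGroup.quotientKerEquivRange (ρ₁.prod ρ₂)).toEquiv
  have hfint : Fintype (ρ₁.prod ρ₂).range := Fintype.ofFinite _
  -- the two representations of the finite group
  let π₁ : (ρ₁.prod ρ₂).range →* GL (Fin d) ℂ :=
    (MonoidHom.fst _ _).comp (ρ₁.prod ρ₂).range.subtype
  let π₂ : (ρ₁.prod ρ₂).range →* GL (Fin d) ℂ :=
    (MonoidHom.snd _ _).comp (ρ₁.prod ρ₂).range.subtype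
  have hπ₁ : ∀ σ, π₁ (r σ) = ρ₁ σ := fun σ => rfl
  have hπ₂ : ∀ σ, π₂ (r σ) = ρ₂ σ := fun σ => rfl
  have hne' : ¬ ∃ e : (Fin d → ℂ) ≃ₗ[ℂ] (Fin d → ℂ), ∀ (g : (ρ₁.prod ρ₂).range)
      (v : Fin d → ℂ), e (repG π₁ g v) = repG π₂ g (e v) := by
    rintro ⟨e, he⟩
    obtain ⟨g, hg⟩ := exists_conjG π₁ π₂ e he
    exact hne ⟨g, fun σ => hg (r σ)⟩
  have hcard := card_le_of_not_equiv (d := d) (by simp) (by simp) (repG π₁) (repG π₂) hne'
  let C : Set (ρ₁.prod ρ₂).range := {g | (repG π₁).character g ≠ (repG π₂).character g}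
  have hCiff : ∀ g, g ∈ C ↔ (π₁ g).1.trace ≠ (π₂ g).1.trace := by
    intro g
    change LinearMap.trace ℂ _ (repG π₁ g) ≠ LinearMap.trace ℂ _ (repG π₂ g) ↔ _
    rw [trace_repG, trace_repG]
  have hC : ∀ g c, c ∈ C → g * c * g⁻¹ ∈ C := by
    intro g c hc
    rw [hCiff] at hc ⊢
    rw [map_mul, map_mul, map_inv, map_mul, map_mul, map_inv, trace_conj_GL, trace_conj_GL]
    exact hc
  have hdens := Cheb.chebotarev_natural hr hlevel hC
  have hset : ∀ p, p ∈ FrobIn r C ↔ p ∈ DiffPrimes ρ₁ ρ₂ := by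
    intro p
    constructor
    · rintro ⟨hp, A, hA, hI, φ, hφ, hφC⟩
      rw [hCiff, hπ₁, hπ₂] at hφC
      refine ⟨hp, A, hA, fun σ hσ => ?_, φ, hφ, hφC⟩
      have h3 := congrArg Subtype.val (hI σ hσ)
      rw [hrval] at h3
      exact ⟨congrArg Prod.fst h3, congrArg Prod.snd h3⟩
    · rintro ⟨hp, A, hA, hI, φ, hφ, hφC⟩
      refine ⟨hp, A, hA, fun σ hσ => Subtype.ext ?_, φ, hφ, ?_⟩
      · rw [hrval, (hI σ hσ).1, (hI σ hσ).2]
        rfl
      · rw [hCiff, hπ₁, hπ₂]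
        exact hφC
  refine ⟨(Nat.card C : ℝ) / Nat.card (ρ₁.prod ρ₂).range, ?_, ?_⟩
  · have hG : (0 : ℝ) < Nat.card (ρ₁.prod ρ₂).range := by exact_mod_cast Nat.card_pos
    rcases Nat.eq_zero_or_pos d with hd | hd
    · have h0 : (d : ℝ) = 0 := by exact_mod_cast hd
      rw [h0]
      simp only [ne_eq, OfNat.ofNat_ne_zero, not_false_eq_true, zero_pow, mul_zero, div_zero]
      positivity
    · have hd' : (0 : ℝ) < d := by exact_mod_cast hd
      rw [div_le_div_iff₀ (by positivity) hG, one_mul]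
      have h3 : (Nat.card (ρ₁.prod ρ₂).range : ℝ) ≤ 2 * (d : ℝ) ^ 2 * Nat.card C := by
        exact_mod_cast hcard
      linarith
  · simp only [hset] at hdens
    exact hdens

open Classical in
/-- **Strong multiplicity one**, second form: if the traces of the Frobenius elements are the same
at the primes of a set `P` and the proportion of the primes `≤ x` in `P` is at least
`1 - 1 / (2 d²) + ε` for arbitrarily large `x`, the representations are conjugate. -/
theorem conj_of_frequently {ρ₁ ρ₂ : GQ →* GL (Fin d) ℂ} (h₁ : Continuous ρ₁)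
    (h₂ : Continuous ρ₂) {P : Set ℕ} (hP : ∀ p ∈ P, p.Prime)
    (htr : ∀ p ∈ P, ∀ A : ValuationSubring Qbar, A.LiesOverPrime p → ∀ φ : GQ,
      A.IsFrobeniusAt φ p → (ρ₁ φ).1.trace = (ρ₂ φ).1.trace) {ε : ℝ} (hε : 0 < ε)
    (hfreq : ∃ᶠ x : ℕ in atTop, (1 - 1 / (2 * (d : ℝ) ^ 2) + ε) * Nat.primeCounting x ≤
      (((Finset.range (x + 1)).filter fun p => p ∈ P).card : ℝ)) :
    ∃ g : GL (Fin d) ℂ, ∀ σ, g * ρ₁ σ * g⁻¹ = ρ₂ σ := by
  by_contra hne
  obtain ⟨δ, hδ, hlim⟩ := strong_multiplicity_one h₁ h₂ hne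
  have h3 : ∀ᶠ x : ℕ in atTop, δ - ε < (((Finset.range (x + 1)).filter fun p =>
      p ∈ DiffPrimes ρ₁ ρ₂).card : ℝ) / Nat.primeCounting x :=
    hlim.eventually (lt_mem_nhds (by linarith))
  obtain ⟨x, hx, hx', hx2⟩ := (hfreq.and_eventually (h3.and (eventually_ge_atTop 2))).exists
  have hpos : (0 : ℝ) < Nat.primeCounting x := by
    have h4 : 0 < Nat.primeCounting x := by
      have h5 := Nat.monotone_primeCounting hx2
      have h6 : Nat.primeCounting 2 = 1 := by decide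
      omega
    exact_mod_cast h4
  rw [lt_div_iff₀ hpos] at hx'
  have hdisj : Disjoint ((Finset.range (x + 1)).filter fun p => p ∈ P)
      ((Finset.range (x + 1)).filter fun p => p ∈ DiffPrimes ρ₁ ρ₂) := by
    rw [Finset.disjoint_left]
    intro p hp hp'
    obtain ⟨-, A, hA, -, φ, hφ, hne'⟩ := (Finset.mem_filter.1 hp').2
    exact hne' (htr p (Finset.mem_filter.1 hp).2 A hA φ hφ)
  have hsub : ((Finset.range (x + 1)).filter fun p => p ∈ P) ∪
      ((Finset.range (x + 1)).filter fun p => p ∈ DiffPrimes ρ₁ ρ₂) ⊆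
      (Finset.range (x + 1)).filter Nat.Prime := by
    intro p hp
    rcases Finset.mem_union.1 hp with h | h
    · exact Finset.mem_filter.2 ⟨(Finset.mem_filter.1 h).1, hP p (Finset.mem_filter.1 h).2⟩
    · exact Finset.mem_filter.2 ⟨(Finset.mem_filter.1 h).1, (Finset.mem_filter.1 h).2.1⟩
  have hcard := Finset.card_le_card hsub
  rw [Finset.card_union_of_disjoint hdisj] at hcard
  have hpc : ((Finset.range (x + 1)).filter Nat.Prime).card = Nat.primeCounting x := by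
    rw [Nat.primeCounting, Nat.primeCounting', Nat.count_eq_card_filter_range]
  rw [hpc] at hcard
  have hcard' : (((Finset.range (x + 1)).filter fun p => p ∈ P).card : ℝ) +
      (((Finset.range (x + 1)).filter fun p => p ∈ DiffPrimes ρ₁ ρ₂).card : ℝ) ≤
      Nat.primeCounting x := by exact_mod_cast hcard
  nlinarith

end Main

end Fermat.Agent.Cor.Falt
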