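import Fermat.Agent.Corollaries.Falt.Main

/-!
# Faltings' criterion for continuous homomorphisms into finite dimensional `ℚ_ℓ`-algebras

Let `𝒜` be a finite dimensional algebra over `ℚ_ℓ` and `ρ : Gal(ℚ̄/ℚ) → 𝒜ˣ` continuous, unramified
outside the finite set `S`. There is a finite set `T` of Frobenius elements, depending only on `S`,
`ℓ` and the dimension of `𝒜`, such that the values of `ρ` at the elements of `T` generate the
`ℚ_ℓ`-vector space generated by all the values.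
-/

set_option autoImplicit false

namespace Fermat.Agent.Cor.Falt

open NumberField IsDedekindDomain Fermat.Agent.Frob Fermat.Agent.Classic.Disc
open Fermat.Agent.Cor.Frob Fermat.Agent.Cor.Herm
open IsLocalRing (maximalIdeal ResidueField residue)

local notation "Qbar" => AlgebraicClosure ℚ

/-- a vector with coordinates in `I` -/
theorem pi_mem_smul_top {R ι : Type*} [CommRing R] [Fintype ι] [DecidableEq ι] {I : Ideal R}
    {y : ι → R} (h : ∀ i, y i ∈ I) : y ∈ I • (⊤ : Submodule R (ι → R)) := by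
  rw [pi_eq_sum_univ' y]
  refine Submodule.sum_mem _ fun i _ => ?_
  exact Submodule.smul_mem_smul (h i) Submodule.mem_top

section

variable {ℓ : ℕ} [hℓ : Fact ℓ.Prime]

theorem exists_norm_le {X : Type*} [TopologicalSpace X] [CompactSpace X] {ι : Type*} [Finite ι]
    (f : ι → X → ℚ_[ℓ]) (hf : ∀ i, Continuous (f i)) :
    ∃ k : ℕ, ∀ i x, ‖f i x‖ ≤ (ℓ : ℝ) ^ k := by
  have h1 : ∀ i, ∃ k : ℕ, ∀ x, ‖f i x‖ ≤ (ℓ : ℝ) ^ k := by
    intro i
    obtain ⟨C, hC⟩ := isCompact_univ.exists_bound_of_continuousOn (hf i).continuousOn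
    obtain ⟨k, hk⟩ := pow_unbounded_of_one_lt C
      (show (1 : ℝ) < ℓ by exact_mod_cast hℓ.out.one_lt)
    exact ⟨k, fun x => (hC x (Set.mem_univ x)).trans hk.le⟩
  choose k hk using h1
  have : Fintype ι := Fintype.ofFinite ι
  refine ⟨Finset.univ.sup k, fun i x => (hk i x).trans ?_⟩
  exact pow_le_pow_right₀ (by exact_mod_cast hℓ.out.one_lt.le)
    (Finset.le_sup (Finset.mem_univ i))

theorem exists_padicInt {x : ℚ_[ℓ]} {k : ℕ} (h : ‖x‖ ≤ (ℓ : ℝ) ^ k) :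
    ∃ y : ℤ_[ℓ], (y : ℚ_[ℓ]) = (ℓ : ℚ_[ℓ]) ^ k * x := by
  have h1 : ‖(ℓ : ℚ_[ℓ]) ^ k * x‖ ≤ 1 := by
    rw [norm_mul, norm_pow, Padic.norm_p, inv_pow]
    have h2 : (0 : ℝ) < (ℓ : ℝ) ^ k := pow_pos (by exact_mod_cast hℓ.out.pos) k
    rw [inv_mul_le_iff₀ h2, mul_one]
    exact h
  exact ⟨⟨_, h1⟩, rfl⟩

/-- **Faltings' criterion**, values in a finite dimensional `ℚ_ℓ`-algebra. -/
theorem exists_span_padic.{v} (S S' : Finset ℕ) (ℓ : ℕ) [hℓ : Fact ℓ.Prime] (r : ℕ) :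
    ∃ T : Set GQ, T.Finite ∧ (∀ φ ∈ T, ∃ p : ℕ, p.Prime ∧ p ∉ S' ∧
        ∃ A : ValuationSubring Qbar, A.LiesOverPrime p ∧ A.IsFrobeniusAt φ p) ∧
      ∀ (B : Type v) [Ring B] [Algebra ℚ_[ℓ] B] [FiniteDimensional ℚ_[ℓ] B]
        [TopologicalSpace B] [IsTopologicalAddGroup B] [ContinuousSMul ℚ_[ℓ] B] [T2Space B]
        (ρ : GQ →* B), Module.finrank ℚ_[ℓ] B ≤ r → Continuous ρ → UnrOutside S ρ →
        Submodule.span ℚ_[ℓ] (Set.range ρ) = Submodule.span ℚ_[ℓ] (ρ '' T) := by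
  classical
  have := finite_residueField ℓ
  obtain ⟨T, hT, hfrob, h⟩ := exists_span.{0, v} S S' ℓ r
  refine ⟨T, hT, hfrob, ?_⟩
  intro B _ _ _ _ _ _ _ ρ hr hρ hS
  refine le_antisymm ?_ (Submodule.span_mono (Set.image_subset_range _ _))
  let : Algebra ℤ_[ℓ] B := Algebra.compHom B (algebraMap ℤ_[ℓ] ℚ_[ℓ])
  have htow : IsScalarTower ℤ_[ℓ] ℚ_[ℓ] B := IsScalarTower.of_algebraMap_eq fun _ => rfl
  have hsm : ∀ (a : ℤ_[ℓ]) (x : B), a • x = (a : ℚ_[ℓ]) • x := fun a x => by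
    rw [← algebraMap_smul ℚ_[ℓ] a x]
    rfl
  -- coordinates
  let N := Module.finrank ℚ_[ℓ] B
  let b : Module.Basis (Fin N) ℚ_[ℓ] B := Module.finBasis ℚ_[ℓ] B
  have hcoord : ∀ i, Continuous (b.coord i) := fun i =>
    LinearMap.continuous_of_finiteDimensional (b.coord i)
  obtain ⟨k, hk⟩ := exists_norm_le (fun (i : Fin N) (σ : GQ) => b.coord i (ρ σ))
    (fun i => (hcoord i).comp hρ)
  have hℓ0 : (ℓ : ℚ_[ℓ]) ^ k ≠ 0 := pow_ne_zero _ (by exact_mod_cast hℓ.out.ne_zero)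
  -- the lattice
  let ι : (Fin N → ℤ_[ℓ]) →ₗ[ℤ_[ℓ]] B :=
    { toFun := fun y => ∑ i, (((ℓ : ℚ_[ℓ]) ^ k)⁻¹ * (y i : ℚ_[ℓ])) • b i
      map_add' := fun y z => by
        rw [← Finset.sum_add_distrib]
        refine Finset.sum_congr rfl fun i _ => ?_
        rw [Pi.add_apply, PadicInt.coe_add, mul_add, add_smul]
      map_smul' := fun a y => by
        rw [RingHom.id_apply, hsm, Finset.smul_sum]
        refine Finset.sum_congr rfl fun i _ => ?_
        rw [Pi.smul_apply, smul_eq_mul, PadicInt.coe_mul, smul_smul]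
        congr 1
        ring }
  have hιcoord : ∀ y i, b.coord i (ι y) = ((ℓ : ℚ_[ℓ]) ^ k)⁻¹ * (y i : ℚ_[ℓ]) := by
    intro y i
    change b.repr (∑ j, (((ℓ : ℚ_[ℓ]) ^ k)⁻¹ * (y j : ℚ_[ℓ])) • b j) i = _
    rw [b.repr_sum_self]
  have hιinj : Function.Injective ι := by
    intro y z hyz
    funext i
    have h1 := hιcoord y i
    rw [hyz, hιcoord z i] at h1
    exact (Subtype.ext (mul_left_cancel₀ (inv_ne_zero hℓ0) h1)).symm
  have hιrange : ∀ x : B, (∀ i, ‖b.coord i x‖ ≤ (ℓ : ℝ) ^ k) → ∃ y, ι y = x ∧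
      ∀ i, (y i : ℚ_[ℓ]) = (ℓ : ℚ_[ℓ]) ^ k * b.coord i x := by
    intro x hx
    choose y hy using fun i => exists_padicInt (hx i)
    refine ⟨y, ?_, hy⟩
    refine b.ext_elem fun i => ?_
    change b.coord i (ι y) = b.coord i x
    rw [hιcoord, hy, inv_mul_cancel_left₀ hℓ0]
  -- the order
  let E : Subalgebra ℤ_[ℓ] B := Algebra.adjoin ℤ_[ℓ] (Set.range ρ)
  have hEspan : Subalgebra.toSubmodule E = Submodule.span ℤ_[ℓ] (Set.range ρ) := by
    have h1 : Submonoid.closure (Set.range ρ) = MonoidHom.mrange ρ := by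
      rw [← MonoidHom.coe_mrange, Submonoid.closure_eq]
    rw [Algebra.adjoin_eq_span, h1, MonoidHom.coe_mrange]
  have hEle : Subalgebra.toSubmodule E ≤ LinearMap.range ι := by
    rw [hEspan, Submodule.span_le]
    rintro _ ⟨σ, rfl⟩
    obtain ⟨y, hy, -⟩ := hιrange (ρ σ) (fun i => hk i σ)
    exact ⟨y, hy⟩
  let E' : Submodule ℤ_[ℓ] (Fin N → ℤ_[ℓ]) := (Subalgebra.toSubmodule E).comap ι
  let e₀ : E' →ₗ[ℤ_[ℓ]] E :=
    { toFun := fun y => ⟨ι y, y.2⟩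
      map_add' := fun y z => Subtype.ext (map_add ι _ _)
      map_smul' := fun a y => Subtype.ext (map_smul ι _ _) }
  have he₀ : Function.Bijective e₀ := by
    constructor
    · intro y z hyz
      exact Subtype.ext (hιinj (congrArg Subtype.val hyz))
    · rintro ⟨x, hx⟩
      obtain ⟨y, rfl⟩ := hEle hx
      exact ⟨⟨y, hx⟩, rfl⟩
  let e : E' ≃ₗ[ℤ_[ℓ]] E := LinearEquiv.ofBijective e₀ he₀
  have hfree : Module.Free ℤ_[ℓ] E := Module.Free.of_equiv e
  have hfin : Module.Finite ℤ_[ℓ] E := Module.Finite.equiv e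
  have hrank : Module.finrank ℤ_[ℓ] E ≤ r := by
    rw [← e.finrank_eq]
    refine (Submodule.finrank_le E').trans ?_
    rw [Module.finrank_fin_fun]
    exact hr
  -- the homomorphism
  let ρE : GQ →* E :=
    { toFun := fun σ => ⟨ρ σ, Algebra.subset_adjoin ⟨σ, rfl⟩⟩
      map_one' := Subtype.ext (map_one ρ)
      map_mul' := fun σ τ => Subtype.ext (map_mul ρ σ τ) }
  have hcont : AdicCont ℤ_[ℓ] ρE := by
    intro m
    obtain ⟨k₀, hk₀⟩ := Ideal.exists_pow_inf_eq_pow_smul (maximalIdeal ℤ_[ℓ]) E'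
    have h1 : ∀ i, {σ : GQ | ‖b.coord i (ρ σ - 1)‖ ≤ (ℓ : ℝ) ^ (-(m + k₀ : ℕ) : ℤ)} ∈
        nhds (1 : GQ) := by
      intro i
      have hij : Continuous fun σ : GQ => b.coord i (ρ σ - 1) :=
        (hcoord i).comp (hρ.sub continuous_const)
      have h2 : Metric.closedBall (0 : ℚ_[ℓ]) ((ℓ : ℝ) ^ (-(m + k₀ : ℕ) : ℤ)) ∈
          nhds (b.coord i (ρ 1 - 1)) := by
        rw [map_one, sub_self, map_zero]
        refine Metric.closedBall_mem_nhds _ (zpow_pos ?_ _)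
        exact_mod_cast hℓ.out.pos
      refine Filter.mem_of_superset (hij.continuousAt.preimage_mem_nhds h2) ?_
      intro σ hσ
      rwa [Set.mem_preimage, mem_closedBall_zero_iff] at hσ
    obtain ⟨L, hL, h4⟩ := (krullTopology_mem_nhds_one_iff ℚ Qbar _).1
      (Filter.iInter_mem.2 h1)
    refine ⟨L, hL, fun σ hσ => ?_⟩
    have h5 : ∀ i, ‖b.coord i (ρ σ - 1)‖ ≤ (ℓ : ℝ) ^ (-(m + k₀ : ℕ) : ℤ) := by
      have h6 := h4 ((IntermediateField.mem_fixingSubgroup_iff _ _).2 hσ)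
      rw [Set.mem_iInter] at h6
      exact h6
    have hone : (1 : ℝ) < ℓ := by exact_mod_cast hℓ.out.one_lt
    obtain ⟨y, hy, hyi⟩ := hιrange (ρ σ - 1) (fun i => (h5 i).trans (by
      rw [← zpow_natCast]
      exact zpow_le_zpow_right₀ hone.le (by omega)))
    have hyE : y ∈ E' := by
      change ι y ∈ Subalgebra.toSubmodule E
      rw [hy]
      exact sub_mem (Algebra.subset_adjoin ⟨σ, rfl⟩) (one_mem E)
    have hytop : y ∈ (maximalIdeal ℤ_[ℓ] ^ (m + k₀)) • (⊤ : Submodule ℤ_[ℓ] (Fin N → ℤ_[ℓ])) := by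
      refine pi_mem_smul_top fun i => ?_
      rw [PadicInt.maximalIdeal_eq_span_p, Ideal.span_singleton_pow,
        ← PadicInt.norm_le_pow_iff_mem_span_pow, PadicInt.norm_def, hyi, norm_mul]
      refine le_trans ?_ (h5 i)
      refine mul_le_of_le_one_left (norm_nonneg _) ?_
      rw [norm_pow]
      exact pow_le_one₀ (norm_nonneg _) (by
        rw [Padic.norm_p]
        exact inv_le_one_of_one_le₀ hone.le)
    have h7 : y ∈ (maximalIdeal ℤ_[ℓ] ^ m) • E' := by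
      have h8 : y ∈ (maximalIdeal ℤ_[ℓ] ^ (m + k₀)) • (⊤ : Submodule ℤ_[ℓ] (Fin N → ℤ_[ℓ])) ⊓ E' :=
        ⟨hytop, hyE⟩
      rw [hk₀ (m + k₀) (Nat.le_add_left _ _), Nat.add_sub_cancel] at h8
      exact Submodule.smul_mono le_rfl inf_le_right h8
    have h9 : (⟨y, hyE⟩ : E') ∈ (maximalIdeal ℤ_[ℓ] ^ m) • (⊤ : Submodule ℤ_[ℓ] E') := by
      rw [Submodule.mem_smul_top_iff]
      exact h7
    have h10 := Submodule.mem_map_of_mem (f := e.toLinearMap) h9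
    rw [Submodule.map_smul''] at h10
    have h11 := Submodule.smul_mono (le_refl (maximalIdeal ℤ_[ℓ] ^ m))
      (le_top : _ ≤ (⊤ : Submodule ℤ_[ℓ] E)) h10
    have h12 : e.toLinearMap ⟨y, hyE⟩ = ρE σ - 1 := Subtype.ext hy
    rwa [h12] at h11
  have hunr : UnrOutside S ρE := fun p hp hpS A hA σ hσ => Subtype.ext (hS p hp hpS A hA σ hσ)
  have hspan := h ℤ_[ℓ] E ρE (card_residueField ℓ).le hrank hcont hunr
  rw [Submodule.span_le]
  rintro _ ⟨σ, rfl⟩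
  have h1 : ρE σ ∈ Submodule.span ℤ_[ℓ] (ρE '' T) := hspan ▸ Submodule.subset_span ⟨σ, rfl⟩
  have h2 := Submodule.mem_map_of_mem (f := E.val.toLinearMap) h1
  rw [Submodule.map_span, ← Set.image_comp] at h2
  exact Submodule.span_le_restrictScalars ℤ_[ℓ] ℚ_[ℓ] (ρ '' T) h2

end

end Fermat.Agent.Cor.Falt
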