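import Fermat.Agent.Corollaries.Herm.Main
import Fermat.Agent.LTF.DeepCheb

/-!
# Frobenius elements which meet all quotients of bounded order

For a finite set `S` of prime numbers and a bound `Q` there is a finite set `T` of Frobenius
elements (at primes outside a given finite set) which meets every coset of every open normal
subgroup of index at most `Q` of `Gal(ℚ̄/ℚ)` which contains the inertia groups outside `S`.
-/

set_option autoImplicit false

namespace Fermat.Agent.Cor.Falt

open NumberField IsDedekindDomain Fermat.Agent.Frob Fermat.Agent.Classic.Disc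
open Fermat.Agent.Cor.Frob Fermat.Agent.Cor.Herm

local notation "Qbar" => AlgebraicClosure ℚ

/-- the fixed field of an open normal subgroup which contains the inertia groups outside `S` -/
theorem fixedField_mem (S : Finset ℕ) (Q : ℕ) (N : Subgroup GQ) [hN : N.Normal]
    (hL : ∃ L : IntermediateField ℚ Qbar, FiniteDimensional ℚ L ∧ L.fixingSubgroup ≤ N)
    (hQ : N.index ≤ Q)
    (hI : ∀ p : ℕ, p.Prime → p ∉ S → ∀ A : ValuationSubring Qbar, A.LiesOverPrime p →
      A.inertiaSubgroupIn ℚ ≤ N) :
    (IntermediateField.fixedField N).fixingSubgroup = N ∧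
    ∃ _ : NumberField (IntermediateField.fixedField N),
      IsGalois ℚ (IntermediateField.fixedField N) ∧
      Module.finrank ℚ (IntermediateField.fixedField N) ≤ Q ∧
      ∀ p : ℕ, p.Prime → p ∣ (discr (IntermediateField.fixedField N)).natAbs → p ∈ S := by
  obtain ⟨L₀, hL₀, hle⟩ := hL
  have ho : IsOpen (N : Set GQ) :=
    Subgroup.isOpen_mono hle (IntermediateField.fixingSubgroup_isOpen L₀)
  let H : ClosedSubgroup GQ := ⟨N, Subgroup.isClosed_of_isOpen _ ho⟩
  have hfix : (IntermediateField.fixedField N).fixingSubgroup = N :=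
    InfiniteGalois.fixingSubgroup_fixedField H
  have hfd : FiniteDimensional ℚ (IntermediateField.fixedField N) := by
    have h1 : IntermediateField.fixedField N ≤ L₀ := by
      have h2 := IntermediateField.fixedField_antitone hle
      rwa [InfiniteGalois.fixedField_fixingSubgroup] at h2
    exact FiniteDimensional.of_injective (IntermediateField.inclusion h1).toLinearMap
      (IntermediateField.inclusion_injective h1)
  set L : IntermediateField ℚ Qbar := IntermediateField.fixedField N with hL
  have hNF : NumberField L := ⟨⟩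
  refine ⟨hfix, hNF, ?_, ?_, fun p hp hpD => ?_⟩
  · exact (InfiniteGalois.normal_iff_isGalois L).1 (by rw [hfix]; exact hN)
  · rw [IntermediateField.finrank_eq_fixingSubgroup_index, hfix]
    exact hQ
  · by_contra hpS
    obtain ⟨A, hA, -⟩ := exists_frobenius p hp
    refine absurd hpD ?_
    rw [not_dvd_discr_iff hp hA]
    intro σ hσ
    ext i x
    obtain ⟨⟨-, τ, rfl⟩, hτ⟩ := MulAction.exists_smul_eq (GalK L) (L.val : L →+* Qbar) i
    have h1 : ∀ y : L, i y = τ (y : Qbar) := fun y => (RingHom.congr_fun hτ y).symm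
    have h2 : τ⁻¹ * σ * τ ∈ L.fixingSubgroup := by
      rw [hfix]
      have := hN.conj_mem σ (hI p hp hpS A hA hσ) τ⁻¹
      rwa [inv_inv] at this
    rw [IntermediateField.mem_fixingSubgroup_iff] at h2
    have h3 := h2 x x.2
    change σ (i x) = i x
    rw [h1]
    have h4 : τ ((τ⁻¹ * σ * τ) (x : Qbar)) = σ (τ (x : Qbar)) := by
      change τ (τ.symm (σ (τ (x : Qbar)))) = _
      rw [AlgEquiv.apply_symm_apply]
    rw [← h4, h3]

/-- **A finite set of Frobenius elements which meets all cosets of all open normal subgroups of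
bounded index with ramification in `S`.** -/
theorem exists_frob (S S' : Finset ℕ) (Q : ℕ) :
    ∃ T : Set GQ, T.Finite ∧ (∀ φ ∈ T, ∃ p : ℕ, p.Prime ∧ p ∉ S' ∧
        ∃ A : ValuationSubring Qbar, A.LiesOverPrime p ∧ A.IsFrobeniusAt φ p) ∧
      ∀ N : Subgroup GQ, N.Normal →
        (∃ L : IntermediateField ℚ Qbar, FiniteDimensional ℚ L ∧ L.fixingSubgroup ≤ N) →
        N.index ≤ Q →
        (∀ p : ℕ, p.Prime → p ∉ S → ∀ A : ValuationSubring Qbar, A.LiesOverPrime p →
          A.inertiaSubgroupIn ℚ ≤ N) →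
        ∀ σ : GQ, ∃ φ ∈ T, σ⁻¹ * φ ∈ N := by
  classical
  set 𝓛 := {L : IntermediateField ℚ Qbar | ∃ _ : NumberField L, IsGalois ℚ L ∧
    Module.finrank ℚ L ≤ Q ∧ ∀ p : ℕ, p.Prime → p ∣ (discr L).natAbs → p ∈ S} with h𝓛
  have hfin : 𝓛.Finite := finite_galois S Q
  have : Finite 𝓛 := hfin.to_subtype
  have hfd : ∀ L : 𝓛, FiniteDimensional ℚ L.1 := fun L => by
    obtain ⟨h, -⟩ := L.2
    exact h.to_finiteDimensional
  let K : IntermediateField ℚ Qbar := ⨆ L : 𝓛, L.1
  have hK : FiniteDimensional ℚ K := IntermediateField.finiteDimensional_iSup_of_finite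
  have hfq : Finite (GQ ⧸ K.fixingSubgroup) := by
    have : K.fixingSubgroup.FiniteIndex := by
      refine ⟨?_⟩
      rw [← IntermediateField.finrank_eq_fixingSubgroup_index]
      exact Module.finrank_pos.ne'
    exact Subgroup.finite_quotient_of_finiteIndex
  choose p hp hpS A hA hI φ hφ hφK using fun c : GQ ⧸ K.fixingSubgroup =>
    Fermat.Agent.LTF.Deep.exists_frob_eq_on K c.out S'
  refine ⟨Set.range φ, Set.finite_range φ, ?_, ?_⟩
  · rintro _ ⟨c, rfl⟩
    exact ⟨p c, hp c, hpS c, A c, hA c, hφ c⟩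
  · intro N hN hL hQ hIN σ
    obtain ⟨hfix, hmem⟩ := fixedField_mem S Q N hL hQ hIN
    refine ⟨φ (QuotientGroup.mk σ), ⟨_, rfl⟩, ?_⟩
    rw [← hfix, IntermediateField.mem_fixingSubgroup_iff]
    intro x hx
    have hxK : x ∈ K := le_iSup (fun L : 𝓛 => L.1) ⟨IntermediateField.fixedField N, hmem⟩ hx
    obtain ⟨h, hh⟩ := QuotientGroup.mk_out_eq_mul K.fixingSubgroup σ
    have h1 := hφK (QuotientGroup.mk σ) x hxK
    rw [hh] at h1
    have h2 : (h : GQ) x = x := (IntermediateField.mem_fixingSubgroup_iff _ _).1 h.2 x hxK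
    change σ.symm (φ _ x) = x
    rw [h1]
    change σ.symm (σ ((h : GQ) x)) = x
    rw [h2, AlgEquiv.symm_apply_apply]

end Fermat.Agent.Cor.Falt
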