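import Fermat.Agent.Corollaries.Falt.Arith
import Fermat.Agent.Corollaries.ZetaK.GassmannZeta

/-!
# Polynomials with the same number of roots modulo many primes

Let `f` and `g` be monic irreducible polynomials of degree `n` with integral coefficients. If the
congruences `f(x) ≡ 0` and `g(x) ≡ 0` modulo `p` have the same number of solutions for a set of
primes `p` of upper density greater than `1 - 2 / n²`, the number fields `ℚ[X]/(f)` and `ℚ[X]/(g)`
have the same Dedekind zeta function; if `n ≤ 5` they are isomorphic.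
-/

set_option autoImplicit false

open Filter Topology Polynomial NumberField

namespace Fermat.Agent.Cor.Falt

open Fermat.Agent.Frob Fermat.Agent.FrobDensity Fermat.Agent.Classic.Disc Fermat.Agent.Cor.Frob

local notation "Qbar" => AlgebraicClosure ℚ

/-- the number of solutions of `f(x) ≡ 0` modulo `p` -/
noncomputable def numRoots (f : ℤ[X]) (p : ℕ) : ℕ :=
  Nat.card {x : ZMod p // (f.map (Int.castRingHom (ZMod p))).eval x = 0}

open IntermediateField

section Emb

variable {K : Type*} [Field K] [NumberField K]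

/-- different embeddings have different values at a generator -/
theorem emb_injective {α : K} (hα : ℚ⟮α⟯ = ⊤) :
    Function.Injective fun τ : K →+* Qbar => τ α := by
  have h := (Field.primitive_element_iff_algHom_eq_of_eval' ℚ Qbar
    (fun x => IsAlgClosed.splits _) α).1 hα
  intro τ τ' hτ
  have h1 : τ.toRatAlgHom = τ'.toRatAlgHom := h hτ
  exact RingHom.ext fun x => DFunLike.congr_fun h1 x

/-- the polynomial of a generator is the product over the embeddings -/
theorem map_eq_prod_emb {f : ℤ[X]} (hf : f.Monic) {α : K} (h0 : aeval α f = 0)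
    (hdeg : f.natDegree = Module.finrank ℚ K) (hα : ℚ⟮α⟯ = ⊤) :
    f.map (Int.castRingHom Qbar) = ∏ τ : K →+* Qbar, (X - C (τ α)) := by
  classical
  set F := f.map (Int.castRingHom Qbar) with hF
  have hFm : F.Monic := hf.map _
  have hroot : ∀ τ : K →+* Qbar, F.IsRoot (τ α) := by
    intro τ
    rw [IsRoot.def, hF, eval_map]
    have h1 := congrArg τ h0
    rw [map_zero, aeval_def, hom_eval₂] at h1
    rw [← h1]
    congr 1
    exact RingHom.ext_int _ _
  set S := Finset.univ.image (fun τ : K →+* Qbar => τ α) with hS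
  have hle : S.val ≤ F.roots := by
    rw [Multiset.le_iff_subset S.nodup]
    intro x hx
    rw [Finset.mem_val, hS, Finset.mem_image] at hx
    obtain ⟨τ, -, rfl⟩ := hx
    exact (mem_roots hFm.ne_zero).2 (hroot τ)
  have hcard : S.card = F.natDegree := by
    rw [hS, Finset.card_image_of_injective _ (emb_injective hα), Finset.card_univ,
      ← Nat.card_eq_fintype_card, natCard_emb, hF, hf.natDegree_map, hdeg]
  have heq : S.val = F.roots := Multiset.eq_of_le_of_card_le hle (by
    change F.roots.card ≤ S.card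
    rw [hcard]
    exact card_roots' F)
  rw [(IsAlgClosed.splits F).eq_prod_roots_of_monic hFm, ← heq]
  change ∏ x ∈ S, (X - C x) = _
  rw [hS, Finset.prod_image fun τ _ τ' _ h => emb_injective hα h]

/-- For all but finitely many primes, distinct embeddings have distinct reductions at a
generator. -/
theorem exists_disc_gen {α : 𝓞 K} (hα : ℚ⟮(α : K)⟯ = ⊤) :
    ∃ D : ℤ, D ≠ 0 ∧ ∀ (ℓ : ℕ), ℓ.Prime → ¬ (ℓ : ℤ) ∣ D →
      ∀ A : ValuationSubring Qbar, A.LiesOverPrime ℓ →
        ∀ τ τ' : K →+* Qbar, redτ A τ α = redτ A τ' α → τ = τ' := by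
  classical
  set δ : Zbar := ∏ q : {q : (K →+* Qbar) × (K →+* Qbar) // q.1 ≠ q.2},
    (toZbar q.1.1 α - toZbar q.1.2 α) with hδ
  have hδ0 : δ ≠ 0 := Finset.prod_ne_zero_iff.mpr fun q _ => sub_ne_zero.mpr fun h =>
    q.2 (emb_injective hα (congrArg (fun y : Zbar => (y : Qbar)) h))
  have halg : IsAlgebraic ℤ δ := (Algebra.IsIntegral.isIntegral (R := ℤ) δ).isAlgebraic
  obtain ⟨D, hD0, hD⟩ := halg.exists_nonzero_dvd (mem_nonZeroDivisors_of_ne_zero hδ0)
  refine ⟨D, hD0, ?_⟩
  intro ℓ hℓ hℓD A hA τ τ' h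
  by_contra hne
  apply hℓD
  have hch := charP_residue hℓ hA
  rw [← CharP.intCast_eq_zero_iff (IsLocalRing.ResidueField A) ℓ D]
  have h1 : redA A δ = 0 := by
    rw [hδ, map_prod]
    refine Finset.prod_eq_zero (Finset.mem_univ ⟨(τ, τ'), hne⟩) ?_
    rw [map_sub, sub_eq_zero]
    exact h
  have h2 : redA A (algebraMap ℤ Zbar D) = 0 := by
    obtain ⟨c, hc⟩ := hD
    rw [hc, map_mul, h1, zero_mul]
  simpa using h2

/-- **Places of degree one and solutions of congruences**: for almost all `p` the number of places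
of degree one of `K = ℚ(α)` above `p` is the number of roots of the polynomial of `α` modulo `p`. -/
theorem degOne_eq_numRoots {f : ℤ[X]} (hf : f.Monic) {α : 𝓞 K} (h0 : aeval α f = 0)
    (hdeg : f.natDegree = Module.finrank ℚ K) (hα : ℚ⟮(α : K)⟯ = ⊤) :
    ∃ D : ℕ, D ≠ 0 ∧ ∀ p : ℕ, p.Prime → ¬ p ∣ D → degOne K p = numRoots f p := by
  classical
  obtain ⟨D₁, hD₁, hfix⟩ := degOne_eq_fixCard (K := K)
  obtain ⟨D₂, hD₂, hinj⟩ := exists_disc_gen hα
  refine ⟨D₁ * D₂.natAbs, mul_ne_zero hD₁ (Int.natAbs_ne_zero.2 hD₂), fun p hp hpD => ?_⟩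
  obtain ⟨A, hA, φ, hφ⟩ := exists_frobenius p hp
  have hpD₂ : ¬ (p : ℤ) ∣ D₂ := fun h => hpD (Dvd.dvd.mul_left (Int.natCast_dvd.1 h) _)
  have hinj' := hinj p hp hpD₂ A hA
  rw [hfix p hp (fun h => hpD (h.mul_right _)) A hA φ hφ]
  have hch := charP_residue hp hA
  have : Fact p.Prime := ⟨hp⟩
  -- the values of the fixed embeddings
  have hval : ∀ j : {j : K →+* Qbar // embPerm K φ j = j}, ∃ n : ℤ, redτ A j.1 α = n := by
    rintro ⟨j, hj⟩
    refine exists_int_of_pow hp hA ?_
    rw [← redτ_frob hφ j α]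
    exact congrArg (fun τ : K →+* Qbar => redτ A τ α) hj
  choose n hn using hval
  have hroot : ∀ j, (f.map (Int.castRingHom (ZMod p))).eval ((n j : ℤ) : ZMod p) = 0 := by
    intro j
    have h1 : ((f.eval (n j) : ℤ) : IsLocalRing.ResidueField A) = 0 := by
      have h2 := congrArg (redτ A j.1) h0
      have h4 : (redτ A j.1).comp (algebraMap ℤ (𝓞 K)) =
        Int.castRingHom (IsLocalRing.ResidueField A) := RingHom.ext_int _ _
      rw [map_zero, aeval_def, hom_eval₂, hn, h4] at h2
      exact (eval₂_at_apply (Int.castRingHom (IsLocalRing.ResidueField A)) (n j)).symm.trans h2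
    rw [CharP.intCast_eq_zero_iff (IsLocalRing.ResidueField A) p,
      ← ZMod.intCast_zmod_eq_zero_iff_dvd] at h1
    rw [eval_intCast_map, Int.coe_castRingHom]
    exact h1
  refine Nat.card_eq_of_bijective (fun j => (⟨((n j : ℤ) : ZMod p), hroot j⟩ :
    {x : ZMod p // (f.map (Int.castRingHom (ZMod p))).eval x = 0})) ⟨fun j j' h => ?_, fun x => ?_⟩
  · have h1 : ((n j : ℤ) : ZMod p) = ((n j' : ℤ) : ZMod p) := congrArg Subtype.val h
    refine Subtype.ext (hinj' _ _ ?_)
    rw [hn, hn]
    have h2 := congrArg (ZMod.castHom (dvd_refl p) (IsLocalRing.ResidueField A)) h1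
    rwa [map_intCast, map_intCast] at h2
  · obtain ⟨x, hx⟩ := x
    obtain ⟨m, rfl⟩ := ZMod.intCast_surjective x
    have hm : ((f.eval m : ℤ) : IsLocalRing.ResidueField A) = 0 := by
      rw [CharP.intCast_eq_zero_iff (IsLocalRing.ResidueField A) p,
        ← ZMod.intCast_zmod_eq_zero_iff_dvd]
      rw [eval_intCast_map, Int.coe_castRingHom] at hx
      exact hx
    have hprod : ((f.eval m : ℤ) : Zbar) = ∏ τ : K →+* Qbar, ((m : Zbar) - toZbar τ α) := by
      refine Subtype.ext ?_
      have h1 := congrArg (eval (m : Qbar)) (map_eq_prod_emb hf (α := (α : K)) ?_ hdeg hα)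
      · rw [eval_intCast_map, eval_prod] at h1
        simp only [eval_sub, eval_X, eval_C] at h1
        push_cast
        simpa using h1
      · exact (aeval_algebraMap_apply K α f).trans (by rw [h0, map_zero])
    have h2 := congrArg (redA A) hprod
    rw [map_intCast, hm, map_prod] at h2
    obtain ⟨τ, -, hτ⟩ := Finset.prod_eq_zero_iff.1 h2.symm
    rw [map_sub, map_intCast, sub_eq_zero] at hτ
    have hτ' : redτ A τ α = m := hτ.symm
    have hfixτ : embPerm K φ τ = τ := by
      refine hinj' _ _ ?_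
      have h3 : redτ A ((gh φ).comp τ) α = redτ A τ α ^ p := redτ_frob hφ τ α
      change redτ A ((gh φ).comp τ) α = _
      rw [h3, hτ']
      have h4 : ((m : ℤ) : ZMod p) ^ p = m := ZMod.pow_card _
      have h5 := congrArg (ZMod.castHom (dvd_refl p) (IsLocalRing.ResidueField A)) h4
      rwa [map_pow, map_intCast] at h5
    refine ⟨⟨τ, hfixτ⟩, Subtype.ext ?_⟩
    change ((n ⟨τ, hfixτ⟩ : ℤ) : ZMod p) = m
    have h6 : ((n ⟨τ, hfixτ⟩ : ℤ) : IsLocalRing.ResidueField A) = m := by
      rw [← hn ⟨τ, hfixτ⟩, hτ']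
    have h7 : (ZMod.castHom (dvd_refl p) (IsLocalRing.ResidueField A)) (n ⟨τ, hfixτ⟩ : ℤ) =
        (ZMod.castHom (dvd_refl p) (IsLocalRing.ResidueField A)) (m : ℤ) := by
      rw [map_intCast, map_intCast, h6]
    exact RingHom.injective _ h7

theorem false_of_frequently {a b : ℕ → ℕ} {c ε δ : ℝ} (hε : 0 < ε) (hδ : c ≤ δ)
    (hlim : Tendsto (fun x : ℕ => (((Finset.range (x + 1)).filter fun p =>
      p.Prime ∧ a p ≠ b p).card : ℝ) / Nat.primeCounting x) atTop (𝓝 δ))
    (hfreq : ∃ᶠ x : ℕ in atTop, (1 - c + ε) * Nat.primeCounting x ≤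
      (((Finset.range (x + 1)).filter fun p => p.Prime ∧ a p = b p).card : ℝ)) : False := by
  have h3 := hlim.eventually (lt_mem_nhds (show δ - ε < δ by linarith))
  obtain ⟨x, hx, hx', hx2⟩ := (hfreq.and_eventually (h3.and (eventually_ge_atTop 2))).exists
  have hpos : (0 : ℝ) < Nat.primeCounting x := by
    have h4 : 0 < Nat.primeCounting x := by
      have h5 := Nat.monotone_primeCounting hx2
      have h6 : Nat.primeCounting 2 = 1 := by decide
      omega
    exact_mod_cast h4
  rw [lt_div_iff₀ hpos] at hx'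
  have hpc : ((Finset.range (x + 1)).filter Nat.Prime).card = Nat.primeCounting x := by
    rw [Nat.primeCounting, Nat.primeCounting', Nat.count_eq_card_filter_range]
  have hsum := Finset.card_filter_add_card_filter_not
    (s := (Finset.range (x + 1)).filter Nat.Prime) (fun p => a p = b p)
  rw [Finset.filter_filter, Finset.filter_filter, hpc] at hsum
  have hsum' : (((Finset.range (x + 1)).filter fun p => p.Prime ∧ a p = b p).card : ℝ)
      + (((Finset.range (x + 1)).filter fun p => p.Prime ∧ a p ≠ b p).card : ℝ) =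
      Nat.primeCounting x := by exact_mod_cast hsum
  nlinarith

/-- **The primes which distinguish two polynomials**: let `f`, `g` be the polynomials of generators
`α`, `β` of the number fields `K`, `L` of degree `n` with different Dedekind zeta functions. The
primes `p` modulo which `f` and `g` have different numbers of roots have a natural density, and it
is at least `2 / n²`. -/
theorem exists_density_numRoots {L : Type*} [Field L] [NumberField L] {f g : ℤ[X]}
    (hf : f.Monic) (hg : g.Monic) {α : 𝓞 K} {β : 𝓞 L} (hα : aeval α f = 0) (hβ : aeval β g = 0)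
    (hfK : f.natDegree = Module.finrank ℚ K) (hgL : g.natDegree = Module.finrank ℚ L)
    (hα' : ℚ⟮(α : K)⟯ = ⊤) (hβ' : ℚ⟮(β : L)⟯ = ⊤) (hdeg : f.natDegree = g.natDegree)
    (hne : dedekindZeta K ≠ dedekindZeta L) :
    ∃ δ : ℝ, 2 / (f.natDegree : ℝ) ^ 2 ≤ δ ∧
      Tendsto (fun x : ℕ => (((Finset.range (x + 1)).filter fun p =>
        p.Prime ∧ numRoots f p ≠ numRoots g p).card : ℝ) / Nat.primeCounting x) atTop (𝓝 δ) := by
  have hn : Module.finrank ℚ K = Module.finrank ℚ L := by rw [← hfK, ← hgL, hdeg]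
  obtain ⟨δ, hδ, hdens⟩ := exists_hasDensity_degOne hn hne
  obtain ⟨D, hD, hfD⟩ := degOne_eq_numRoots hf hα hfK hα'
  obtain ⟨D', hD', hgD⟩ := degOne_eq_numRoots hg hβ hgL hβ'
  have h1 : HasDensity (fun p => numRoots f p ≠ numRoots g p) δ :=
    hdens.congr (mul_ne_zero hD hD') fun p hp hpD => by
      rw [hfD p hp fun h => hpD (h.mul_right _), hgD p hp fun h => hpD (h.mul_left _)]
  rw [← hfK] at hδ
  refine ⟨δ, hδ, ?_⟩
  convert tendsto_div_primeCounting h1

/-- **Polynomials with the same number of roots modulo many primes**, zeta functions: if the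
proportion of the primes `p ≤ x` modulo which `f` and `g` have the same number of roots is at least
`1 - 2 / n² + ε` for arbitrarily large `x`, then `K = ℚ(α)` and `L = ℚ(β)` have the same Dedekind
zeta function. -/
theorem dedekindZeta_eq_of_numRoots {L : Type*} [Field L] [NumberField L] {f g : ℤ[X]}
    (hf : f.Monic) (hg : g.Monic) {α : 𝓞 K} {β : 𝓞 L} (hα : aeval α f = 0) (hβ : aeval β g = 0)
    (hfK : f.natDegree = Module.finrank ℚ K) (hgL : g.natDegree = Module.finrank ℚ L)
    (hα' : ℚ⟮(α : K)⟯ = ⊤) (hβ' : ℚ⟮(β : L)⟯ = ⊤) (hdeg : f.natDegree = g.natDegree) {ε : ℝ}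
    (hε : 0 < ε) (hfreq : ∃ᶠ x : ℕ in atTop,
      (1 - 2 / (f.natDegree : ℝ) ^ 2 + ε) * Nat.primeCounting x ≤
      (((Finset.range (x + 1)).filter fun p => p.Prime ∧ numRoots f p = numRoots g p).card : ℝ)) :
    dedekindZeta K = dedekindZeta L := by
  by_contra hne
  obtain ⟨δ, hδ, hlim⟩ := exists_density_numRoots hf hg hα hβ hfK hgL hα' hβ' hdeg hne
  exact false_of_frequently hε hδ hlim hfreq

end Emb

/-! ### In terms of `ℚ[X]/(f)` -/

section Adj

/-- `ℚ[X]/(f)` -/
abbrev Adj (f : ℤ[X]) : Type := AdjoinRoot (f.map (Int.castRingHom ℚ))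

variable {f g : ℤ[X]}

theorem irreducible_map (hf : f.Monic) (hi : Irreducible f) :
    Irreducible (f.map (Int.castRingHom ℚ)) :=
  (hf.irreducible_iff_irreducible_map_fraction_map (K := ℚ)).1 hi

theorem exists_gen (hf : f.Monic) [hi : Fact (Irreducible (f.map (Int.castRingHom ℚ)))] :
    f.natDegree = Module.finrank ℚ (Adj f) ∧
      ∃ α : 𝓞 (Adj f), aeval α f = 0 ∧ ℚ⟮(α : Adj f)⟯ = ⊤ := by
  have hFm : (f.map (Int.castRingHom ℚ)).Monic := hf.map _
  have hroot : aeval (AdjoinRoot.root (f.map (Int.castRingHom ℚ))) f = 0 := by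
    have h1 := AdjoinRoot.eval₂_root (f.map (Int.castRingHom ℚ))
    rw [eval₂_map] at h1
    rw [aeval_def, ← h1]
    congr 1
  have hfin : f.natDegree = Module.finrank ℚ (Adj f) := by
    rw [(AdjoinRoot.powerBasis hFm.ne_zero).finrank, AdjoinRoot.powerBasis_dim,
      hf.natDegree_map]
  have hint : IsIntegral ℤ (AdjoinRoot.root (f.map (Int.castRingHom ℚ))) :=
    ⟨f, hf, by rw [← aeval_def]; exact hroot⟩
  refine ⟨hfin, ⟨AdjoinRoot.root _, hint⟩, ?_, ?_⟩
  · apply RingOfIntegers.coe_injective
    rw [map_zero]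
    exact (aeval_algebraMap_apply (Adj f) (⟨AdjoinRoot.root _, hint⟩ : 𝓞 (Adj f)) f).symm.trans
      hroot
  · rw [Field.primitive_element_iff_minpoly_natDegree_eq, ← hfin]
    have h2 : minpoly ℚ (AdjoinRoot.root (f.map (Int.castRingHom ℚ))) =
        f.map (Int.castRingHom ℚ) := by
      refine (minpoly.eq_of_irreducible_of_monic hi.out ?_ hFm).symm
      rw [aeval_def]
      exact AdjoinRoot.eval₂_root _
    exact (congrArg natDegree h2).trans (hf.natDegree_map _)

/-- **Polynomials with the same number of roots modulo many primes.** Let `f` and `g` be monic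
irreducible polynomials of degree `n ≤ 5` with integral coefficients. If the proportion of the
primes `p ≤ x` such that the congruences `f(x) ≡ 0` and `g(x) ≡ 0` modulo `p` have the same number
of solutions is at least `1 - 2 / n² + ε` for arbitrarily large `x`, the fields `ℚ[X]/(f)` and
`ℚ[X]/(g)` are isomorphic. -/
theorem nonempty_equiv_of_numRoots (hf : f.Monic) (hg : g.Monic) (hfi : Irreducible f)
    (hgi : Irreducible g) (hdeg : f.natDegree = g.natDegree) (h5 : f.natDegree ≤ 5) {ε : ℝ}
    (hε : 0 < ε) (hfreq : ∃ᶠ x : ℕ in atTop,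
      (1 - 2 / (f.natDegree : ℝ) ^ 2 + ε) * Nat.primeCounting x ≤
      (((Finset.range (x + 1)).filter fun p => p.Prime ∧ numRoots f p = numRoots g p).card : ℝ)) :
    Nonempty (Adj f ≃+* Adj g) := by
  have hf' := irreducible_map hf hfi
  have hg' := irreducible_map hg hgi
  have : Fact (Irreducible (f.map (Int.castRingHom ℚ))) := ⟨hf'⟩
  have : Fact (Irreducible (g.map (Int.castRingHom ℚ))) := ⟨hg'⟩
  obtain ⟨hfK, α, hα, hα'⟩ := exists_gen hf
  obtain ⟨hgL, β, hβ, hβ'⟩ := exists_gen hg
  exact AE.nonempty_ringEquiv_of_finrank_le (hfK ▸ h5)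
    (dedekindZeta_eq_of_numRoots hf hg hα hβ hfK hgL hα' hβ' hdeg hε hfreq)

/-- isomorphic fields are arithmetically equivalent -/
theorem arithEquiv_of_ringEquiv {K L : Type*} [Field K] [Field L] (e : K ≃+* L) :
    ArithEquiv K L := by
  intro σ
  refine Nat.card_congr (Equiv.subtypeEquiv
    ⟨fun j => j.comp (e.symm : L →+* K), fun j => j.comp (e : K →+* L), fun j => ?_, fun j => ?_⟩
    fun j => ?_)
  · ext x
    simp
  · ext x
    simp
  · constructor
    · intro h
      ext x
      exact RingHom.congr_fun h (e.symm x)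
    · intro h
      ext x
      have h1 := RingHom.congr_fun h (e x)
      simpa using h1

/-- **Gassmann and Perlis for polynomials**: `ℚ[X]/(f)` and `ℚ[X]/(g)` have the same Dedekind zeta
function if and only if `f` and `g` have the same number of roots modulo almost all primes. -/
theorem dedekindZeta_eq_iff_numRoots (hf : f.Monic) (hg : g.Monic)
    [Fact (Irreducible (f.map (Int.castRingHom ℚ)))]
    [Fact (Irreducible (g.map (Int.castRingHom ℚ)))] :
    dedekindZeta (Adj f) = dedekindZeta (Adj g) ↔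
      {p : ℕ | p.Prime ∧ numRoots f p ≠ numRoots g p}.Finite := by
  obtain ⟨hfK, α, hα, hα'⟩ := exists_gen hf
  obtain ⟨hgL, β, hβ, hβ'⟩ := exists_gen hg
  obtain ⟨D, hD, hfD⟩ := degOne_eq_numRoots hf hα hfK hα'
  obtain ⟨D', hD', hgD⟩ := degOne_eq_numRoots hg hβ hgL hβ'
  have ht : dedekindZeta (Adj f) = dedekindZeta (Adj g) ↔
      {p : ℕ | p.Prime ∧ degOne (Adj f) p ≠ degOne (Adj g) p}.Finite :=
    (perlis (Adj f) (Adj g)).out 0 5
  rw [ht]
  constructor
  · intro h1
    refine (h1.union (Finset.finite_toSet (D * D').primeFactors)).subset ?_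
    rintro p ⟨hp, hne⟩
    by_cases hpD : p ∣ D * D'
    · exact Or.inr (Nat.mem_primeFactors.2 ⟨hp, hpD, mul_ne_zero hD hD'⟩)
    · refine Or.inl ⟨hp, ?_⟩
      rwa [hfD p hp fun h => hpD (h.mul_right _), hgD p hp fun h => hpD (h.mul_left _)]
  · intro h1
    refine (h1.union (Finset.finite_toSet (D * D').primeFactors)).subset ?_
    rintro p ⟨hp, hne⟩
    by_cases hpD : p ∣ D * D'
    · exact Or.inr (Nat.mem_primeFactors.2 ⟨hp, hpD, mul_ne_zero hD hD'⟩)
    · refine Or.inl ⟨hp, ?_⟩
      rwa [hfD p hp fun h => hpD (h.mul_right _), hgD p hp fun h => hpD (h.mul_left _)] at hne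

/-- **Gassmann, Perlis and densities, for polynomials**: for monic irreducible polynomials of degree
`n` with integral coefficients the following are equivalent: `ℚ[X]/(f)` and `ℚ[X]/(g)` have the same
Dedekind zeta function; `f` and `g` have the same number of roots modulo almost all primes; the
proportion of the primes `p ≤ x` modulo which they have the same number of roots is at least
`1 - 2 / n² + ε` for some `ε > 0` and arbitrarily large `x`. -/
theorem numRoots_tfae (hf : f.Monic) (hg : g.Monic)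
    [Fact (Irreducible (f.map (Int.castRingHom ℚ)))]
    [Fact (Irreducible (g.map (Int.castRingHom ℚ)))] (hdeg : f.natDegree = g.natDegree) :
    List.TFAE [dedekindZeta (Adj f) = dedekindZeta (Adj g),
      {p : ℕ | p.Prime ∧ numRoots f p ≠ numRoots g p}.Finite,
      ∃ ε : ℝ, 0 < ε ∧ ∃ᶠ x : ℕ in atTop,
        (1 - 2 / (f.natDegree : ℝ) ^ 2 + ε) * Nat.primeCounting x ≤
        (((Finset.range (x + 1)).filter fun p => p.Prime ∧
          numRoots f p = numRoots g p).card : ℝ)] := by
  obtain ⟨hfK, α, hα, hα'⟩ := exists_gen hf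
  obtain ⟨hgL, β, hβ, hβ'⟩ := exists_gen hg
  have hn0 : 0 < f.natDegree := hfK ▸ Module.finrank_pos
  tfae_have 1 → 2 := (dedekindZeta_eq_iff_numRoots hf hg).1
  tfae_have 2 → 3 := by
    intro h
    have hn : (0 : ℝ) < (f.natDegree : ℝ) ^ 2 := by positivity
    refine ⟨1 / (f.natDegree : ℝ) ^ 2, by positivity, Eventually.frequently ?_⟩
    have h1 : Tendsto (fun x : ℕ => (Nat.primeCounting x : ℝ)) atTop atTop :=
      tendsto_natCast_atTop_atTop.comp Nat.tendsto_primeCounting
    filter_upwards [h1.eventually_ge_atTop ((f.natDegree : ℝ) ^ 2 * h.toFinset.card)] with x hx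
    have hpc : ((Finset.range (x + 1)).filter Nat.Prime).card = Nat.primeCounting x := by
      rw [Nat.primeCounting, Nat.primeCounting', Nat.count_eq_card_filter_range]
    have hsum := Finset.card_filter_add_card_filter_not
      (s := (Finset.range (x + 1)).filter Nat.Prime) (fun p => numRoots f p = numRoots g p)
    rw [Finset.filter_filter, Finset.filter_filter, hpc] at hsum
    have hle : ((Finset.range (x + 1)).filter fun p => p.Prime ∧
        ¬ numRoots f p = numRoots g p).card ≤ h.toFinset.card :=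
      Finset.card_le_card fun p hp => by
        rw [Set.Finite.mem_toFinset]
        exact (Finset.mem_filter.1 hp).2
    have hsum' : (((Finset.range (x + 1)).filter fun p => p.Prime ∧
        numRoots f p = numRoots g p).card : ℝ) + h.toFinset.card ≥ Nat.primeCounting x := by
      have : Nat.primeCounting x ≤ ((Finset.range (x + 1)).filter fun p => p.Prime ∧
        numRoots f p = numRoots g p).card + h.toFinset.card := by omega
      exact_mod_cast this
    have h3 : (h.toFinset.card : ℝ) ≤ 1 / (f.natDegree : ℝ) ^ 2 * Nat.primeCounting x := by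
      rw [one_div, inv_mul_eq_div, le_div_iff₀ hn]
      linarith
    have h4 : (1 - 2 / (f.natDegree : ℝ) ^ 2 + 1 / (f.natDegree : ℝ) ^ 2) * Nat.primeCounting x =
        Nat.primeCounting x - 1 / (f.natDegree : ℝ) ^ 2 * Nat.primeCounting x := by ring
    rw [h4]
    linarith
  tfae_have 3 → 1 := by
    rintro ⟨ε, hε, h⟩
    exact dedekindZeta_eq_of_numRoots hf hg hα hβ hfK hgL hα' hβ' hdeg hε h
  tfae_finish

/-- For `f` of degree at most five: `ℚ[X]/(f) ≅ ℚ[X]/(g)` if and only if `f` and `g` have the same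
number of roots modulo almost all primes (if the degrees are equal this follows from the equality
for a proportion of the primes which is greater than `1 - 2 / n²`, `nonempty_equiv_of_numRoots`). -/
theorem nonempty_equiv_iff_numRoots (hf : f.Monic) (hg : g.Monic) (hfi : Irreducible f)
    (hgi : Irreducible g) (h5 : f.natDegree ≤ 5) :
    Nonempty (Adj f ≃+* Adj g) ↔ {p : ℕ | p.Prime ∧ numRoots f p ≠ numRoots g p}.Finite := by
  have hf' := irreducible_map hf hfi
  have hg' := irreducible_map hg hgi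
  have : Fact (Irreducible (f.map (Int.castRingHom ℚ))) := ⟨hf'⟩
  have : Fact (Irreducible (g.map (Int.castRingHom ℚ))) := ⟨hg'⟩
  rw [← dedekindZeta_eq_iff_numRoots hf hg]
  constructor
  · rintro ⟨e⟩
    exact (arithEquiv_of_ringEquiv e).dedekindZeta_eq
  · intro h
    exact AE.nonempty_ringEquiv_of_finrank_le ((exists_gen hf).1 ▸ h5) h

end Adj

end Fermat.Agent.Cor.Falt
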