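import Fermat.Agent.Corollaries.Falt.Roots

/-!
# Polynomials with the same number of roots modulo many primes: invariants

Let `f` and `g` be monic irreducible polynomials of degree `n` with integral coefficients which have
the same number of roots modulo `p` for a set of primes `p` of upper density greater than
`1 - 2 / n²`. Then `f` and `g` have the same splitting field in `ℚ̄` and the same number of real
roots, and the fields `ℚ[X]/(f)` and `ℚ[X]/(g)` have the same discriminant, the same number of roots
of unity and the same product of class number and regulator.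
-/

set_option autoImplicit false

open Filter Topology Polynomial NumberField IntermediateField

namespace Fermat.Agent.Cor.Falt

open Fermat.Agent.Cor.Frob

local notation "Qbar" => AlgebraicClosure ℚ

variable {f g : ℤ[X]}

theorem mem_rootSet_int {S : Type*} [CommRing S] [IsDomain S] [Algebra ℤ S] (hf : f.Monic) (x : S) :
    x ∈ f.rootSet S ↔ aeval x f = 0 := by
  rw [mem_rootSet']
  exact and_iff_right (hf.map _).ne_zero

/-- the roots of `f` are the images of the generator of `ℚ[X]/(f)` -/
theorem mem_rootSet_iff_emb (hf : f.Monic) [Fact (Irreducible (f.map (Int.castRingHom ℚ)))]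
    {α : 𝓞 (Adj f)} (h0 : aeval α f = 0) (hα : ℚ⟮(α : Adj f)⟯ = ⊤) (x : Qbar) :
    x ∈ f.rootSet Qbar ↔ ∃ j : Adj f →+* Qbar, j α = x := by
  have h0' : aeval (α : Adj f) f = 0 :=
    (aeval_algebraMap_apply (Adj f) α f).trans (by rw [h0, map_zero])
  rw [mem_rootSet_int hf]
  constructor
  · intro hx
    have h1 := congrArg (eval x) (map_eq_prod_emb hf h0' (exists_gen hf).1 hα)
    rw [eval_map, eval_prod] at h1
    have h2 : eval₂ (Int.castRingHom Qbar) x f = 0 := by
      have h3 : algebraMap ℤ Qbar = Int.castRingHom Qbar := RingHom.ext_int _ _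
      rw [← hx, aeval_def, h3]
    rw [h2] at h1
    obtain ⟨τ, -, hτ⟩ := Finset.prod_eq_zero_iff.1 h1.symm
    rw [eval_sub, eval_X, eval_C, sub_eq_zero] at hτ
    exact ⟨τ, hτ.symm⟩
  · rintro ⟨j, rfl⟩
    have h1 := congrArg j h0'
    rw [map_zero, aeval_def, hom_eval₂] at h1
    rw [aeval_def, ← h1]
    congr 1
    exact RingHom.ext_int _ _

/-- the splitting field of `f` is the compositum of the conjugates of `ℚ[X]/(f)` -/
theorem conjField_adj (hf : f.Monic) [Fact (Irreducible (f.map (Int.castRingHom ℚ)))] :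
    conjField (Adj f) = adjoin ℚ (f.rootSet Qbar) := by
  obtain ⟨-, α, h0, htop⟩ := exists_gen hf
  apply le_antisymm
  · refine iSup_le fun j => ?_
    have h1 : j.toRatAlgHom.fieldRange = ℚ⟮j α⟯ := by
      rw [AlgHom.fieldRange_eq_map, ← htop, adjoin_map, Set.image_singleton]
      rfl
    rw [h1, adjoin_simple_le_iff]
    exact subset_adjoin ℚ _ ((mem_rootSet_iff_emb hf h0 htop _).2 ⟨j, rfl⟩)
  · rw [adjoin_le_iff]
    intro x hx
    obtain ⟨j, rfl⟩ := (mem_rootSet_iff_emb hf h0 htop x).1 hx
    exact mem_conjField j _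

/-- the real places of `ℚ[X]/(f)` are the real roots of `f` -/
theorem nrRealPlaces_adj (hf : f.Monic) [Fact (Irreducible (f.map (Int.castRingHom ℚ)))] :
    InfinitePlace.nrRealPlaces (Adj f) = Nat.card (f.rootSet ℝ) := by
  classical
  rw [← InfinitePlace.card_real_embeddings, ← Nat.card_eq_fintype_card]
  have e1 : {φ : Adj f →+* ℂ // ComplexEmbedding.IsReal φ} ≃ (Adj f →+* ℝ) :=
    { toFun := fun φ => φ.2.embedding
      invFun := fun ψ => ⟨Complex.ofRealHom.comp ψ, by
        rw [ComplexEmbedding.isReal_iff]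
        exact RingHom.ext fun x => Complex.conj_ofReal (ψ x)⟩
      left_inv := fun φ => by
        refine Subtype.ext (RingHom.ext fun x => ?_)
        simp
      right_inv := fun ψ => by
        refine RingHom.ext fun x => ?_
        apply Complex.ofReal_injective
        simp }
  have hne : f.map (Int.castRingHom ℚ) ≠ 0 := (hf.map _).ne_zero
  have e3 := AdjoinRoot.equiv ℝ ℚ (f.map (Int.castRingHom ℚ)) hne
  have e4 : {x // x ∈ (f.map (Int.castRingHom ℚ)).aroots ℝ} ≃ f.rootSet ℝ := by
    refine Equiv.subtypeEquivRight fun x => ?_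
    rw [mem_rootSet_int hf, mem_aroots, and_iff_right hne, aeval_def, eval₂_map, aeval_def]
    have : (algebraMap ℚ ℝ).comp (Int.castRingHom ℚ) = algebraMap ℤ ℝ := RingHom.ext_int _ _
    rw [this]
  exact Nat.card_congr (((e1.trans (RingHom.equivRatAlgHom (Adj f) ℝ)).trans e3).trans e4)

section

variable {ε : ℝ}

theorem dedekindZeta_adj_eq (hf : f.Monic) (hg : g.Monic)
    [Fact (Irreducible (f.map (Int.castRingHom ℚ)))]
    [Fact (Irreducible (g.map (Int.castRingHom ℚ)))] (hdeg : f.natDegree = g.natDegree)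
    (hε : 0 < ε) (hfreq : ∃ᶠ x : ℕ in atTop,
      (1 - 2 / (f.natDegree : ℝ) ^ 2 + ε) * Nat.primeCounting x ≤
      (((Finset.range (x + 1)).filter fun p => p.Prime ∧ numRoots f p = numRoots g p).card : ℝ)) :
    dedekindZeta (Adj f) = dedekindZeta (Adj g) := by
  obtain ⟨hfK, α, hα, hα'⟩ := exists_gen hf
  obtain ⟨hgL, β, hβ, hβ'⟩ := exists_gen hg
  exact dedekindZeta_eq_of_numRoots hf hg hα hβ hfK hgL hα' hβ' hdeg hε hfreq

/-- **The same number of roots modulo many primes: the same splitting field.** -/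
theorem adjoin_rootSet_eq_of_numRoots (hf : f.Monic) (hg : g.Monic) (hfi : Irreducible f)
    (hgi : Irreducible g) (hdeg : f.natDegree = g.natDegree)
    (hε : 0 < ε) (hfreq : ∃ᶠ x : ℕ in atTop,
      (1 - 2 / (f.natDegree : ℝ) ^ 2 + ε) * Nat.primeCounting x ≤
      (((Finset.range (x + 1)).filter fun p => p.Prime ∧ numRoots f p = numRoots g p).card : ℝ)) :
    adjoin ℚ (f.rootSet Qbar) = adjoin ℚ (g.rootSet Qbar) := by
  have : Fact (Irreducible (f.map (Int.castRingHom ℚ))) := ⟨irreducible_map hf hfi⟩
  have : Fact (Irreducible (g.map (Int.castRingHom ℚ))) := ⟨irreducible_map hg hgi⟩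
  rw [← conjField_adj hf, ← conjField_adj hg]
  exact AE.conjField_eq_of_dedekindZeta_eq (dedekindZeta_adj_eq hf hg hdeg hε hfreq)

/-- **The same number of roots modulo many primes: the same number of real roots.** -/
theorem card_real_roots_eq_of_numRoots (hf : f.Monic) (hg : g.Monic) (hfi : Irreducible f)
    (hgi : Irreducible g) (hdeg : f.natDegree = g.natDegree)
    (hε : 0 < ε) (hfreq : ∃ᶠ x : ℕ in atTop,
      (1 - 2 / (f.natDegree : ℝ) ^ 2 + ε) * Nat.primeCounting x ≤
      (((Finset.range (x + 1)).filter fun p => p.Prime ∧ numRoots f p = numRoots g p).card : ℝ)) :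
    Nat.card (f.rootSet ℝ) = Nat.card (g.rootSet ℝ) := by
  have : Fact (Irreducible (f.map (Int.castRingHom ℚ))) := ⟨irreducible_map hf hfi⟩
  have : Fact (Irreducible (g.map (Int.castRingHom ℚ))) := ⟨irreducible_map hg hgi⟩
  rw [← nrRealPlaces_adj hf, ← nrRealPlaces_adj hg]
  exact (AE.dedekindZeta_eq_iff_arithEquiv.1
    (dedekindZeta_adj_eq hf hg hdeg hε hfreq)).nrRealPlaces_eq

/-- **The same number of roots modulo many primes: the invariants of the fields.** -/
theorem invariants_eq_of_numRoots (hf : f.Monic) (hg : g.Monic)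
    [Fact (Irreducible (f.map (Int.castRingHom ℚ)))]
    [Fact (Irreducible (g.map (Int.castRingHom ℚ)))] (hdeg : f.natDegree = g.natDegree)
    (hε : 0 < ε) (hfreq : ∃ᶠ x : ℕ in atTop,
      (1 - 2 / (f.natDegree : ℝ) ^ 2 + ε) * Nat.primeCounting x ≤
      (((Finset.range (x + 1)).filter fun p => p.Prime ∧ numRoots f p = numRoots g p).card : ℝ)) :
    discr (Adj f) = discr (Adj g) ∧
      NumberField.Units.torsionOrder (Adj f) = NumberField.Units.torsionOrder (Adj g) ∧
      (classNumber (Adj f) : ℝ) * NumberField.Units.regulator (Adj f) =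
        classNumber (Adj g) * NumberField.Units.regulator (Adj g) := by
  have h := dedekindZeta_adj_eq hf hg hdeg hε hfreq
  exact ⟨(AE.dedekindZeta_eq_iff_arithEquiv.1 h).discr_eq,
    AE.torsionOrder_eq_of_dedekindZeta_eq h, AE.classNumber_mul_regulator_eq h⟩

end

end Fermat.Agent.Cor.Falt
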