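import Fermat.Agent.Corollaries.Falt.Roots
import Fermat.Agent.Corollaries.ZetaK.GassSix

/-!
# Polynomials with the same number of roots modulo many primes: degree six, and degree eight

The theorems of `Falt/Roots` for degree at most six, and an example in degree eight: the polynomials
`X⁸ - 3` and `X⁸ - 48` are irreducible and have the same number of roots modulo every prime, and the
fields `ℚ[X]/(X⁸ - 3)` and `ℚ[X]/(X⁸ - 48)` are not isomorphic.
-/

set_option autoImplicit false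

open Filter Topology Polynomial NumberField IntermediateField

namespace Fermat.Agent.Cor.Falt

variable {f g : ℤ[X]}

/-- **Polynomials with the same number of roots modulo many primes**: `nonempty_equiv_of_numRoots`
for `n ≤ 6`. -/
theorem nonempty_equiv_of_numRoots_six (hf : f.Monic) (hg : g.Monic) (hfi : Irreducible f)
    (hgi : Irreducible g) (hdeg : f.natDegree = g.natDegree) (h6 : f.natDegree ≤ 6) {ε : ℝ}
    (hε : 0 < ε) (hfreq : ∃ᶠ x : ℕ in atTop,
      (1 - 2 / (f.natDegree : ℝ) ^ 2 + ε) * Nat.primeCounting x ≤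
      (((Finset.range (x + 1)).filter fun p => p.Prime ∧ numRoots f p = numRoots g p).card : ℝ)) :
    Nonempty (Adj f ≃+* Adj g) := by
  have : Fact (Irreducible (f.map (Int.castRingHom ℚ))) := ⟨irreducible_map hf hfi⟩
  have : Fact (Irreducible (g.map (Int.castRingHom ℚ))) := ⟨irreducible_map hg hgi⟩
  obtain ⟨hfK, α, hα, hα'⟩ := exists_gen hf
  obtain ⟨hgL, β, hβ, hβ'⟩ := exists_gen hg
  exact AE.nonempty_ringEquiv_of_finrank_le_six (hfK ▸ h6)
    (dedekindZeta_eq_of_numRoots hf hg hα hβ hfK hgL hα' hβ' hdeg hε hfreq)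

/-- For `f` of degree at most six: `ℚ[X]/(f) ≅ ℚ[X]/(g)` if and only if `f` and `g` have the same
number of roots modulo almost all primes. -/
theorem nonempty_equiv_iff_numRoots_six (hf : f.Monic) (hg : g.Monic) (hfi : Irreducible f)
    (hgi : Irreducible g) (h6 : f.natDegree ≤ 6) :
    Nonempty (Adj f ≃+* Adj g) ↔ {p : ℕ | p.Prime ∧ numRoots f p ≠ numRoots g p}.Finite := by
  have : Fact (Irreducible (f.map (Int.castRingHom ℚ))) := ⟨irreducible_map hf hfi⟩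
  have : Fact (Irreducible (g.map (Int.castRingHom ℚ))) := ⟨irreducible_map hg hgi⟩
  rw [← dedekindZeta_eq_iff_numRoots hf hg]
  constructor
  · rintro ⟨e⟩
    exact (arithEquiv_of_ringEquiv e).dedekindZeta_eq
  · intro h
    exact AE.nonempty_ringEquiv_of_finrank_le_six ((exists_gen hf).1 ▸ h6) h

/-! ### The polynomials `X⁸ - 3` and `X⁸ - 48` -/

theorem octic_two (x : ZMod 2) :
    x ^ 8 - ((3 : ℤ) : ZMod 2) = 0 ↔ (x + 1) ^ 8 - ((48 : ℤ) : ZMod 2) = 0 := by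
  revert x
  decide

theorem numRoots_octic_eq (p : ℕ) (hp : p.Prime) :
    numRoots (X ^ 8 - C 3) p = numRoots (X ^ 8 - C 48) p := by
  have : Fact p.Prime := ⟨hp⟩
  have key : ∀ (a : ℤ) (x : ZMod p),
      (((X ^ 8 - C a : ℤ[X]).map (Int.castRingHom (ZMod p))).eval x = 0 ↔ x ^ 8 - a = 0) := by
    intro a x
    simp
  rw [numRoots, numRoots, Nat.card_congr (Equiv.subtypeEquivRight (key 3)),
    Nat.card_congr (Equiv.subtypeEquivRight (key 48))]
  by_cases h2 : p = 2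
  · subst h2
    exact Nat.card_congr ((Equiv.addRight (1 : ZMod 2)).subtypeEquiv octic_two)
  · obtain ⟨c, hc0, hc⟩ := AE.exists_pow_eight (p := p) h2
    refine Nat.card_congr ((Equiv.mulLeft₀ c hc0).subtypeEquiv fun x => ?_)
    have h16 : (16 : ZMod p) ≠ 0 := by
      rw [← hc]
      exact pow_ne_zero _ hc0
    have h1 : (c * x) ^ 8 - ((48 : ℤ) : ZMod p) = 16 * (x ^ 8 - ((3 : ℤ) : ZMod p)) := by
      rw [mul_pow, hc]
      push_cast
      ring
    change _ ↔ (c * x) ^ 8 - ((48 : ℤ) : ZMod p) = 0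
    rw [h1, mul_eq_zero, or_iff_right h16]

theorem nonempty_adj_equiv {a : ℕ} {r : ℝ} (hr : r ^ 8 = a) (h3 : 3 ∣ a) (h9 : ¬ 9 ∣ a) :
    Nonempty (Adj (X ^ 8 - C (a : ℤ)) ≃+* ℚ⟮r⟯) := by
  have hm : (X ^ 8 - C (a : ℤ) : ℤ[X]).Monic := monic_X_pow_sub_C _ (by norm_num)
  have hi := irreducible_map hm (AE.irreducible_X_pow h3 h9)
  have h1 : (X ^ 8 - C (a : ℤ) : ℤ[X]).map (Int.castRingHom ℚ) = minpoly ℚ r := by
    refine minpoly.eq_of_irreducible_of_monic hi ?_ (hm.map _)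
    rw [aeval_def, eval₂_map]
    simp [hr]
  change Nonempty (AdjoinRoot ((X ^ 8 - C (a : ℤ) : ℤ[X]).map (Int.castRingHom ℚ)) ≃+* ℚ⟮r⟯)
  rw [h1]
  exact ⟨(adjoinRootEquivAdjoin ℚ (AE.isIntegral_root hr)).toRingEquiv⟩

/-- **Degree eight**: the polynomials `X⁸ - 3` and `X⁸ - 48` are irreducible, they have the same
number of roots modulo every prime, and the fields `ℚ[X]/(X⁸ - 3)`, `ℚ[X]/(X⁸ - 48)` are not
isomorphic. -/
theorem numRoots_octic : Irreducible (X ^ 8 - C 3 : ℤ[X]) ∧ Irreducible (X ^ 8 - C 48 : ℤ[X]) ∧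
    (∀ p : ℕ, p.Prime → numRoots (X ^ 8 - C 3) p = numRoots (X ^ 8 - C 48) p) ∧
    ¬ Nonempty (Adj (X ^ 8 - C 3) ≃+* Adj (X ^ 8 - C 48)) := by
  refine ⟨AE.irreducible_X_pow (a := 3) dvd_rfl (by norm_num),
    AE.irreducible_X_pow (a := 48) (by norm_num) (by norm_num), numRoots_octic_eq, ?_⟩
  rintro ⟨e⟩
  obtain ⟨r, hr⟩ : ∃ r : ℝ, r ^ 8 = ((3 : ℕ) : ℝ) :=
    ⟨(3 : ℝ) ^ ((1 : ℝ) / 8), by
      rw [← Real.rpow_natCast, ← Real.rpow_mul (by norm_num)]
      norm_num⟩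
  obtain ⟨s, hs⟩ : ∃ s : ℝ, s ^ 8 = ((48 : ℕ) : ℝ) :=
    ⟨(48 : ℝ) ^ ((1 : ℝ) / 8), by
      rw [← Real.rpow_natCast, ← Real.rpow_mul (by norm_num)]
      norm_num⟩
  obtain ⟨e₁⟩ := nonempty_adj_equiv (a := 3) hr dvd_rfl (by norm_num)
  obtain ⟨e₂⟩ := nonempty_adj_equiv (a := 48) hs (by norm_num) (by norm_num)
  exact AE.not_iso hr hs ⟨(e₁.symm.trans e).trans e₂⟩

end Fermat.Agent.Cor.Falt
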