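import Fermat.Agent.Corollaries.Falt.Padic
import Fermat.Agent.Corollaries.Falt.BN

/-!
# Faltings' finiteness theorem for semisimple `ℓ`-adic representations

* `exists_primes_iso` : a semisimple continuous representation `Gal(ℚ̄/ℚ) → GL_d(F)`, `F` a finite
  extension of `ℚ_ℓ`, unramified outside `S`, is determined up to conjugation by the traces of the
  Frobenius elements at finitely many primes, which depend only on `S`, `ℓ`, `d` and `[F : ℚ_ℓ]`;
* `exists_finite_classes` : if the traces of the Frobenius elements lie in given finite sets, there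
  are only finitely many such representations up to conjugation (Faltings 1983, Satz 5).
-/

set_option autoImplicit false

namespace Fermat.Agent.Cor.Falt

open NumberField IsDedekindDomain Fermat.Agent.Frob Fermat.Agent.Classic.Disc
open Fermat.Agent.Cor.Frob Fermat.Agent.Cor.Herm

local notation "Qbar" => AlgebraicClosure ℚ

section Rep

variable {F : Type*} [Field F] {d : ℕ}

/-- the representation on column vectors -/
noncomputable def rep (ρ : GQ →* GL (Fin d) F) : Representation F GQ (Fin d → F) :=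
  ((Matrix.toLinAlgEquiv' : Matrix (Fin d) (Fin d) F ≃ₐ[F] _).toAlgHom : _ →* _).comp
    ((Units.coeHom _).comp ρ)

theorem rep_apply (ρ : GQ →* GL (Fin d) F) (σ : GQ) :
    rep ρ σ = Matrix.toLin' (ρ σ).1 := rfl

theorem trace_rep (ρ : GQ →* GL (Fin d) F) (σ : GQ) :
    LinearMap.trace F _ (rep ρ σ) = (ρ σ).1.trace := by
  rw [rep_apply, Matrix.trace_toLin'_eq]

/-- an isomorphism of representations is a conjugation -/
theorem exists_conj (ρ₁ ρ₂ : GQ →* GL (Fin d) F) (e : (Fin d → F) ≃ₗ[F] (Fin d → F))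
    (he : ∀ σ v, e (rep ρ₁ σ v) = rep ρ₂ σ (e v)) :
    ∃ g : GL (Fin d) F, ∀ σ, g * ρ₁ σ * g⁻¹ = ρ₂ σ := by
  let g : GL (Fin d) F :=
    { val := LinearMap.toMatrix' e.toLinearMap
      inv := LinearMap.toMatrix' e.symm.toLinearMap
      val_inv := by
        rw [← LinearMap.toMatrix'_comp, LinearEquiv.comp_symm, LinearMap.toMatrix'_id]
      inv_val := by
        rw [← LinearMap.toMatrix'_comp, LinearEquiv.symm_comp, LinearMap.toMatrix'_id] }
  refine ⟨g, fun σ => ?_⟩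
  rw [mul_inv_eq_iff_eq_mul]
  refine Units.ext ?_
  change LinearMap.toMatrix' e.toLinearMap * (ρ₁ σ).1 =
    (ρ₂ σ).1 * LinearMap.toMatrix' e.toLinearMap
  apply Matrix.toLin'.injective
  rw [Matrix.toLin'_mul, Matrix.toLin'_mul, Matrix.toLin'_toMatrix']
  exact LinearMap.ext fun v => he σ v

end Rep

/-- **Faltings' criterion for semisimple representations**, with Frobenius elements. -/
theorem exists_frob_iso.{u} (S S' : Finset ℕ) (ℓ : ℕ) [hℓ : Fact ℓ.Prime] (d m : ℕ) :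
    ∃ T : Set GQ, T.Finite ∧ (∀ φ ∈ T, ∃ p : ℕ, p.Prime ∧ p ∉ S' ∧
        ∃ A : ValuationSubring Qbar, A.LiesOverPrime p ∧ A.IsFrobeniusAt φ p) ∧
      ∀ (F : Type u) [NormedField F] [NormedAlgebra ℚ_[ℓ] F] [FiniteDimensional ℚ_[ℓ] F]
        (ρ₁ ρ₂ : GQ →* GL (Fin d) F), Module.finrank ℚ_[ℓ] F ≤ m →
        Continuous ρ₁ → Continuous ρ₂ → UnrOutside S ρ₁ → UnrOutside S ρ₂ →
        (rep ρ₁).IsSemisimpleRepresentation → (rep ρ₂).IsSemisimpleRepresentation →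
        (∀ φ ∈ T, (ρ₁ φ).1.trace = (ρ₂ φ).1.trace) →
        ∃ g : GL (Fin d) F, ∀ σ, g * ρ₁ σ * g⁻¹ = ρ₂ σ := by
  obtain ⟨T, hT, hfrob, h⟩ := exists_span_padic.{u} S S' ℓ (d * d * m + d * d * m)
  refine ⟨T, hT, hfrob, ?_⟩
  intro F _ _ _ ρ₁ ρ₂ hm hc₁ hc₂ hS₁ hS₂ hs₁ hs₂ htr
  have hchar : CharZero F := charZero_of_injective_algebraMap (algebraMap ℚ_[ℓ] F).injective
  let ρ : GQ →* Matrix (Fin d) (Fin d) F × Matrix (Fin d) (Fin d) F :=
    ((Units.coeHom _).comp ρ₁).prod ((Units.coeHom _).comp ρ₂)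
  have hcont : Continuous ρ :=
    (Units.continuous_val.comp hc₁).prodMk (Units.continuous_val.comp hc₂)
  have hr : Module.finrank ℚ_[ℓ] (Matrix (Fin d) (Fin d) F × Matrix (Fin d) (Fin d) F) ≤
      d * d * m + d * d * m := by
    rw [Module.finrank_prod, Module.finrank_matrix, Fintype.card_fin]
    exact add_le_add (Nat.mul_le_mul_left _ hm) (Nat.mul_le_mul_left _ hm)
  have hfin₁ : FiniteDimensional ℚ_[ℓ] (Matrix (Fin d) (Fin d) F) := Module.Finite.matrix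
  have hfin₂ : FiniteDimensional ℚ_[ℓ]
    (Matrix (Fin d) (Fin d) F × Matrix (Fin d) (Fin d) F) := Module.Finite.prod
  have hspan := h (Matrix (Fin d) (Fin d) F × Matrix (Fin d) (Fin d) F) ρ hr hcont
    (fun p hp hpS A hA σ hσ => Prod.ext
      (congrArg Units.val (hS₁ p hp hpS A hA σ hσ)) (congrArg Units.val (hS₂ p hp hpS A hA σ hσ)))
  have key : ∀ σ, (ρ₁ σ).1.trace = (ρ₂ σ).1.trace := by
    intro σ
    have h1 := eq_zero_of_span hspan
      ((Matrix.traceLinearMap (Fin d) ℚ_[ℓ] F).comp (LinearMap.fst ℚ_[ℓ] _ _) -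
        (Matrix.traceLinearMap (Fin d) ℚ_[ℓ] F).comp (LinearMap.snd ℚ_[ℓ] _ _)) (fun φ hφ =>
          sub_eq_zero.2 (htr φ hφ)) σ
    exact sub_eq_zero.1 h1
  obtain ⟨e, he⟩ := exists_equiv_of_trace (rep ρ₁) (rep ρ₂)
    (fun σ => by rw [trace_rep, trace_rep, key])
  exact exists_conj ρ₁ ρ₂ e he

/-- **Faltings' criterion for semisimple `ℓ`-adic representations.** For a finite set `S` of
primes, a prime `ℓ` and `d`, `m` there is a finite set `T` of primes outside `S ∪ {ℓ}` such that two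
continuous semisimple representations `Gal(ℚ̄/ℚ) → GL_d(F)`, `F` an extension of `ℚ_ℓ` of degree at
most `m`, unramified outside `S`, are conjugate as soon as the traces of the Frobenius elements at
the primes of `T` are the same. -/
theorem exists_primes_iso.{u} (S : Finset ℕ) (ℓ : ℕ) [hℓ : Fact ℓ.Prime] (d m : ℕ) :
    ∃ T : Finset ℕ, (∀ p ∈ T, p.Prime ∧ p ∉ S ∧ p ≠ ℓ) ∧
      ∀ (F : Type u) [NormedField F] [NormedAlgebra ℚ_[ℓ] F] [FiniteDimensional ℚ_[ℓ] F]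
        (ρ₁ ρ₂ : GQ →* GL (Fin d) F), Module.finrank ℚ_[ℓ] F ≤ m →
        Continuous ρ₁ → Continuous ρ₂ → UnrOutside S ρ₁ → UnrOutside S ρ₂ →
        (rep ρ₁).IsSemisimpleRepresentation → (rep ρ₂).IsSemisimpleRepresentation →
        (∀ p ∈ T, ∀ A : ValuationSubring Qbar, A.LiesOverPrime p → ∀ φ : GQ,
          A.IsFrobeniusAt φ p → (ρ₁ φ).1.trace = (ρ₂ φ).1.trace) →
        ∃ g : GL (Fin d) F, ∀ σ, g * ρ₁ σ * g⁻¹ = ρ₂ σ := by
  obtain ⟨T, hT, hfrob, h⟩ := exists_frob_iso.{u} S (insert ℓ S) ℓ d m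
  obtain ⟨P, hP, hPT⟩ := exists_primes_of hT hfrob
  refine ⟨P, fun p hp => ⟨(hP p hp).1, fun h => (hP p hp).2 (Finset.mem_insert_of_mem h),
    fun h => (hP p hp).2 (h ▸ Finset.mem_insert_self _ _)⟩, ?_⟩
  intro F _ _ _ ρ₁ ρ₂ hm hc₁ hc₂ hS₁ hS₂ hs₁ hs₂ htr
  refine h F ρ₁ ρ₂ hm hc₁ hc₂ hS₁ hS₂ hs₁ hs₂ fun φ hφ => ?_
  obtain ⟨p, hp, A, hA, hf⟩ := hPT φ hφ
  exact htr p hp A hA φ hf

section Finite

variable {ℓ : ℕ} [hℓ : Fact ℓ.Prime] {F : Type*} [NormedField F] [NormedAlgebra ℚ_[ℓ] F] {d : ℕ}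

/-- continuous, semisimple, unramified outside `S`, the traces of the Frobenius elements at the
primes `p` outside `S ∪ {ℓ}` are in `Z p` -/
structure IsGood (S : Finset ℕ) (ℓ : ℕ) (Z : ℕ → Set F) (ρ : GQ →* GL (Fin d) F) : Prop where
  cont : Continuous ρ
  unr : UnrOutside S ρ
  semisimple : (rep ρ).IsSemisimpleRepresentation
  trace : ∀ p : ℕ, p.Prime → p ∉ S → p ≠ ℓ → ∀ A : ValuationSubring Qbar, A.LiesOverPrime p →
    ∀ φ : GQ, A.IsFrobeniusAt φ p → (ρ φ).1.trace ∈ Z p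

/-- **Faltings' finiteness theorem** (1983, Satz 5). Up to conjugation there are only finitely many
continuous semisimple representations `Gal(ℚ̄/ℚ) → GL_d(F)`, `F` a finite extension of `ℚ_ℓ`,
unramified outside a finite set `S` of primes, such that the traces of the Frobenius elements at the
primes `p ∉ S ∪ {ℓ}` lie in given finite sets `Z p`. -/
theorem exists_finite_classes [FiniteDimensional ℚ_[ℓ] F] (S : Finset ℕ) (d : ℕ) {Z : ℕ → Set F}
    (hZ : ∀ p, (Z p).Finite) :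
    ∃ X : Set (GQ →* GL (Fin d) F), X.Finite ∧ (∀ ρ ∈ X, IsGood S ℓ Z ρ) ∧
      ∀ ρ : GQ →* GL (Fin d) F, IsGood S ℓ Z ρ →
        ∃ ρ' ∈ X, ∃ g : GL (Fin d) F, ∀ σ, g * ρ σ * g⁻¹ = ρ' σ := by
  obtain ⟨T, hT, hfrob, h⟩ := exists_frob_iso S (insert ℓ S) ℓ d (Module.finrank ℚ_[ℓ] F)
  choose p hp hpS A hA hφ using fun φ : T => hfrob φ.1 φ.2
  have : Finite T := hT.to_subtype
  let tr : (GQ →* GL (Fin d) F) → (T → F) := fun ρ φ => (ρ φ).1.trace
  have hfin : (tr '' {ρ | IsGood S ℓ Z ρ}).Finite := by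
    refine (Set.Finite.pi' fun φ : T => hZ (p φ)).subset ?_
    rintro _ ⟨ρ, hρ, rfl⟩ φ
    exact hρ.trace (p φ) (hp φ) (fun h => hpS φ (Finset.mem_insert_of_mem h))
      (fun h => hpS φ (h ▸ Finset.mem_insert_self _ _)) (A φ) (hA φ) φ (hφ φ)
  have : Finite (tr '' {ρ | IsGood S ℓ Z ρ}) := hfin.to_subtype
  choose R hR hRx using fun x : tr '' {ρ | IsGood S ℓ Z ρ} => x.2
  refine ⟨Set.range R, Set.finite_range R, ?_, ?_⟩
  · rintro _ ⟨x, rfl⟩
    exact hR x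
  · intro ρ hρ
    refine ⟨R ⟨tr ρ, ρ, hρ, rfl⟩, ⟨_, rfl⟩, ?_⟩
    have h1 := hR ⟨tr ρ, ρ, hρ, rfl⟩
    have h2 := hRx ⟨tr ρ, ρ, hρ, rfl⟩
    exact h F ρ _ le_rfl hρ.cont h1.cont hρ.unr h1.unr hρ.semisimple h1.semisimple
      (fun φ hφT => (congrFun h2 ⟨φ, hφT⟩).symm)

end Finite

/-- **Faltings' finiteness theorem** for representations with rational integers of bounded absolute
value as traces of Frobenius elements: `d`-dimensional, semisimple, over `ℚ_ℓ`. -/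
theorem exists_finite_classes_int (S : Finset ℕ) (ℓ : ℕ) [hℓ : Fact ℓ.Prime] (d : ℕ) (B : ℕ → ℕ) :
    ∃ X : Set (GQ →* GL (Fin d) ℚ_[ℓ]), X.Finite ∧
      ∀ ρ : GQ →* GL (Fin d) ℚ_[ℓ], Continuous ρ → UnrOutside S ρ →
        (rep ρ).IsSemisimpleRepresentation →
        (∀ p : ℕ, p.Prime → p ∉ S → p ≠ ℓ → ∀ A : ValuationSubring Qbar, A.LiesOverPrime p →
          ∀ φ : GQ, A.IsFrobeniusAt φ p → ∃ a : ℤ, |a| ≤ B p ∧ (ρ φ).1.trace = a) →
        ∃ ρ' ∈ X, ∃ g : GL (Fin d) ℚ_[ℓ], ∀ σ, g * ρ σ * g⁻¹ = ρ' σ := by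
  obtain ⟨X, hX, -, h⟩ := exists_finite_classes (ℓ := ℓ) (F := ℚ_[ℓ]) S d
    (Z := fun p => (fun a : ℤ => (a : ℚ_[ℓ])) '' Set.Icc (-(B p : ℤ)) (B p))
    (fun p => (Set.finite_Icc _ _).image _)
  refine ⟨X, hX, fun ρ hc hu hs ht => h ρ ⟨hc, hu, hs, ?_⟩⟩
  intro p hp hpS hpℓ A hA φ hφ
  obtain ⟨a, ha, hta⟩ := ht p hp hpS hpℓ A hA φ hφ
  exact ⟨a, abs_le.1 ha, hta.symm⟩

end Fermat.Agent.Cor.Falt
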