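import Fermat.Agent.Corollaries.Falt.Primes

/-!
# Faltings' criterion: a finite set of Frobenius elements spans

Let `R` be a local principal ideal domain with residue field of at most `q` elements, `E` an
`R`-algebra which is free of rank at most `r` as a module and `ρ : Gal(ℚ̄/ℚ) → E` multiplicative,
continuous for the adic topology and unramified outside a finite set `S`. There is a finite set `T`
of Frobenius elements, depending only on `S`, `q` and `r`, such that the values of `ρ` on `T`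
generate the `R`-module generated by all values of `ρ`.
-/

set_option autoImplicit false

namespace Fermat.Agent.Cor.Falt

open NumberField IsDedekindDomain Fermat.Agent.Frob Fermat.Agent.Classic.Disc
open Fermat.Agent.Cor.Frob Fermat.Agent.Cor.Herm
open IsLocalRing (maximalIdeal ResidueField residue)

local notation "Qbar" => AlgebraicClosure ℚ

section Defs

variable (R : Type*) [CommRing R] [IsLocalRing R] {E : Type*} [Ring E] [Algebra R E]

/-- continuity for the `𝔪`-adic topology -/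
def AdicCont (ρ : GQ →* E) : Prop :=
  ∀ n : ℕ, ∃ L : IntermediateField ℚ Qbar, FiniteDimensional ℚ L ∧
    ∀ σ : GQ, (∀ x ∈ L, σ x = x) → ρ σ - 1 ∈ (maximalIdeal R ^ n) • (⊤ : Submodule R E)

end Defs

/-- unramified outside `S` -/
def UnrOutside {X : Type*} [One X] (S : Finset ℕ) (ρ : GQ → X) : Prop :=
  ∀ p : ℕ, p.Prime → p ∉ S → ∀ A : ValuationSubring Qbar, A.LiesOverPrime p →
    ∀ σ ∈ A.inertiaSubgroupIn ℚ, ρ σ = 1

section Lattice

variable (R : Type*) [CommRing R] {E : Type*} [Ring E] [Algebra R E] (ρ : GQ →* E)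

/-- the module generated by the values -/
def lat : Submodule R E := Submodule.span R (Set.range ρ)

theorem mem_lat (σ : GQ) : ρ σ ∈ lat R ρ := Submodule.subset_span ⟨σ, rfl⟩

theorem one_mem_lat : (1 : E) ∈ lat R ρ := by
  have := mem_lat R ρ 1
  rwa [map_one] at this

theorem mul_mem_smul_lat (I : Ideal R) (σ : GQ) {x : E} (hx : x ∈ I • lat R ρ) :
    ρ σ * x ∈ I • lat R ρ := by
  have h1 : (lat R ρ).map (LinearMap.mulLeft R (ρ σ)) ≤ lat R ρ := by
    rw [lat, Submodule.map_span, Submodule.span_le]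
    rintro _ ⟨_, ⟨τ, rfl⟩, rfl⟩
    refine Submodule.subset_span ⟨σ * τ, ?_⟩
    rw [map_mul]
    rfl
  have h2 : LinearMap.mulLeft R (ρ σ) x ∈ (I • lat R ρ).map (LinearMap.mulLeft R (ρ σ)) :=
    Submodule.mem_map_of_mem hx
  rw [Submodule.map_smul''] at h2
  exact Submodule.smul_mono le_rfl h1 h2

theorem smul_lat_mul_mem (I : Ideal R) (σ : GQ) {x : E} (hx : x ∈ I • lat R ρ) :
    x * ρ σ ∈ I • lat R ρ := by
  have h1 : (lat R ρ).map (LinearMap.mulRight R (ρ σ)) ≤ lat R ρ := by
    rw [lat, Submodule.map_span, Submodule.span_le]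
    rintro _ ⟨_, ⟨τ, rfl⟩, rfl⟩
    refine Submodule.subset_span ⟨τ * σ, ?_⟩
    rw [map_mul]
    rfl
  have h2 : LinearMap.mulRight R (ρ σ) x ∈ (I • lat R ρ).map (LinearMap.mulRight R (ρ σ)) :=
    Submodule.mem_map_of_mem hx
  rw [Submodule.map_smul''] at h2
  exact Submodule.smul_mono le_rfl h1 h2

/-- the kernel of the action on the lattice modulo `I` -/
def ker (I : Ideal R) : Subgroup GQ where
  carrier := {σ | ρ σ - 1 ∈ I • lat R ρ}
  one_mem' := by
    change ρ 1 - 1 ∈ I • lat R ρ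
    rw [map_one, sub_self]
    exact zero_mem _
  mul_mem' := by
    intro σ τ hσ hτ
    change ρ (σ * τ) - 1 ∈ I • lat R ρ
    have h : ρ (σ * τ) - 1 = ρ σ * (ρ τ - 1) + (ρ σ - 1) := by
      rw [map_mul, mul_sub, mul_one, sub_add_sub_cancel]
    rw [h]
    exact add_mem (mul_mem_smul_lat R ρ I σ hτ) hσ
  inv_mem' := by
    intro σ hσ
    change ρ σ⁻¹ - 1 ∈ I • lat R ρ
    have h : ρ σ⁻¹ - 1 = -(ρ σ⁻¹ * (ρ σ - 1)) := by
      rw [mul_sub, ← map_mul, inv_mul_cancel, map_one, mul_one, neg_sub]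
    rw [h]
    exact neg_mem (mul_mem_smul_lat R ρ I σ⁻¹ hσ)

theorem mem_ker {I : Ideal R} {σ : GQ} : σ ∈ ker R ρ I ↔ ρ σ - 1 ∈ I • lat R ρ := Iff.rfl

theorem ker_normal (I : Ideal R) : (ker R ρ I).Normal := by
  refine ⟨fun σ hσ τ => ?_⟩
  rw [mem_ker] at hσ ⊢
  have h : ρ (τ * σ * τ⁻¹) - 1 = ρ τ * (ρ σ - 1) * ρ τ⁻¹ := by
    rw [mul_sub, sub_mul, mul_one, ← map_mul, ← map_mul, ← map_mul, mul_inv_cancel, map_one]
  rw [h]
  exact smul_lat_mul_mem R ρ I _ (mul_mem_smul_lat R ρ I _ hσ)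

/-- two elements with values congruent modulo `I` times the lattice are congruent -/
theorem inv_mul_mem_ker {I : Ideal R} {σ τ : GQ} (h : ρ τ - ρ σ ∈ I • lat R ρ) :
    σ⁻¹ * τ ∈ ker R ρ I := by
  rw [mem_ker]
  have h1 : ρ (σ⁻¹ * τ) - 1 = ρ σ⁻¹ * (ρ τ - ρ σ) := by
    rw [mul_sub, ← map_mul, ← map_mul, inv_mul_cancel, map_one]
  rw [h1]
  exact mul_mem_smul_lat R ρ I _ h

end Lattice

section Local

variable {R : Type*} [CommRing R] [IsLocalRing R] {E : Type*} [Ring E] [Algebra R E]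

/-- continuity: the kernel contains the fixing subgroup of a finite extension (Artin-Rees) -/
theorem exists_le_ker [IsNoetherianRing R] [Module.Finite R E] {ρ : GQ →* E}
    (hρ : AdicCont R ρ) :
    ∃ L : IntermediateField ℚ Qbar, FiniteDimensional ℚ L ∧
      L.fixingSubgroup ≤ ker R ρ (maximalIdeal R) := by
  obtain ⟨k, hk⟩ := Ideal.exists_pow_inf_eq_pow_smul (maximalIdeal R) (lat R ρ)
  obtain ⟨L, hL, h⟩ := hρ (k + 1)
  refine ⟨L, hL, fun σ hσ => ?_⟩
  rw [mem_ker]
  have h1 : ρ σ - 1 ∈ (maximalIdeal R ^ (k + 1)) • (⊤ : Submodule R E) ⊓ lat R ρ :=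
    ⟨h σ ((IntermediateField.mem_fixingSubgroup_iff _ _).1 hσ),
      sub_mem (mem_lat R ρ σ) (one_mem_lat R ρ)⟩
  rw [hk (k + 1) (Nat.le_succ k), Nat.add_sub_cancel_left, pow_one] at h1
  exact Submodule.smul_mono le_rfl inf_le_right h1

/-- the index of the kernel -/
theorem index_ker_le [IsDomain R] [IsPrincipalIdealRing R] [Module.Finite R E] [Module.Free R E]
    [Finite (ResidueField R)] {ρ : GQ →* E} {q r : ℕ} (hq : Nat.card (ResidueField R) ≤ q)
    (hr : Module.finrank R E ≤ r) :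
    (ker R ρ (maximalIdeal R)).index ≤ q ^ r := by
  classical
  have hfree : Module.Free R (lat R ρ) := inferInstance
  have hfinite : Module.Finite R (lat R ρ) := inferInstance
  let b := Module.finBasis R (lat R ρ)
  have hcoord : ∀ x : lat R ρ, (∀ i, residue R (b.repr x i) = 0) →
      (x : E) ∈ maximalIdeal R • lat R ρ := by
    intro x hx
    rw [← b.sum_repr x, Submodule.coe_sum]
    refine Submodule.sum_mem _ fun i _ => ?_
    rw [Submodule.coe_smul]
    refine Submodule.smul_mem_smul ?_ (b i).2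
    rw [← IsLocalRing.residue_eq_zero_iff]
    exact hx i
  let f : GQ ⧸ ker R ρ (maximalIdeal R) → (Fin (Module.finrank R (lat R ρ)) → ResidueField R) :=
    fun c i => residue R (b.repr ⟨ρ c.out, mem_lat R ρ _⟩ i)
  have hf : Function.Injective f := by
    intro c c' hcc
    rw [← QuotientGroup.out_eq' c, ← QuotientGroup.out_eq' c', QuotientGroup.eq]
    apply inv_mul_mem_ker
    refine hcoord (⟨ρ c'.out, mem_lat R ρ _⟩ - ⟨ρ c.out, mem_lat R ρ _⟩) fun i => ?_
    rw [map_sub, Finsupp.sub_apply, map_sub, sub_eq_zero]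
    exact (congrFun hcc i).symm
  have h1 : Nat.card (GQ ⧸ ker R ρ (maximalIdeal R)) ≤
      Nat.card (Fin (Module.finrank R (lat R ρ)) → ResidueField R) :=
    Nat.card_le_card_of_injective f hf
  rw [Nat.card_fun, Nat.card_fin] at h1
  have hpos : 0 < Nat.card (ResidueField R) := Nat.card_pos
  calc (ker R ρ (maximalIdeal R)).index
      = Nat.card (GQ ⧸ ker R ρ (maximalIdeal R)) := rfl
    _ ≤ Nat.card (ResidueField R) ^ Module.finrank R (lat R ρ) := h1
    _ ≤ Nat.card (ResidueField R) ^ r :=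
        Nat.pow_le_pow_right hpos ((Submodule.finrank_le _).trans hr)
    _ ≤ q ^ r := Nat.pow_le_pow_left hq r

/-- **Faltings' criterion, linear form.** There is a finite set `T` of Frobenius elements at primes
outside `S'`, depending only on `S`, `S'`, `q`, `r`, whose values span all the values of every
continuous `ρ : Gal(ℚ̄/ℚ) → Eˣ` unramified outside `S`, for every algebra `E` of rank at most `r`
over a local principal ideal domain with at most `q` elements in its residue field. -/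
theorem exists_span.{u, v} (S S' : Finset ℕ) (q r : ℕ) :
    ∃ T : Set GQ, T.Finite ∧ (∀ φ ∈ T, ∃ p : ℕ, p.Prime ∧ p ∉ S' ∧
        ∃ A : ValuationSubring Qbar, A.LiesOverPrime p ∧ A.IsFrobeniusAt φ p) ∧
      ∀ (R : Type u) [CommRing R] [IsDomain R] [IsPrincipalIdealRing R] [IsLocalRing R]
        [Finite (ResidueField R)] (E : Type v) [Ring E] [Algebra R E] [Module.Finite R E]
        [Module.Free R E] (ρ : GQ →* E), Nat.card (ResidueField R) ≤ q →
        Module.finrank R E ≤ r → AdicCont R ρ → UnrOutside S ρ →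
        Submodule.span R (Set.range ρ) = Submodule.span R (ρ '' T) := by
  obtain ⟨T, hT, hfrob, h⟩ := exists_frob S S' (q ^ r)
  refine ⟨T, hT, hfrob, ?_⟩
  intro R _ _ _ _ _ E _ _ _ _ ρ hq hr hρ hS
  refine le_antisymm ?_ (Submodule.span_mono (Set.image_subset_range _ _))
  have h1 := h (ker R ρ (maximalIdeal R)) (ker_normal R ρ _) (exists_le_ker hρ)
    (index_ker_le hq hr) (fun p hp hpS A hA σ hσ => by
      rw [mem_ker, hS p hp hpS A hA σ hσ, sub_self]
      exact zero_mem _)
  refine Submodule.le_of_le_smul_of_le_jacobson_bot (I := maximalIdeal R)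
    (IsNoetherian.noetherian _) (IsLocalRing.maximalIdeal_le_jacobson _) ?_
  rw [Submodule.span_le]
  rintro _ ⟨σ, rfl⟩
  obtain ⟨φ, hφ, hφN⟩ := h1 σ
  rw [mem_ker] at hφN
  have h2 : ρ σ = ρ φ - ρ σ * (ρ (σ⁻¹ * φ) - 1) := by
    rw [mul_sub, ← map_mul, mul_inv_cancel_left, mul_one, sub_sub_cancel]
  rw [h2]
  refine Submodule.sub_mem _ (Submodule.mem_sup_left (Submodule.subset_span ⟨φ, hφ, rfl⟩))
    (Submodule.mem_sup_right (mul_mem_smul_lat R ρ _ σ hφN))

/-- a linear functional which vanishes on the values at `T` vanishes on all values -/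
theorem eq_zero_of_span {R : Type*} [CommRing R] {E M : Type*} [Ring E] [Algebra R E]
    [AddCommGroup M] [Module R M] {ρ : GQ →* E} {T : Set GQ}
    (h : Submodule.span R (Set.range ρ) = Submodule.span R (ρ '' T)) (f : E →ₗ[R] M)
    (hf : ∀ φ ∈ T, f (ρ φ) = 0) (σ : GQ) : f (ρ σ) = 0 := by
  have h1 : ρ σ ∈ Submodule.span R (ρ '' T) := h ▸ Submodule.subset_span ⟨σ, rfl⟩
  have h2 : Submodule.span R (ρ '' T) ≤ LinearMap.ker f := by
    rw [Submodule.span_le]
    rintro _ ⟨φ, hφ, rfl⟩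
    exact hf φ hφ
  exact h2 h1

end Local

end Fermat.Agent.Cor.Falt
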