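import Fermat.Agent.Corollaries.Falt.Roots

/-!
# Bauer's theorem with densities

Let `K` and `L` be number fields which are Galois over `ℚ` and not isomorphic, of degrees `n`, `m`.
The set of the primes which split completely in exactly one of them has a natural density, and it is
at least `1 / (2 min (n, m))`. So a Galois extension of `ℚ` is determined by the primes which split
completely, even if a set of primes of small density is left out.
-/

set_option autoImplicit false

open Filter Topology NumberField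

namespace Fermat.Agent.Cor.Falt

open Fermat.Agent.Frob Fermat.Agent.Classic.Disc Fermat.Agent.Cor.Frob

local notation "Qbar" => AlgebraicClosure ℚ

theorem hom_conj_eq_one_iff {G H : Type*} [Group G] [Group H] (q : G →* H) (x g : G) :
    q (x⁻¹ * g * x) = 1 ↔ q g = 1 := by
  rw [map_mul, map_mul, map_inv]
  constructor
  · intro h
    have h1 : q g = q x * ((q x)⁻¹ * q g * q x) * (q x)⁻¹ := by group
    rw [h1, h, mul_one, mul_inv_cancel]
  · intro h
    rw [h, mul_one, inv_mul_cancel]

theorem hom_eq_one_iff_of_zpowers {G H : Type*} [Group G] [Group H] (q : G →* H) {g g' : G}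
    (hz : Subgroup.zpowers g = Subgroup.zpowers g') : q g = 1 ↔ q g' = 1 := by
  have h3 := congrArg (Subgroup.map q) hz
  rw [MonoidHom.map_zpowers, MonoidHom.map_zpowers] at h3
  rw [← Subgroup.zpowers_eq_bot, h3, Subgroup.zpowers_eq_bot]

variable {K L : Type*} [Field K] [NumberField K] [Field L] [NumberField L]

variable (K) in
/-- `p` splits completely in `K` -/
def Spl (p : ℕ) : Prop := (above K p).card = Module.finrank ℚ K

theorem spl_iff : ∃ D : ℕ, D ≠ 0 ∧ ∀ p : ℕ, p.Prime → ¬ p ∣ D →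
    ∀ A : ValuationSubring Qbar, A.LiesOverPrime p →
    ∀ σ : GQ, A.IsFrobeniusAt σ p → (Spl K p ↔ embPerm K σ = 1) := by
  obtain ⟨D, hD, h⟩ := Cor.Frob.decType_eq (K := K)
  refine ⟨D, hD, fun p hp hpD A hA σ hσ => ?_⟩
  rw [Spl, ← decType_eq_replicate_iff hp, h p hp hpD A hA σ hσ, cycType_eq_replicate_iff]

/-- **The primes which split completely in exactly one of two fields**: if the normal closures are
different, the natural density exists and is at least `1 / (2 g)`, `g` the order of either Galois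
group. -/
theorem exists_hasDensity_spl (hne : conjField K ≠ conjField L) :
    ∃ δ : ℝ, 1 / (2 * (Nat.card (GalK K) : ℝ)) ≤ δ ∧ 1 / (2 * (Nat.card (GalK L) : ℝ)) ≤ δ ∧
      HasDensity (fun p => ¬ (Spl K p ↔ Spl L p)) δ := by
  classical
  have hσ₀ : ∃ σ : GQ, ¬ (embPerm K σ = 1 ↔ embPerm L σ = 1) := by
    by_contra hcon
    push Not at hcon
    refine hne ?_
    have h1 : (conjField K).fixingSubgroup = (conjField L).fixingSubgroup := by
      ext σ
      rw [mem_fixingSubgroup_conjField, mem_fixingSubgroup_conjField, hcon σ]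
    rw [← InfiniteGalois.fixedField_fixingSubgroup (conjField K), h1,
      InfiniteGalois.fixedField_fixingSubgroup]
  obtain ⟨σ₀, hσ₀⟩ := hσ₀
  let Φ := (embPerm K).prod (embPerm L)
  let r : GQ →* Φ.range := Φ.rangeRestrict
  let p₁ : Φ.range →* Equiv.Perm (K →+* Qbar) := (MonoidHom.fst _ _).comp Φ.range.subtype
  let p₂ : Φ.range →* Equiv.Perm (L →+* Qbar) := (MonoidHom.snd _ _).comp Φ.range.subtype
  have hker : IsOpen ((r.ker : Subgroup GQ) : Set GQ) := by
    change IsOpen ((Φ.rangeRestrict.ker : Subgroup GQ) : Set GQ)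
    rw [MonoidHom.ker_rangeRestrict, MonoidHom.ker_prod]
    exact (isOpen_ker_embPerm K).inter (isOpen_ker_embPerm L)
  have hex : ∀ p : ℕ, ∃ σ : GQ, p.Prime → ∃ A : ValuationSubring Qbar,
      A.LiesOverPrime p ∧ A.IsFrobeniusAt σ p := by
    intro p
    by_cases hp : p.Prime
    · obtain ⟨A, hA, σ, hσ⟩ := exists_frobenius p hp
      exact ⟨σ, fun _ => ⟨A, hA, hσ⟩⟩
    · exact ⟨1, fun h => absurd h hp⟩
  choose φ hφ using hex
  let C : Set Φ.range := {g | ¬ (p₁ g = 1 ↔ p₂ g = 1)}
  have hC : ∀ g, g ∈ C ↔ ¬ (p₁ g = 1 ↔ p₂ g = 1) := fun g => Iff.rfl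
  have h1 := Frob.Final.frobenius_density hker Φ.rangeRestrict_surjective hφ (S := C)
    (fun x g hg => by
      rw [hC] at hg ⊢
      rw [hom_conj_eq_one_iff p₁, hom_conj_eq_one_iff p₂]
      exact hg)
    (fun g g' hz hg => by
      rw [hC] at hg ⊢
      rw [← hom_eq_one_iff_of_zpowers p₁ hz, ← hom_eq_one_iff_of_zpowers p₂ hz]
      exact hg)
  obtain ⟨D, hD, hK⟩ := spl_iff (K := K)
  obtain ⟨D', hD', hL⟩ := spl_iff (K := L)
  have hCpos : 1 ≤ Nat.card C := by
    have : Nonempty C := ⟨⟨r σ₀, hσ₀⟩⟩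
    exact Nat.card_pos
  have hG : (0 : ℝ) < Nat.card Φ.range := by exact_mod_cast Nat.card_pos
  have hdisj : ∀ g : Φ.range, p₁ g = 1 → p₂ g = 1 → g = 1 := fun g h1 h2 =>
    Subtype.ext (Prod.ext h1 h2)
  have hbound : ∀ (H : Subgroup Φ.range), (∀ g ∈ H, g ≠ 1 → g ∈ C) →
      Nat.card H ≤ 2 * Nat.card C := by
    intro H hH
    have h2 : (H : Set Φ.range) ⊆ insert 1 C := by
      intro g hg
      by_cases h3 : g = 1
      · exact Or.inl h3
      · exact Or.inr (hH g hg h3)
    have h3 := Set.ncard_le_ncard h2 (Set.toFinite _)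
    have h4 := Set.ncard_insert_le (1 : Φ.range) C
    have h5 : (H : Set Φ.range).ncard = Nat.card H := rfl
    have h6 : C.ncard = Nat.card C := rfl
    omega
  have hrange₁ : Nat.card p₁.range = Nat.card (GalK K) := by
    have : p₁.range = GalK K := by
      ext s
      constructor
      · rintro ⟨⟨_, σ, rfl⟩, rfl⟩
        exact ⟨σ, rfl⟩
      · rintro ⟨σ, rfl⟩
        exact ⟨r σ, rfl⟩
    rw [this]
  have hrange₂ : Nat.card p₂.range = Nat.card (GalK L) := by
    have : p₂.range = GalK L := by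
      ext s
      constructor
      · rintro ⟨⟨_, σ, rfl⟩, rfl⟩
        exact ⟨σ, rfl⟩
      · rintro ⟨σ, rfl⟩
        exact ⟨r σ, rfl⟩
    rw [this]
  have hle₁ : Nat.card p₁.ker ≤ 2 * Nat.card C := hbound _ fun g hg hg1 => by
    rw [hC]
    intro h2
    exact hg1 (hdisj g hg (h2.1 hg))
  have hle₂ : Nat.card p₂.ker ≤ 2 * Nat.card C := hbound _ fun g hg hg1 => by
    rw [hC]
    intro h2
    exact hg1 (hdisj g (h2.2 hg) hg)
  have hfin : ∀ (a b c t : ℕ), 0 < t → 0 < b → a * b = t → a ≤ 2 * c →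
      1 / (2 * (b : ℝ)) ≤ (c : ℝ) / t := by
    intro a b c t ht hb hab hac
    rw [div_le_div_iff₀ (by positivity) (by exact_mod_cast ht), one_mul]
    have h2 : t ≤ c * (2 * b) := by
      rw [← hab]
      calc a * b ≤ 2 * c * b := Nat.mul_le_mul_right _ hac
        _ = c * (2 * b) := by ring
    exact_mod_cast h2
  refine ⟨(Nat.card C : ℝ) / Nat.card Φ.range, ?_, ?_, h1.congr (mul_ne_zero hD hD')
    fun p hp hpD => ?_⟩
  · refine hfin (Nat.card p₁.ker) _ _ _ Nat.card_pos Nat.card_pos ?_ hle₁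
    rw [← hrange₁, ← Subgroup.index_ker, Subgroup.card_mul_index]
  · refine hfin (Nat.card p₂.ker) _ _ _ Nat.card_pos Nat.card_pos ?_ hle₂
    rw [← hrange₂, ← Subgroup.index_ker, Subgroup.card_mul_index]
  · obtain ⟨A, hA, hσ⟩ := hφ p hp
    rw [hK p hp (fun hd => hpD (hd.mul_right _)) A hA _ hσ,
      hL p hp (fun hd => hpD (hd.mul_left _)) A hA _ hσ]
    rfl

/-- for `K / ℚ` Galois the image of `K` in `ℚ̄` is the normal closure -/
theorem fieldRange_eq_conjField [IsGalois ℚ K] (j : K →+* Qbar) :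
    j.toRatAlgHom.fieldRange = conjField K := by
  refine le_antisymm (le_iSup (fun j : K →+* Qbar => j.toRatAlgHom.fieldRange) j)
    (iSup_le fun j' => ?_)
  let : Algebra K Qbar := j.toAlgebra
  have : IsScalarTower ℚ K Qbar := IsScalarTower.of_algebraMap_eq' (Subsingleton.elim _ _)
  obtain ⟨a, ha⟩ := (Normal.algHomEquivAut ℚ Qbar K).symm.surjective j'.toRatAlgHom
  rintro _ ⟨x, rfl⟩
  refine ⟨a x, ?_⟩
  exact DFunLike.congr_fun ha x

theorem nonempty_ringEquiv_of_conjField_eq [IsGalois ℚ K] [IsGalois ℚ L]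
    (h : conjField K = conjField L) : Nonempty (K ≃+* L) := by
  obtain ⟨j⟩ := nonempty_emb K
  obtain ⟨i⟩ := nonempty_emb L
  rw [← fieldRange_eq_conjField j, ← fieldRange_eq_conjField i] at h
  exact ⟨(((AlgEquiv.ofInjectiveField j.toRatAlgHom).trans
    (IntermediateField.equivOfEq h)).trans
    (AlgEquiv.ofInjectiveField i.toRatAlgHom).symm).toRingEquiv⟩

open Classical in
/-- **Bauer's theorem with densities**: `K`, `L` Galois over `ℚ`, not isomorphic. The primes which
split completely in exactly one of the two fields have a natural density, and it is at least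
`1 / (2 [K : ℚ])` and at least `1 / (2 [L : ℚ])`. -/
theorem exists_density_spl [IsGalois ℚ K] [IsGalois ℚ L] (hne : ¬ Nonempty (K ≃+* L)) :
    ∃ δ : ℝ, 1 / (2 * (Module.finrank ℚ K : ℝ)) ≤ δ ∧ 1 / (2 * (Module.finrank ℚ L : ℝ)) ≤ δ ∧
      Tendsto (fun x : ℕ => (((Finset.range (x + 1)).filter fun p =>
        p.Prime ∧ ¬ (Spl K p ↔ Spl L p)).card : ℝ) / Nat.primeCounting x) atTop (𝓝 δ) := by
  obtain ⟨δ, h1, h2, h⟩ := exists_hasDensity_spl (K := K) (L := L)
    fun h => hne (nonempty_ringEquiv_of_conjField_eq h)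
  rw [card_galK_of_isGalois] at h1 h2
  refine ⟨δ, h1, h2, ?_⟩
  convert tendsto_div_primeCounting h

open Classical in
/-- **Bauer's theorem with densities**, second form: `K`, `L` Galois over `ℚ`. If the proportion of
the primes `p ≤ x` which split completely in both fields or in none of them is at least
`1 - 1 / (2 [K : ℚ]) + ε` for arbitrarily large `x`, then `K` and `L` are isomorphic. -/
theorem nonempty_equiv_of_spl [IsGalois ℚ K] [IsGalois ℚ L] {ε : ℝ} (hε : 0 < ε)
    (hfreq : ∃ᶠ x : ℕ in atTop,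
      (1 - 1 / (2 * (Module.finrank ℚ K : ℝ)) + ε) * Nat.primeCounting x ≤
      (((Finset.range (x + 1)).filter fun p => p.Prime ∧ (Spl K p ↔ Spl L p)).card : ℝ)) :
    Nonempty (K ≃+* L) := by
  by_contra hne
  obtain ⟨δ, h1, -, hlim⟩ := exists_density_spl hne
  have key : ∀ p, ((if Spl K p then 1 else 0 : ℕ) = (if Spl L p then 1 else 0 : ℕ)) ↔
      (Spl K p ↔ Spl L p) := by
    intro p
    by_cases hK : Spl K p <;> by_cases hL : Spl L p <;> simp [hK, hL]
  refine false_of_frequently (a := fun p => if Spl K p then 1 else 0)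
    (b := fun p => if Spl L p then 1 else 0) hε h1 (hlim.congr fun x => ?_)
    (hfreq.mono fun x hx => ?_)
  · congr 2
    refine congrArg Finset.card (Finset.filter_congr fun p _ => ?_)
    rw [ne_eq, key]
  · refine hx.trans (le_of_eq ?_)
    congr 1
    refine congrArg Finset.card (Finset.filter_congr fun p _ => ?_)
    rw [key]

end Fermat.Agent.Cor.Falt
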